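/-
GATE-L / (V3) XI-STEP, abstract half (helper46; contract of board 2764 (3), BLUEPRINT v2 2677 (V3)).

A *branch* of a point is a (composite, rank ≤ 2) valuation subring `W` of the function field `F`
together with a multiplicative "value at the branch" `ev : F → k` on `W` (in practice the residue
map of `W`: reduce modulo the vertical valuation `w_i`, then evaluate at the point of `C_i`).
Only the MULTIPLICATIVE structure is used.

`xi_pow_const`: triple points `n : T` with three branches `b n 0, b n 1, b n 2` (on `C1, C2, C3`),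
`g ^ m * u2 = c` with `u2` of branch values `1` and `c` a unit with equal branch values
(`c ∈ B2 ∖ ⋃ n`, from `KummerMove.kummer_move`).  Two norm maps `Nm1, Nm2` to the levels below
(`π`, `π''`), with norm-reduction at the branches

  `ev'₀ (Nm1 z) = ev₀ z * (ev₂ z)^(q-1)`,  `ev'₁ (Nm1 z) = (ev₁ z)^q`,
  `ev''₀ (Nm2 z) = (ev₀ z)^q`,             `ev''₁ (Nm2 z) = ev₁ z * (ev₂ z)^(q-1)`,

functions `h1, h2` below with CONSTANT branch values (`Nm u2 = c₀ h^m`, `rd' h` constant), and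
equal branch values of `h1 * Nm1 g`, `h2 * Nm2 g` at the nodes (they are units of the normal
local rings at the nodes: `node_values_eq`).  Then `g` is a unit at every branch and the
`(q²-1)`-th powers of the ratios `ξ₁/ξ₀`, `ξ₂/ξ₀` (`ξ_i = ev_i g`) are GLOBAL constants
`a0, b0 ∈ μ_m(k)` (`VertMatrix.glue_ratio_pow_const`).

`xi_trivial_of_correction`: if `f0` is a unit at every branch with branch values `(1, a0, b0)`
then `g3 := g^(q²-1) / f0` satisfies `g3 ^ m * (u2^(q²-1) * f0^m) = c^(q²-1)`, is a unit at every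
branch and has EQUAL branch values at every triple point (`= (XI_n)`), and the new
`u3 := u2^(q²-1) * f0^m` still has branch values `1`.
-/
import Mathlib
import Fermat.Agent.GL.Alg.VertMatrix

set_option autoImplicit false
set_option linter.unusedSectionVars false
set_option linter.unusedVariables false

namespace Fermat.Agent.GL.XiStep

open Fermat.Agent.GL

/-- A branch: a valuation subring with a multiplicative value map. -/
structure Branch (F k : Type*) [Field F] [Field k] where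
  /-- the (composite) valuation ring of the branch -/
  W : ValuationSubring F
  /-- value at the branch (junk outside `W`) -/
  ev : F → k
  ev_one : ev 1 = 1
  ev_mul : ∀ x y, x ∈ W → y ∈ W → ev (x * y) = ev x * ev y

section Basic

variable {F k : Type*} [Field F] [Field k]

/-- the branch defined by a ring homomorphism `W →+* k`. -/
noncomputable def Branch.ofRingHom (W : ValuationSubring F) (e : W →+* k) : Branch F k := by
  classical
  exact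
  { W := W
    ev := fun z => if h : z ∈ W then e ⟨z, h⟩ else 0
    ev_one := by
      rw [dif_pos W.one_mem]
      exact map_one e
    ev_mul := by
      intro x y hx hy
      rw [dif_pos hx, dif_pos hy, dif_pos (W.mul_mem _ _ hx hy), ← map_mul]
      rfl }

theorem Branch.ofRingHom_ev (W : ValuationSubring F) (e : W →+* k) {z : F} (hz : z ∈ W) :
    (Branch.ofRingHom W e).ev z = e ⟨z, hz⟩ := by
  classical
  show (if h : z ∈ W then e ⟨z, h⟩ else 0) = _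
  rw [dif_pos hz]

/-- `z^m ∈ W ⟹ z ∈ W` for a valuation subring. -/
theorem mem_of_pow_mem (W : ValuationSubring F) {m : ℕ} (hm : m ≠ 0) {z : F} (h : z ^ m ∈ W) :
    z ∈ W := by
  rcases W.mem_or_inv_mem z with h1 | h1
  · exact h1
  · by_cases hz0 : z = 0
    · rw [hz0]; exact W.zero_mem
    have : z = z ^ m * (z⁻¹) ^ (m - 1) := by
      obtain ⟨j, rfl⟩ := Nat.exists_eq_succ_of_ne_zero hm
      simp only [Nat.succ_sub_one, pow_succ, inv_pow]
      field_simp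
    rw [this]
    exact W.mul_mem _ _ h (W.pow_mem h1 _)

variable (b : Branch F k)

/-- `z` is a unit at the branch. -/
def Branch.IsU (z : F) : Prop := z ≠ 0 ∧ z ∈ b.W ∧ z⁻¹ ∈ b.W

variable {b}

theorem Branch.IsU.one : b.IsU 1 := ⟨one_ne_zero, b.W.one_mem, by rw [inv_one]; exact b.W.one_mem⟩

theorem Branch.IsU.mul {x y : F} (hx : b.IsU x) (hy : b.IsU y) : b.IsU (x * y) :=
  ⟨mul_ne_zero hx.1 hy.1, b.W.mul_mem _ _ hx.2.1 hy.2.1, by
    rw [mul_inv]; exact b.W.mul_mem _ _ hx.2.2 hy.2.2⟩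

theorem Branch.IsU.inv {x : F} (hx : b.IsU x) : b.IsU x⁻¹ :=
  ⟨inv_ne_zero hx.1, hx.2.2, by rw [inv_inv]; exact hx.2.1⟩

theorem Branch.IsU.div {x y : F} (hx : b.IsU x) (hy : b.IsU y) : b.IsU (x / y) := by
  rw [div_eq_mul_inv]; exact hx.mul hy.inv

theorem Branch.IsU.pow {x : F} (hx : b.IsU x) (n : ℕ) : b.IsU (x ^ n) :=
  ⟨pow_ne_zero _ hx.1, b.W.pow_mem hx.2.1 _, by rw [← inv_pow]; exact b.W.pow_mem hx.2.2 _⟩

theorem Branch.IsU.of_pow {m : ℕ} (hm : m ≠ 0) {z : F} (h : b.IsU (z ^ m)) : b.IsU z := by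
  refine ⟨fun h0 => h.1 (by rw [h0, zero_pow hm]), mem_of_pow_mem b.W hm h.2.1, ?_⟩
  apply mem_of_pow_mem b.W hm
  rw [inv_pow]; exact h.2.2

theorem Branch.ev_mul_of_isU {x y : F} (hx : b.IsU x) (hy : b.IsU y) :
    b.ev (x * y) = b.ev x * b.ev y := b.ev_mul x y hx.2.1 hy.2.1

theorem Branch.ev_mul_inv {x : F} (hx : b.IsU x) : b.ev x * b.ev x⁻¹ = 1 := by
  rw [← b.ev_mul x x⁻¹ hx.2.1 hx.2.2, mul_inv_cancel₀ hx.1, b.ev_one]

theorem Branch.ev_ne_zero {x : F} (hx : b.IsU x) : b.ev x ≠ 0 := by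
  intro h
  have := Branch.ev_mul_inv hx
  rw [h, zero_mul] at this
  exact zero_ne_one this

theorem Branch.ev_inv {x : F} (hx : b.IsU x) : b.ev x⁻¹ = (b.ev x)⁻¹ :=
  eq_inv_of_mul_eq_one_right (Branch.ev_mul_inv hx)

theorem Branch.ev_div {x y : F} (hx : b.IsU x) (hy : b.IsU y) :
    b.ev (x / y) = b.ev x / b.ev y := by
  rw [div_eq_mul_inv, Branch.ev_mul_of_isU hx hy.inv, Branch.ev_inv hy, div_eq_mul_inv]

theorem Branch.ev_pow {x : F} (hx : b.IsU x) (n : ℕ) : b.ev (x ^ n) = (b.ev x) ^ n := by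
  induction n with
  | zero => rw [pow_zero, pow_zero, b.ev_one]
  | succ j ih => rw [pow_succ, Branch.ev_mul_of_isU (hx.pow j) hx, ih, pow_succ]

end Basic

/-- equal branch values at a node: `O'` (the local ring at the node) is `m`-root closed, its
units have equal branch values, `x = z^m` is a unit of `O'` ⟹ `z` has equal branch values. -/
theorem node_values_eq {F' k : Type*} [Field F'] [Field k] (O' : Subring F') {m : ℕ} (hm : m ≠ 0)
    (hroot : ∀ z : F', z ^ m ∈ O' → z ∈ O') (ev0 ev1 : F' → k)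
    (hE0 : ∀ z : F', z ≠ 0 → z ∈ O' → z⁻¹ ∈ O' → ev0 z = ev1 z)
    {x z : F'} (hz : z ^ m = x) (hx0 : x ≠ 0) (hx : x ∈ O') (hx' : x⁻¹ ∈ O') :
    ev0 z = ev1 z := by
  have hz0 : z ≠ 0 := by
    rintro rfl
    rw [zero_pow hm] at hz
    exact hx0 hz.symm
  refine hE0 z hz0 (hroot z (hz ▸ hx)) (hroot z⁻¹ ?_)
  rw [inv_pow, hz]; exact hx'

/-- the hypothesis `hnode` of `xi_pow_const` from the norm relation: `g ^ m * u2 = c`,
`Nm u2 = c0 * h ^ m` ⟹ `(h * Nm g) ^ m = Nm c / c0`; if this is a unit of the (root closed)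
local ring `O'` at the node then `h * Nm g` has equal branch values. -/
theorem node_eq_of_norm {F F' k : Type*} [Field F] [Field F'] [Field k] (O' : Subring F')
    {m : ℕ} (hm : m ≠ 0) (hroot : ∀ z : F', z ^ m ∈ O' → z ∈ O') (ev0 ev1 : F' → k)
    (hE0 : ∀ z : F', z ≠ 0 → z ∈ O' → z⁻¹ ∈ O' → ev0 z = ev1 z)
    (Nm : F →* F') {g u2 c : F} (hguc : g ^ m * u2 = c) {c0 h : F'} (hc0 : c0 ≠ 0)
    (hN : Nm u2 = c0 * h ^ m) (hx0 : Nm c ≠ 0) (hx : Nm c / c0 ∈ O') (hx' : (Nm c / c0)⁻¹ ∈ O') :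
    ev0 (h * Nm g) = ev1 (h * Nm g) := by
  refine node_values_eq O' hm hroot ev0 ev1 hE0 (x := Nm c / c0) ?_ (div_ne_zero hx0 hc0) hx hx'
  rw [← hguc, map_mul, map_pow, hN, mul_pow]
  field_simp

section Main

variable {F F1 F2 k : Type*} [Field F] [Field F1] [Field F2] [Field k]
variable {T T1 T2 : Type*}

/-- **(V3), abstract.**  See the file header. -/
theorem xi_pow_const (p1 : T → T1) (p2 : T → T2)
    (b : T → Fin 3 → Branch F k) (b1 : T1 → Fin 2 → Branch F1 k) (b2 : T2 → Fin 2 → Branch F2 k)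
    (Nm1 : F →* F1) (Nm2 : F →* F2) {q m : ℕ} (hq : 1 ≤ q) (hm : m ≠ 0)
    {g u2 c : F} (hguc : g ^ m * u2 = c)
    (hu2 : ∀ n i, (b n i).IsU u2 ∧ (b n i).ev u2 = 1)
    (cbar : T → k) (hc : ∀ n i, (b n i).IsU c ∧ (b n i).ev c = cbar n)
    (hNR1 : ∀ n z, (∀ i, (b n i).IsU z) →
      (b1 (p1 n) 0).IsU (Nm1 z) ∧ (b1 (p1 n) 1).IsU (Nm1 z) ∧
      (b1 (p1 n) 0).ev (Nm1 z) = (b n 0).ev z * ((b n 2).ev z) ^ (q - 1) ∧
      (b1 (p1 n) 1).ev (Nm1 z) = ((b n 1).ev z) ^ q)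
    {h1 : F1} (γ1 : Fin 2 → k) (hh1 : ∀ n' j, (b1 n' j).IsU h1 ∧ (b1 n' j).ev h1 = γ1 j)
    (hnode1 : ∀ n, (b1 (p1 n) 0).ev (h1 * Nm1 g) = (b1 (p1 n) 1).ev (h1 * Nm1 g))
    (hNR2 : ∀ n z, (∀ i, (b n i).IsU z) →
      (b2 (p2 n) 0).IsU (Nm2 z) ∧ (b2 (p2 n) 1).IsU (Nm2 z) ∧
      (b2 (p2 n) 0).ev (Nm2 z) = ((b n 0).ev z) ^ q ∧
      (b2 (p2 n) 1).ev (Nm2 z) = (b n 1).ev z * ((b n 2).ev z) ^ (q - 1))
    {h2 : F2} (γ2 : Fin 2 → k) (hh2 : ∀ n' j, (b2 n' j).IsU h2 ∧ (b2 n' j).ev h2 = γ2 j)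
    (hnode2 : ∀ n, (b2 (p2 n) 0).ev (h2 * Nm2 g) = (b2 (p2 n) 1).ev (h2 * Nm2 g)) :
    (∀ n i, (b n i).IsU g) ∧ (∀ n i, ((b n i).ev g) ^ m = cbar n) ∧
    ∃ a0 b0 : k, a0 ^ m = 1 ∧ b0 ^ m = 1 ∧ ∀ n,
      ((b n 1).ev g / (b n 0).ev g) ^ (q ^ 2 - 1) = a0 ∧
      ((b n 2).ev g / (b n 0).ev g) ^ (q ^ 2 - 1) = b0 := by
  -- `g` is a unit at every branch
  have hgm : ∀ n i, (b n i).IsU (g ^ m) := by
    intro n i
    have : g ^ m = c / u2 := by
      rw [← hguc, mul_div_assoc, div_self (hu2 n i).1.1, mul_one]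
    rw [this]
    exact (hc n i).1.div (hu2 n i).1
  have hg : ∀ n i, (b n i).IsU g := fun n i => (hgm n i).of_pow hm
  have hξm : ∀ n i, ((b n i).ev g) ^ m = cbar n := by
    intro n i
    rw [← Branch.ev_pow (hg n i), ← (hc n i).2, ← hguc,
      Branch.ev_mul_of_isU (hgm n i) (hu2 n i).1, (hu2 n i).2, mul_one]
  refine ⟨hg, hξm, ?_⟩
  by_cases hT : Nonempty T
  swap
  · exact ⟨1, 1, one_pow _, one_pow _, fun n => absurd ⟨n⟩ hT⟩
  obtain ⟨n0⟩ := hT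
  -- the values as units of `k`
  let ξ : T → Fin 3 → kˣ := fun n i => Units.mk0 ((b n i).ev g) (Branch.ev_ne_zero (hg n i))
  have hγ1 : ∀ j, γ1 j ≠ 0 := fun j => by
    rw [← (hh1 (p1 n0) j).2]; exact Branch.ev_ne_zero (hh1 (p1 n0) j).1
  have hγ2 : ∀ j, γ2 j ≠ 0 := fun j => by
    rw [← (hh2 (p2 n0) j).2]; exact Branch.ev_ne_zero (hh2 (p2 n0) j).1
  let G1 : Fin 2 → kˣ := fun j => Units.mk0 (γ1 j) (hγ1 j)
  let G2 : Fin 2 → kˣ := fun j => Units.mk0 (γ2 j) (hγ2 j)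
  -- the two norm relations
  have hrel1 : ∀ n, ξ n 0 * ξ n 2 ^ (q - 1) = (G1 1 / G1 0) * ξ n 1 ^ q := by
    intro n
    obtain ⟨hU0, hU1, hE0, hE1⟩ := hNR1 n g (hg n)
    have h := hnode1 n
    rw [Branch.ev_mul_of_isU (hh1 (p1 n) 0).1 hU0, Branch.ev_mul_of_isU (hh1 (p1 n) 1).1 hU1,
      (hh1 (p1 n) 0).2, (hh1 (p1 n) 1).2, hE0, hE1] at h
    rw [div_mul_eq_mul_div, eq_div_iff_mul_eq']
    apply Units.ext
    simp only [Units.val_mul, Units.val_pow_eq_pow_val, ξ, G1, Units.val_mk0]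
    linear_combination h
  have hrel2 : ∀ n, ξ n 0 ^ q = (G2 1 / G2 0) * ξ n 1 * ξ n 2 ^ (q - 1) := by
    intro n
    obtain ⟨hU0, hU1, hE0, hE1⟩ := hNR2 n g (hg n)
    have h := hnode2 n
    rw [Branch.ev_mul_of_isU (hh2 (p2 n) 0).1 hU0, Branch.ev_mul_of_isU (hh2 (p2 n) 1).1 hU1,
      (hh2 (p2 n) 0).2, (hh2 (p2 n) 1).2, hE0, hE1] at h
    have key : ξ n 0 ^ q * G2 0 = G2 1 * (ξ n 1 * ξ n 2 ^ (q - 1)) := by
      apply Units.ext
      simp only [Units.val_mul, Units.val_pow_eq_pow_val, ξ, G2, Units.val_mk0]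
      linear_combination h
    rw [mul_assoc, div_mul_eq_mul_div, eq_div_iff_mul_eq']
    exact key
  obtain ⟨k1, k3⟩ := VertMatrix.glue_ratio_pow_const hq hrel1 hrel2
  -- constants
  set C1 : kˣ := (G1 1 / G1 0 * (G2 1 / G2 0)) ^ (q - 1) with hC1
  set C3 : kˣ := (G1 1 / G1 0) ^ q * (G2 1 / G2 0)⁻¹ with hC3
  have hA : ∀ n, (ξ n 1 / ξ n 0) ^ (q ^ 2 - 1) = C1⁻¹ := by
    intro n
    have := k1 n
    rw [← this, ← inv_pow, inv_div]
  have hB : ∀ n, (ξ n 2 / ξ n 0) ^ (q ^ 2 - 1) = C3 * C1⁻¹ := by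
    intro n
    have e : ξ n 2 / ξ n 0 = (ξ n 2 / ξ n 1) * (ξ n 1 / ξ n 0) := by
      rw [div_mul_div_cancel]
    rw [e, mul_pow, k3 n, hA n]
  have hval : ∀ n i, ((ξ n i : kˣ) : k) = (b n i).ev g := fun n i => rfl
  have hratio_m : ∀ n i, ((ξ n i / ξ n 0) ^ m : kˣ) = 1 := by
    intro n i
    apply Units.ext
    rw [Units.val_pow_eq_pow_val, Units.val_div_eq_div_val, div_pow, hval, hval, hξm n i,
      hξm n 0, Units.val_one, div_self]
    rw [← (hc n 0).2]; exact Branch.ev_ne_zero (hc n 0).1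
  refine ⟨((C1⁻¹ : kˣ) : k), ((C3 * C1⁻¹ : kˣ) : k), ?_, ?_, fun n => ⟨?_, ?_⟩⟩
  · rw [← Units.val_pow_eq_pow_val, ← hA n0, ← pow_mul, mul_comm, pow_mul, hratio_m n0 1,
      one_pow, Units.val_one]
  · rw [← Units.val_pow_eq_pow_val, ← hB n0, ← pow_mul, mul_comm, pow_mul, hratio_m n0 2,
      one_pow, Units.val_one]
  · rw [← hA n, Units.val_pow_eq_pow_val, Units.val_div_eq_div_val, hval, hval]
  · rw [← hB n, Units.val_pow_eq_pow_val, Units.val_div_eq_div_val, hval, hval]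

/-- **(XI_n) after the correction by `f0`.** -/
theorem xi_trivial_of_correction (b : T → Fin 3 → Branch F k) {q m : ℕ}
    {g u2 c f0 : F} (hguc : g ^ m * u2 = c) (hf00 : f0 ≠ 0)
    (hu2 : ∀ n i, (b n i).IsU u2 ∧ (b n i).ev u2 = 1)
    (hg : ∀ n i, (b n i).IsU g) {a0 b0 : k} (ha0 : a0 ^ m = 1) (hb0 : b0 ^ m = 1)
    (hξ : ∀ n, ((b n 1).ev g / (b n 0).ev g) ^ (q ^ 2 - 1) = a0 ∧
      ((b n 2).ev g / (b n 0).ev g) ^ (q ^ 2 - 1) = b0)
    (hf0 : ∀ n i, (b n i).IsU f0)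
    (hf0ev : ∀ n, (b n 0).ev f0 = 1 ∧ (b n 1).ev f0 = a0 ∧ (b n 2).ev f0 = b0) :
    (g ^ (q ^ 2 - 1) / f0) ^ m * (u2 ^ (q ^ 2 - 1) * f0 ^ m) = c ^ (q ^ 2 - 1) ∧
    (∀ n i, (b n i).IsU (g ^ (q ^ 2 - 1) / f0)) ∧
    (∀ n i, (b n i).IsU (u2 ^ (q ^ 2 - 1) * f0 ^ m) ∧
      (b n i).ev (u2 ^ (q ^ 2 - 1) * f0 ^ m) = 1) ∧
    ∀ n i, (b n i).ev (g ^ (q ^ 2 - 1) / f0) = (b n 0).ev (g ^ (q ^ 2 - 1) / f0) := by
  set K := q ^ 2 - 1 with hK
  have hgK : ∀ n i, (b n i).IsU (g ^ K / f0) := fun n i => ((hg n i).pow K).div (hf0 n i)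
  have hevg : ∀ n i, (b n i).ev (g ^ K / f0) = ((b n i).ev g) ^ K / (b n i).ev f0 := by
    intro n i
    rw [Branch.ev_div ((hg n i).pow K) (hf0 n i), Branch.ev_pow (hg n i)]
  refine ⟨?_, hgK, fun n i => ⟨((hu2 n i).1.pow K).mul ((hf0 n i).pow m), ?_⟩, fun n i => ?_⟩
  · rw [← hguc, div_pow]
    field_simp
    ring
  · rw [Branch.ev_mul_of_isU ((hu2 n i).1.pow K) ((hf0 n i).pow m),
      Branch.ev_pow (hu2 n i).1, Branch.ev_pow (hf0 n i), (hu2 n i).2, one_pow, one_mul]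
    obtain ⟨e0, e1, e2⟩ := hf0ev n
    fin_cases i
    · show ((b n 0).ev f0) ^ m = 1
      rw [e0, one_pow]
    · show ((b n 1).ev f0) ^ m = 1
      rw [e1, ha0]
    · show ((b n 2).ev f0) ^ m = 1
      rw [e2, hb0]
  · rw [hevg n i, hevg n 0]
    obtain ⟨e0, e1, e2⟩ := hf0ev n
    have h0 : (b n 0).ev g ≠ 0 := Branch.ev_ne_zero (hg n 0)
    have h0K : ((b n 0).ev g) ^ K ≠ 0 := pow_ne_zero _ h0
    fin_cases i
    · rfl
    · show ((b n 1).ev g) ^ K / (b n 1).ev f0 = ((b n 0).ev g) ^ K / (b n 0).ev f0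
      rw [e0, e1, ← (hξ n).1, div_pow, div_one]
      have h1K : ((b n 1).ev g) ^ K ≠ 0 := pow_ne_zero _ (Branch.ev_ne_zero (hg n 1))
      field_simp
    · show ((b n 2).ev g) ^ K / (b n 2).ev f0 = ((b n 0).ev g) ^ K / (b n 0).ev f0
      rw [e0, e2, ← (hξ n).2, div_pow, div_one]
      have h2K : ((b n 2).ev g) ^ K ≠ 0 := pow_ne_zero _ (Branch.ev_ne_zero (hg n 2))
      field_simp

end Main

end Fermat.Agent.GL.XiStep
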