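/-
GATE-L / COMPOSITE BRANCH (helper46): the rank-2 valuation ring of a branch.

`V` a valuation subring of `F` (a vertical valuation `w_i`), `r : V →+* κ` its reduction to the
residue field (`r` kills the non-units of `V`), `U` a valuation subring of `κ` (the local ring of
the component `C_i` at the point `x_i`).  Then

  `comp V r hr U = {z ∈ V | r z ∈ U}`

is a valuation subring of `F` (`= ` "regular at the branch"), with the ring homomorphism
`resComp : comp V r hr U →+* U`.  Composing with an evaluation `e : U →+* k` gives the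
`XiStep.Branch` of the branch (`branch`), whose value is `ev z = e (r z)`; for
`LocGlue.loc_chars` the branch character is `e.comp (resComp ..)` restricted to the local ring.
-/
import Mathlib
import Fermat.Agent.GL.Chain.XiStep

set_option autoImplicit false
set_option linter.unusedSectionVars false
set_option linter.unusedVariables false

namespace Fermat.Agent.GL.CompBranch

open Fermat.Agent.GL

variable {F κ k : Type*} [Field F] [Field κ] [Field k]

section Comp

variable (V : ValuationSubring F) (r : V →+* κ) (hr : ∀ z : V, ¬ IsUnit z → r z = 0)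
  (U : ValuationSubring κ)

/-- an element of `V` whose inverse lies in `V` is a unit of `V`. -/
theorem isUnit_of_inv_mem {V : ValuationSubring F} {x : F} (hx : x ∈ V) (hx0 : x ≠ 0)
    (hxi : x⁻¹ ∈ V) : IsUnit (⟨x, hx⟩ : V) := by
  refine ⟨⟨⟨x, hx⟩, ⟨x⁻¹, hxi⟩, ?_, ?_⟩, rfl⟩
  · apply Subtype.ext
    show x * x⁻¹ = 1
    exact mul_inv_cancel₀ hx0
  · apply Subtype.ext
    show x⁻¹ * x = 1
    exact inv_mul_cancel₀ hx0

/-- a unit of `V` has its inverse in `V`. -/
theorem inv_mem_of_isUnit {V : ValuationSubring F} {x : F} {hx : x ∈ V}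
    (h : IsUnit (⟨x, hx⟩ : V)) : x⁻¹ ∈ V := by
  obtain ⟨y, hy⟩ := h.exists_right_inv
  have h1 : x * (y : F) = 1 := by
    have := congrArg (fun z : V => (z : F)) hy
    simpa using this
  have : x⁻¹ = (y : F) := by
    have hx0 : x ≠ 0 := left_ne_zero_of_mul_eq_one h1
    exact inv_eq_of_mul_eq_one_right h1
  rw [this]; exact y.2

/-- the composite valuation subring `{z ∈ V | r z ∈ U}`. -/
def comp : ValuationSubring F where
  toSubring := (U.toSubring.comap r).map V.subtype
  mem_or_inv_mem' := by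
    intro x
    have hmem : ∀ y : F, y ∈ ((U.toSubring.comap r).map V.subtype) ↔
        ∃ hy : y ∈ V, r ⟨y, hy⟩ ∈ U := by
      intro y
      constructor
      · rintro ⟨z, hz, rfl⟩
        exact ⟨z.2, hz⟩
      · rintro ⟨hy, hU⟩
        exact ⟨⟨y, hy⟩, hU, rfl⟩
    show x ∈ ((U.toSubring.comap r).map V.subtype) ∨ x⁻¹ ∈ ((U.toSubring.comap r).map V.subtype)
    rw [hmem, hmem]
    by_cases hx : x ∈ V
    · by_cases hU : r ⟨x, hx⟩ ∈ U
      · exact Or.inl ⟨hx, hU⟩
      · right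
        have hrx0 : r ⟨x, hx⟩ ≠ 0 := fun h0 => hU (h0 ▸ U.zero_mem)
        have hunit : IsUnit (⟨x, hx⟩ : V) := by
          by_contra hnu
          exact hrx0 (hr _ hnu)
        have hxi : x⁻¹ ∈ V := inv_mem_of_isUnit hunit
        refine ⟨hxi, ?_⟩
        have hx0 : x ≠ 0 := by
          rintro rfl
          exact hrx0 (map_zero r)
        have hmul : r ⟨x, hx⟩ * r ⟨x⁻¹, hxi⟩ = 1 := by
          rw [← map_mul]
          have : (⟨x, hx⟩ : V) * ⟨x⁻¹, hxi⟩ = 1 := by
            apply Subtype.ext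
            show x * x⁻¹ = 1
            exact mul_inv_cancel₀ hx0
          rw [this, map_one]
        have : r ⟨x⁻¹, hxi⟩ = (r ⟨x, hx⟩)⁻¹ := eq_inv_of_mul_eq_one_right hmul
        rw [this]
        exact (U.mem_or_inv_mem _).resolve_left hU
    · right
      have hxi : x⁻¹ ∈ V := (V.mem_or_inv_mem x).resolve_left hx
      refine ⟨hxi, ?_⟩
      have hnu : ¬ IsUnit (⟨x⁻¹, hxi⟩ : V) := by
        intro h
        have := inv_mem_of_isUnit h
        rw [inv_inv] at this
        exact hx this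
      rw [hr _ hnu]
      exact U.zero_mem

theorem mem_comp {z : F} : z ∈ comp V r hr U ↔ ∃ hz : z ∈ V, r ⟨z, hz⟩ ∈ U := by
  constructor
  · rintro ⟨y, hy, rfl⟩
    exact ⟨y.2, hy⟩
  · rintro ⟨hz, hU⟩
    exact ⟨⟨z, hz⟩, hU, rfl⟩

theorem comp_le : comp V r hr U ≤ V := fun z hz => ((mem_comp V r hr U).mp hz).1

/-- the reduction `comp V r hr U →+* U`. -/
def resComp : comp V r hr U →+* U where
  toFun z := ⟨r ⟨z.1, ((mem_comp V r hr U).mp z.2).1⟩, ((mem_comp V r hr U).mp z.2).2⟩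
  map_one' := by
    apply Subtype.ext
    show r ⟨(1 : F), _⟩ = 1
    exact map_one r
  map_mul' := by
    intro a b
    apply Subtype.ext
    show r ⟨(a.1 * b.1 : F), _⟩ = r ⟨a.1, _⟩ * r ⟨b.1, _⟩
    rw [← map_mul]; rfl
  map_zero' := by
    apply Subtype.ext
    show r ⟨(0 : F), _⟩ = 0
    exact map_zero r
  map_add' := by
    intro a b
    apply Subtype.ext
    show r ⟨(a.1 + b.1 : F), _⟩ = r ⟨a.1, _⟩ + r ⟨b.1, _⟩
    rw [← map_add]; rfl

theorem resComp_apply (z : comp V r hr U) :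
    ((resComp V r hr U z : U) : κ) = r ⟨z.1, ((mem_comp V r hr U).mp z.2).1⟩ := rfl

/-- the `XiStep.Branch` of the composite valuation with evaluation `e : U →+* k`. -/
noncomputable def branch (e : U →+* k) : XiStep.Branch F k :=
  XiStep.Branch.ofRingHom (comp V r hr U) (e.comp (resComp V r hr U))

theorem branch_W (e : U →+* k) : (branch V r hr U e).W = comp V r hr U := rfl

theorem branch_ev (e : U →+* k) {z : F} (hz : z ∈ V) (hU : r ⟨z, hz⟩ ∈ U) :
    (branch V r hr U e).ev z = e ⟨r ⟨z, hz⟩, hU⟩ := by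
  have hmem : z ∈ comp V r hr U := (mem_comp V r hr U).mpr ⟨hz, hU⟩
  rw [branch, XiStep.Branch.ofRingHom_ev _ _ hmem]
  rfl

/-- units of `V` whose reduction is a unit of `U` are units at the branch. -/
theorem isU_branch (e : U →+* k) {z : F} (hz0 : z ≠ 0) (hz : z ∈ V) (hzi : z⁻¹ ∈ V)
    (hU : r ⟨z, hz⟩ ∈ U) (hUi : r ⟨z⁻¹, hzi⟩ ∈ U) : (branch V r hr U e).IsU z :=
  ⟨hz0, (mem_comp V r hr U).mpr ⟨hz, hU⟩, (mem_comp V r hr U).mpr ⟨hzi, hUi⟩⟩

/-- elements of `V` reducing to `1` are units at the branch with value `1`. -/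
theorem isU_of_res_eq_one (e : U →+* k) {z : F} (hz : z ∈ V) (h1 : r ⟨z, hz⟩ = 1) :
    (branch V r hr U e).IsU z ∧ (branch V r hr U e).ev z = 1 := by
  have hz0 : z ≠ 0 := by
    rintro rfl
    have : r ⟨(0 : F), hz⟩ = 0 := map_zero r
    rw [this] at h1
    exact zero_ne_one h1
  have hunit : IsUnit (⟨z, hz⟩ : V) := by
    by_contra hnu
    rw [hr _ hnu] at h1
    exact zero_ne_one h1
  have hzi : z⁻¹ ∈ V := inv_mem_of_isUnit hunit
  have hmul : r ⟨z, hz⟩ * r ⟨z⁻¹, hzi⟩ = 1 := by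
    rw [← map_mul]
    have : (⟨z, hz⟩ : V) * ⟨z⁻¹, hzi⟩ = 1 := by
      apply Subtype.ext
      show z * z⁻¹ = 1
      exact mul_inv_cancel₀ hz0
    rw [this, map_one]
  have hi1 : r ⟨z⁻¹, hzi⟩ = 1 := by rw [h1, one_mul] at hmul; exact hmul
  have hU : r ⟨z, hz⟩ ∈ U := h1 ▸ U.one_mem
  have hUi : r ⟨z⁻¹, hzi⟩ ∈ U := hi1 ▸ U.one_mem
  refine ⟨isU_branch V r hr U e hz0 hz hzi hU hUi, ?_⟩
  rw [branch_ev V r hr U e hz hU]
  have : (⟨r ⟨z, hz⟩, hU⟩ : U) = 1 := Subtype.ext h1
  rw [this, map_one]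

end Comp

end Fermat.Agent.GL.CompBranch
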