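/-
GATE-L / COMPOSITE BRANCH, additive part (helper46): the value `ev` of a composite branch is
additive on the composite ring, and elements of value `0` are non-units of it.  Adapter from
"equal branch values" (`XiStep`) to "`g - b0 ∈ (V' j).nonunits`" (`hxi` of helper35's
`LocBranch.loc_branch`).
-/
import Mathlib
import Fermat.Agent.GL.Chain.CompBranch

set_option autoImplicit false
set_option linter.unusedSectionVars false
set_option linter.unusedVariables false

namespace Fermat.Agent.GL.CompBranch

open Fermat.Agent.GL

variable {F κ k : Type*} [Field F] [Field κ] [Field k]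
  (V : ValuationSubring F) (r : V →+* κ) (hr : ∀ z : V, ¬ IsUnit z → r z = 0)
  (U : ValuationSubring κ) (e : U →+* k)

theorem branch_ev_of_mem {z : F} (hz : z ∈ comp V r hr U) :
    (branch V r hr U e).ev z = e (resComp V r hr U ⟨z, hz⟩) := by
  rw [branch, XiStep.Branch.ofRingHom_ev _ _ hz]
  rfl

theorem ev_sub {z w : F} (hz : z ∈ comp V r hr U) (hw : w ∈ comp V r hr U) :
    (branch V r hr U e).ev (z - w) =
      (branch V r hr U e).ev z - (branch V r hr U e).ev w := by
  have hzw : z - w ∈ comp V r hr U := sub_mem hz hw
  rw [branch_ev_of_mem V r hr U e hzw, branch_ev_of_mem V r hr U e hz,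
    branch_ev_of_mem V r hr U e hw, ← map_sub, ← map_sub]
  rfl

theorem ev_add {z w : F} (hz : z ∈ comp V r hr U) (hw : w ∈ comp V r hr U) :
    (branch V r hr U e).ev (z + w) =
      (branch V r hr U e).ev z + (branch V r hr U e).ev w := by
  have hzw : z + w ∈ comp V r hr U := (comp V r hr U).add_mem _ _ hz hw
  rw [branch_ev_of_mem V r hr U e hzw, branch_ev_of_mem V r hr U e hz,
    branch_ev_of_mem V r hr U e hw, ← map_add, ← map_add]
  rfl

/-- an element of the composite ring of value `0` is a non-unit of it. -/
theorem mem_nonunits_of_ev_eq_zero {z : F} (hz : z ∈ comp V r hr U)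
    (h0 : (branch V r hr U e).ev z = 0) : z ∈ (comp V r hr U).nonunits := by
  rw [ValuationSubring.mem_nonunits_iff_or]
  by_cases hz0 : z = 0
  · exact Or.inl hz0
  right
  intro hzi
  have hU : (branch V r hr U e).IsU z := ⟨hz0, hz, hzi⟩
  exact XiStep.Branch.ev_ne_zero hU h0

/-- equal branch values ⟹ the difference is a non-unit of the composite ring. -/
theorem sub_mem_nonunits_of_ev_eq {z w : F} (hz : z ∈ comp V r hr U)
    (hw : w ∈ comp V r hr U)
    (h : (branch V r hr U e).ev z = (branch V r hr U e).ev w) :
    z - w ∈ (comp V r hr U).nonunits := by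
  apply mem_nonunits_of_ev_eq_zero V r hr U e (sub_mem hz hw)
  rw [ev_sub V r hr U e hz hw, h, sub_self]

end Fermat.Agent.GL.CompBranch
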