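/-
GATE-L / (V3) XI-ROWS (helper46): from the norm-reduction ROWS (in the shape of helper66's
`GL/Chain/RedStep.lean`: `hπ13`, `hπ2`, `hπ'1` + the mirrored split row) to the branch-value
relations `hNR1`, `hNR2` of `XiStep.xi_pow_const`, for branches given as composites
(`CompBranch.branch`).

* `split_row` : a valuation `A` of the lower field with two valuations `Wa` (`e = 1`) and `Wc`
  (`e = q - 1`) above it, residue embeddings `ja : k' → ka`, `jc : k' → kc`, row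
  `rd' (Nm u) = ya * yc ^ (q-1)` with `ja ya = rda u`, `jc yc = rdc u`, and branch points
  compatible with `ja`, `jc`  ⟹  `Nm z` is a unit at the lower branch and
  `ev' (Nm z) = ev_a z * (ev_c z) ^ (q-1)`.
* `insep_row` : one valuation `Wb` above `A`, purely inseparable residue extension,
  row `j (rd' (Nm u)) = (rdb u) ^ q`  ⟹  `ev' (Nm z) = (ev_b z) ^ q`.
-/
import Mathlib
import Fermat.Agent.GL.Chain.CompBranch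

set_option autoImplicit false
set_option linter.unusedSectionVars false
set_option linter.unusedVariables false

namespace Fermat.Agent.GL.XiRows

open Fermat.Agent.GL Fermat.Agent.GL.CompBranch

variable {F E k : Type*} [Field F] [Field E] [Field k]

/-- `r` kills the non-units of `V` as soon as it kills the elements of valuation `< 1`
(helper66's `hker` shape). -/
theorem hr_of_hker {κ : Type*} [Field κ] {V : ValuationSubring F} (r : V →+* κ)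
    (hker : ∀ x : V, r x = 0 ↔ V.valuation (x : F) < 1) : ∀ z : V, ¬ IsUnit z → r z = 0 := by
  intro z hz
  rw [hker]
  have : z ∈ IsLocalRing.maximalIdeal V := (IsLocalRing.mem_maximalIdeal z).mpr hz
  exact (V.valuation_lt_one_iff z).mp this

/-- data extracted from `IsU` at a composite branch. -/
theorem isU_branch_iff {κ : Type*} [Field κ] (V : ValuationSubring F) (r : V →+* κ)
    (hr : ∀ z : V, ¬ IsUnit z → r z = 0) (U : ValuationSubring κ) (e : U →+* k) {z : F} :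
    (branch V r hr U e).IsU z ↔ z ≠ 0 ∧ (∃ hz : z ∈ V, r ⟨z, hz⟩ ∈ U) ∧
      ∃ hz : z⁻¹ ∈ V, r ⟨z⁻¹, hz⟩ ∈ U := by
  unfold XiStep.Branch.IsU
  rw [branch_W, mem_comp, mem_comp]

/-- norm of the inverse. -/
theorem map_inv_of_ne_zero (Nm : F →* E) {z : F} (hz : z ≠ 0) :
    Nm z ≠ 0 ∧ Nm z⁻¹ = (Nm z)⁻¹ := by
  have h : Nm z * Nm z⁻¹ = 1 := by rw [← map_mul, mul_inv_cancel₀ hz, map_one]
  exact ⟨left_ne_zero_of_mul_eq_one h, eq_inv_of_mul_eq_one_right h⟩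

section Insep

variable {kb k' : Type*} [Field kb] [Field k']
  (Wb : ValuationSubring F) (rdb : Wb →+* kb) (hrb : ∀ z : Wb, ¬ IsUnit z → rdb z = 0)
  (A : ValuationSubring E) (rd' : A →+* k') (hr' : ∀ z : A, ¬ IsUnit z → rd' z = 0)
  (j : k' →+* kb) (Nm : F →* E) (q : ℕ)
  (hrow : ∀ (u : F) (hb : u ∈ Wb), ∃ hN : Nm u ∈ A, j (rd' ⟨Nm u, hN⟩) = rdb ⟨u, hb⟩ ^ q)
  (Ub : ValuationSubring kb) (eb : Ub →+* k) (U' : ValuationSubring k') (e' : U' →+* k)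
  (hc : ∀ y : k', y ∈ U' ↔ j y ∈ Ub)
  (hce : ∀ (y : k') (hy : y ∈ U') (hy' : j y ∈ Ub), eb ⟨j y, hy'⟩ = e' ⟨y, hy⟩)

include hrow hc hce in
/-- the purely inseparable row. -/
theorem insep_row {z : F} (hz : (branch Wb rdb hrb Ub eb).IsU z) :
    (branch A rd' hr' U' e').IsU (Nm z) ∧
      (branch A rd' hr' U' e').ev (Nm z) = ((branch Wb rdb hrb Ub eb).ev z) ^ q := by
  obtain ⟨hz0, ⟨hzV, hzU⟩, ⟨hziV, hziU⟩⟩ := (isU_branch_iff Wb rdb hrb Ub eb).mp hz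
  obtain ⟨hNz0, hNinv⟩ := map_inv_of_ne_zero Nm hz0
  obtain ⟨hN, hrowz⟩ := hrow z hzV
  obtain ⟨hNi, hrowzi⟩ := hrow z⁻¹ hziV
  have hU' : rd' ⟨Nm z, hN⟩ ∈ U' := by
    rw [hc, hrowz]; exact Ub.pow_mem hzU q
  have hUi' : rd' ⟨Nm z⁻¹, hNi⟩ ∈ U' := by
    rw [hc, hrowzi]; exact Ub.pow_mem hziU q
  have hNi' : (Nm z)⁻¹ ∈ A := hNinv ▸ hNi
  have hUi'' : rd' ⟨(Nm z)⁻¹, hNi'⟩ ∈ U' := by
    have : (⟨(Nm z)⁻¹, hNi'⟩ : A) = ⟨Nm z⁻¹, hNi⟩ := Subtype.ext hNinv.symm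
    rw [this]; exact hUi'
  refine ⟨isU_branch A rd' hr' U' e' hNz0 hN hNi' hU' hUi'', ?_⟩
  rw [branch_ev A rd' hr' U' e' hN hU', branch_ev Wb rdb hrb Ub eb hzV hzU, ← map_pow]
  have hjU : j (rd' ⟨Nm z, hN⟩) ∈ Ub := (hc _).mp hU'
  rw [← hce _ hU' hjU]
  congr 1
  exact Subtype.ext hrowz

end Insep

section Split

variable {ka kc k' : Type*} [Field ka] [Field kc] [Field k']
  (Wa Wc : ValuationSubring F) (rda : Wa →+* ka) (rdc : Wc →+* kc)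
  (hra : ∀ z : Wa, ¬ IsUnit z → rda z = 0) (hrc : ∀ z : Wc, ¬ IsUnit z → rdc z = 0)
  (A : ValuationSubring E) (rd' : A →+* k') (hr' : ∀ z : A, ¬ IsUnit z → rd' z = 0)
  (ja : k' →+* ka) (jc : k' →+* kc) (Nm : F →* E) (q : ℕ)
  (hrow : ∀ (u : F) (ha : u ∈ Wa) (hc : u ∈ Wc), ∃ hN : Nm u ∈ A, ∃ ya yc : k',
    ja ya = rda ⟨u, ha⟩ ∧ jc yc = rdc ⟨u, hc⟩ ∧ rd' ⟨Nm u, hN⟩ = ya * yc ^ (q - 1))
  (Ua : ValuationSubring ka) (ea : Ua →+* k) (Uc : ValuationSubring kc) (ec : Uc →+* k)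
  (U' : ValuationSubring k') (e' : U' →+* k)
  (hca : ∀ y : k', y ∈ U' ↔ ja y ∈ Ua)
  (hcae : ∀ (y : k') (hy : y ∈ U') (hy' : ja y ∈ Ua), ea ⟨ja y, hy'⟩ = e' ⟨y, hy⟩)
  (hcc : ∀ y : k', y ∈ U' ↔ jc y ∈ Uc)
  (hcce : ∀ (y : k') (hy : y ∈ U') (hy' : jc y ∈ Uc), ec ⟨jc y, hy'⟩ = e' ⟨y, hy⟩)

include hrow hca hcae hcc hcce in
/-- the split row (`e = 1` and `e = q - 1`). -/
theorem split_row {z : F} (hza : (branch Wa rda hra Ua ea).IsU z)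
    (hzc : (branch Wc rdc hrc Uc ec).IsU z) :
    (branch A rd' hr' U' e').IsU (Nm z) ∧
      (branch A rd' hr' U' e').ev (Nm z) =
        (branch Wa rda hra Ua ea).ev z * ((branch Wc rdc hrc Uc ec).ev z) ^ (q - 1) := by
  obtain ⟨hz0, ⟨hzaV, hzaU⟩, ⟨hzaiV, hzaiU⟩⟩ := (isU_branch_iff Wa rda hra Ua ea).mp hza
  obtain ⟨-, ⟨hzcV, hzcU⟩, ⟨hzciV, hzciU⟩⟩ := (isU_branch_iff Wc rdc hrc Uc ec).mp hzc
  obtain ⟨hNz0, hNinv⟩ := map_inv_of_ne_zero Nm hz0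
  obtain ⟨hN, ya, yc, hya, hyc, hrowz⟩ := hrow z hzaV hzcV
  obtain ⟨hNi, ya', yc', hya', hyc', hrowzi⟩ := hrow z⁻¹ hzaiV hzciV
  have hyaU : ya ∈ U' := by rw [hca, hya]; exact hzaU
  have hycU : yc ∈ U' := by rw [hcc, hyc]; exact hzcU
  have hyaU' : ya' ∈ U' := by rw [hca, hya']; exact hzaiU
  have hycU' : yc' ∈ U' := by rw [hcc, hyc']; exact hzciU
  have hU' : rd' ⟨Nm z, hN⟩ ∈ U' := by
    rw [hrowz]; exact U'.mul_mem _ _ hyaU (U'.pow_mem hycU _)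
  have hUi' : rd' ⟨Nm z⁻¹, hNi⟩ ∈ U' := by
    rw [hrowzi]; exact U'.mul_mem _ _ hyaU' (U'.pow_mem hycU' _)
  have hNi' : (Nm z)⁻¹ ∈ A := hNinv ▸ hNi
  have hUi'' : rd' ⟨(Nm z)⁻¹, hNi'⟩ ∈ U' := by
    have : (⟨(Nm z)⁻¹, hNi'⟩ : A) = ⟨Nm z⁻¹, hNi⟩ := Subtype.ext hNinv.symm
    rw [this]; exact hUi'
  refine ⟨isU_branch A rd' hr' U' e' hNz0 hN hNi' hU' hUi'', ?_⟩
  rw [branch_ev A rd' hr' U' e' hN hU', branch_ev Wa rda hra Ua ea hzaV hzaU,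
    branch_ev Wc rdc hrc Uc ec hzcV hzcU]
  have e1 : ea ⟨rda ⟨z, hzaV⟩, hzaU⟩ = e' ⟨ya, hyaU⟩ := by
    have hj : ja ya ∈ Ua := (hca _).mp hyaU
    rw [← hcae ya hyaU hj]
    congr 1
    exact Subtype.ext hya.symm
  have e2 : ec ⟨rdc ⟨z, hzcV⟩, hzcU⟩ = e' ⟨yc, hycU⟩ := by
    have hj : jc yc ∈ Uc := (hcc _).mp hycU
    rw [← hcce yc hycU hj]
    congr 1
    exact Subtype.ext hyc.symm
  rw [e1, e2, ← map_pow, ← map_mul]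
  congr 1
  exact Subtype.ext hrowz

end Split

end Fermat.Agent.GL.XiRows

namespace Fermat.Agent.GL.XiRows

open Fermat.Agent.GL Fermat.Agent.GL.CompBranch

section Assemble

variable {F E k k1 k2 k3 k1' k2' : Type*} [Field F] [Field E] [Field k] [Field k1] [Field k2]
  [Field k3] [Field k1'] [Field k2']
  {T T' : Type*}
  (W1 W2 W3 : ValuationSubring F) (A1 A2 : ValuationSubring E)
  (rd1 : W1 →+* k1) (rd2 : W2 →+* k2) (rd3 : W3 →+* k3) (rd1' : A1 →+* k1') (rd2' : A2 →+* k2')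
  (hr1 : ∀ z : W1, ¬ IsUnit z → rd1 z = 0) (hr2 : ∀ z : W2, ¬ IsUnit z → rd2 z = 0)
  (hr3 : ∀ z : W3, ¬ IsUnit z → rd3 z = 0) (hr1' : ∀ z : A1, ¬ IsUnit z → rd1' z = 0)
  (hr2' : ∀ z : A2, ¬ IsUnit z → rd2' z = 0)
  (U1 : T → ValuationSubring k1) (U2 : T → ValuationSubring k2) (U3 : T → ValuationSubring k3)
  (e1 : ∀ n, U1 n →+* k) (e2 : ∀ n, U2 n →+* k) (e3 : ∀ n, U3 n →+* k)
  (U1' : T' → ValuationSubring k1') (U2' : T' → ValuationSubring k2')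
  (e1' : ∀ n', U1' n' →+* k) (e2' : ∀ n', U2' n' →+* k)

/-- the three branches at a triple point `n` (on `C1, C2, C3`). -/
noncomputable def bN (n : T) : Fin 3 → XiStep.Branch F k :=
  ![branch W1 rd1 hr1 (U1 n) (e1 n), branch W2 rd2 hr2 (U2 n) (e2 n),
    branch W3 rd3 hr3 (U3 n) (e3 n)]

/-- the two branches at a node `n'` of the level below (on `C1', C2'`). -/
noncomputable def bE (n' : T') : Fin 2 → XiStep.Branch E k :=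
  ![branch A1 rd1' hr1' (U1' n') (e1' n'), branch A2 rd2' hr2' (U2' n') (e2' n')]

/-- **(V3) from the four norm-reduction rows.**  `p1 = π`, `p2 = π''` on triple points;
`Nm = Nm_π`, `Nm' = Nm_π''`; rows `hπ13, hπ2` (for `π`: `W1, W3 → A1`, `W2 → A2` insep) and
`hπ'1, hπ'23` (for `π''`: `W1 → A1` insep, `W2, W3 → A2`); branch points compatible with the
residue embeddings. -/
theorem xi_pow_const_of_rows (p1 p2 : T → T') (Nm Nm' : F →* E) {q m : ℕ} (hq : 1 ≤ q)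
    (hm : m ≠ 0)
    (j11 : k1' →+* k1) (j13 : k1' →+* k3) (j22 : k2' →+* k2)
    (hπ13 : ∀ (u : F) (h1 : u ∈ W1) (h3 : u ∈ W3), ∃ hN : Nm u ∈ A1, ∃ y1 y3 : k1',
      j11 y1 = rd1 ⟨u, h1⟩ ∧ j13 y3 = rd3 ⟨u, h3⟩ ∧ rd1' ⟨Nm u, hN⟩ = y1 * y3 ^ (q - 1))
    (hπ2 : ∀ (u : F) (h2 : u ∈ W2), ∃ hN : Nm u ∈ A2,
      j22 (rd2' ⟨Nm u, hN⟩) = rd2 ⟨u, h2⟩ ^ q)
    (j11' : k1' →+* k1) (j22' : k2' →+* k2) (j23' : k2' →+* k3)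
    (hπ'1 : ∀ (u : F) (h1 : u ∈ W1), ∃ hN : Nm' u ∈ A1,
      j11' (rd1' ⟨Nm' u, hN⟩) = rd1 ⟨u, h1⟩ ^ q)
    (hπ'23 : ∀ (u : F) (h2 : u ∈ W2) (h3 : u ∈ W3), ∃ hN : Nm' u ∈ A2, ∃ y2 y3 : k2',
      j22' y2 = rd2 ⟨u, h2⟩ ∧ j23' y3 = rd3 ⟨u, h3⟩ ∧ rd2' ⟨Nm' u, hN⟩ = y2 * y3 ^ (q - 1))
    (c11 : ∀ n (y : k1'), y ∈ U1' (p1 n) ↔ j11 y ∈ U1 n)
    (c11e : ∀ n (y : k1') (hy : y ∈ U1' (p1 n)) (hy' : j11 y ∈ U1 n),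
      e1 n ⟨j11 y, hy'⟩ = e1' (p1 n) ⟨y, hy⟩)
    (c13 : ∀ n (y : k1'), y ∈ U1' (p1 n) ↔ j13 y ∈ U3 n)
    (c13e : ∀ n (y : k1') (hy : y ∈ U1' (p1 n)) (hy' : j13 y ∈ U3 n),
      e3 n ⟨j13 y, hy'⟩ = e1' (p1 n) ⟨y, hy⟩)
    (c22 : ∀ n (y : k2'), y ∈ U2' (p1 n) ↔ j22 y ∈ U2 n)
    (c22e : ∀ n (y : k2') (hy : y ∈ U2' (p1 n)) (hy' : j22 y ∈ U2 n),
      e2 n ⟨j22 y, hy'⟩ = e2' (p1 n) ⟨y, hy⟩)
    (c11' : ∀ n (y : k1'), y ∈ U1' (p2 n) ↔ j11' y ∈ U1 n)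
    (c11e' : ∀ n (y : k1') (hy : y ∈ U1' (p2 n)) (hy' : j11' y ∈ U1 n),
      e1 n ⟨j11' y, hy'⟩ = e1' (p2 n) ⟨y, hy⟩)
    (c22' : ∀ n (y : k2'), y ∈ U2' (p2 n) ↔ j22' y ∈ U2 n)
    (c22e' : ∀ n (y : k2') (hy : y ∈ U2' (p2 n)) (hy' : j22' y ∈ U2 n),
      e2 n ⟨j22' y, hy'⟩ = e2' (p2 n) ⟨y, hy⟩)
    (c23' : ∀ n (y : k2'), y ∈ U2' (p2 n) ↔ j23' y ∈ U3 n)
    (c23e' : ∀ n (y : k2') (hy : y ∈ U2' (p2 n)) (hy' : j23' y ∈ U3 n),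
      e3 n ⟨j23' y, hy'⟩ = e2' (p2 n) ⟨y, hy⟩)
    {g u2 c : F} (hguc : g ^ m * u2 = c)
    (hu2 : (∃ h : u2 ∈ W1, rd1 ⟨u2, h⟩ = 1) ∧ (∃ h : u2 ∈ W2, rd2 ⟨u2, h⟩ = 1) ∧
      ∃ h : u2 ∈ W3, rd3 ⟨u2, h⟩ = 1)
    (cbar : T → k)
    (hc : ∀ n i, (bN W1 W2 W3 rd1 rd2 rd3 hr1 hr2 hr3 U1 U2 U3 e1 e2 e3 n i).IsU c ∧
      (bN W1 W2 W3 rd1 rd2 rd3 hr1 hr2 hr3 U1 U2 U3 e1 e2 e3 n i).ev c = cbar n)
    {h1 h2 : E} (γ1 γ2 : Fin 2 → k)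
    (hh1 : ∀ n' j, (bE A1 A2 rd1' rd2' hr1' hr2' U1' U2' e1' e2' n' j).IsU h1 ∧
      (bE A1 A2 rd1' rd2' hr1' hr2' U1' U2' e1' e2' n' j).ev h1 = γ1 j)
    (hnode1 : ∀ n, (bE A1 A2 rd1' rd2' hr1' hr2' U1' U2' e1' e2' (p1 n) 0).ev (h1 * Nm g) =
      (bE A1 A2 rd1' rd2' hr1' hr2' U1' U2' e1' e2' (p1 n) 1).ev (h1 * Nm g))
    (hh2 : ∀ n' j, (bE A1 A2 rd1' rd2' hr1' hr2' U1' U2' e1' e2' n' j).IsU h2 ∧
      (bE A1 A2 rd1' rd2' hr1' hr2' U1' U2' e1' e2' n' j).ev h2 = γ2 j)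
    (hnode2 : ∀ n, (bE A1 A2 rd1' rd2' hr1' hr2' U1' U2' e1' e2' (p2 n) 0).ev (h2 * Nm' g) =
      (bE A1 A2 rd1' rd2' hr1' hr2' U1' U2' e1' e2' (p2 n) 1).ev (h2 * Nm' g)) :
    (∀ n i, (bN W1 W2 W3 rd1 rd2 rd3 hr1 hr2 hr3 U1 U2 U3 e1 e2 e3 n i).IsU g) ∧
    (∀ n i, ((bN W1 W2 W3 rd1 rd2 rd3 hr1 hr2 hr3 U1 U2 U3 e1 e2 e3 n i).ev g) ^ m = cbar n) ∧
    ∃ a0 b0 : k, a0 ^ m = 1 ∧ b0 ^ m = 1 ∧ ∀ n,
      ((bN W1 W2 W3 rd1 rd2 rd3 hr1 hr2 hr3 U1 U2 U3 e1 e2 e3 n 1).ev g /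
        (bN W1 W2 W3 rd1 rd2 rd3 hr1 hr2 hr3 U1 U2 U3 e1 e2 e3 n 0).ev g) ^ (q ^ 2 - 1) = a0 ∧
      ((bN W1 W2 W3 rd1 rd2 rd3 hr1 hr2 hr3 U1 U2 U3 e1 e2 e3 n 2).ev g /
        (bN W1 W2 W3 rd1 rd2 rd3 hr1 hr2 hr3 U1 U2 U3 e1 e2 e3 n 0).ev g) ^ (q ^ 2 - 1) = b0 := by
  obtain ⟨⟨hu21, hu21'⟩, ⟨hu22, hu22'⟩, ⟨hu23, hu23'⟩⟩ := hu2
  refine XiStep.xi_pow_const p1 p2 (bN W1 W2 W3 rd1 rd2 rd3 hr1 hr2 hr3 U1 U2 U3 e1 e2 e3)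
    (bE A1 A2 rd1' rd2' hr1' hr2' U1' U2' e1' e2') (bE A1 A2 rd1' rd2' hr1' hr2' U1' U2' e1' e2')
    Nm Nm' hq hm hguc ?_ cbar hc ?_ γ1 hh1 hnode1 ?_ γ2 hh2 hnode2
  · intro n i
    fin_cases i
    · exact isU_of_res_eq_one W1 rd1 hr1 (U1 n) (e1 n) hu21 hu21'
    · exact isU_of_res_eq_one W2 rd2 hr2 (U2 n) (e2 n) hu22 hu22'
    · exact isU_of_res_eq_one W3 rd3 hr3 (U3 n) (e3 n) hu23 hu23'
  · intro n z hz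
    have hz0 : (branch W1 rd1 hr1 (U1 n) (e1 n)).IsU z := hz 0
    have hz1 : (branch W2 rd2 hr2 (U2 n) (e2 n)).IsU z := hz 1
    have hz2 : (branch W3 rd3 hr3 (U3 n) (e3 n)).IsU z := hz 2
    obtain ⟨s1, s2⟩ := split_row W1 W3 rd1 rd3 hr1 hr3 A1 rd1' hr1' j11 j13 Nm q hπ13
      (U1 n) (e1 n) (U3 n) (e3 n) (U1' (p1 n)) (e1' (p1 n)) (c11 n) (c11e n) (c13 n) (c13e n)
      hz0 hz2
    obtain ⟨t1, t2⟩ := insep_row W2 rd2 hr2 A2 rd2' hr2' j22 Nm q hπ2 (U2 n) (e2 n)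
      (U2' (p1 n)) (e2' (p1 n)) (c22 n) (c22e n) hz1
    exact ⟨s1, t1, s2, t2⟩
  · intro n z hz
    have hz0 : (branch W1 rd1 hr1 (U1 n) (e1 n)).IsU z := hz 0
    have hz1 : (branch W2 rd2 hr2 (U2 n) (e2 n)).IsU z := hz 1
    have hz2 : (branch W3 rd3 hr3 (U3 n) (e3 n)).IsU z := hz 2
    obtain ⟨s1, s2⟩ := split_row W2 W3 rd2 rd3 hr2 hr3 A2 rd2' hr2' j22' j23' Nm' q hπ'23
      (U2 n) (e2 n) (U3 n) (e3 n) (U2' (p2 n)) (e2' (p2 n)) (c22' n) (c22e' n) (c23' n)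
      (c23e' n) hz1 hz2
    obtain ⟨t1, t2⟩ := insep_row W1 rd1 hr1 A1 rd1' hr1' j11' Nm' q hπ'1 (U1 n) (e1 n)
      (U1' (p2 n)) (e1' (p2 n)) (c11' n) (c11e' n) hz0
    exact ⟨t1, s1, t2, s2⟩

end Assemble

end Fermat.Agent.GL.XiRows
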