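/-
GATE-L / L3 CONCRETE, step (d') (helper66): **the VERTICAL step**, in hypothesis form.

Setting (BLUEPRINT v2, board 2677 (V4) / helper47 2729): `F = F_L(N)`, `E = F_L(N/q)`, `N = q² M' r`;
`W1 W2 W3` the three extensions of the Gauss valuation to `F` (uniformisers `ϖ1 ϖ2 ϖ3`, the constant
`qF` has `|qF|₁ = |ϖ1|`, `|qF|₂ = |ϖ2|`, `|qF|₃ = |ϖ3|^(q-1)`), `A1 A2` the two extensions to `E`
(uniformiser `qE`), `Nm Nm' : F → E` the norms along the two degeneracy maps `π, π'`.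

The vertical parts of the norm formula (helper90 `valuation_norm_ram_one/_two`; table
`π : w1' ← {w1 (1,1), w3 (q-1,1)}, w2' ← {w2 (1,q)}`, `π' : w1' ← {w1 (1,q)}, w2' ← {w2, w3}`) are
the four hypotheses `hN1 hN2 hN'1 hN'2`.

`exists_unit_rep`: if `Nm u = c₁ h₁^(p^n)` and `Nm' u = c₂ h₂^(p^n)` with constants `c₁ c₂`
(`|c|_{A1} = |c|_{A2}`), then `u · qF^(-a) · f^(p^(n-c))` is a unit at `W1, W2, W3` for suitable
`a : ℤ`, `f : F` — where `p^c ∥ q + 1`.  (Pure `ℤ`-arithmetic: helper46 `VertMatrix.pow_dvd_of_vert`,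
plus weak approximation `ht` for prescribed `(w1, w2, w3)`.)
-/
import Mathlib
import Fermat.Agent.GL.Alg.VertMatrix

set_option autoImplicit false

namespace Fermat.Agent.GL.Chain

section Disc

variable {F : Type*} [Field F]

/-- `V` is a discrete valuation subring with uniformiser `ϖ`: every nonzero value is an integer
power of `|ϖ| < 1`. -/
structure IsDiscAt (V : ValuationSubring F) (ϖ : F) : Prop where
  lt_one : V.valuation ϖ < 1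
  ne_zero : ϖ ≠ 0
  exists_zpow : ∀ x : F, x ≠ 0 → ∃ n : ℤ, V.valuation x = V.valuation ϖ ^ n

variable {V : ValuationSubring F} {ϖ : F}

theorem IsDiscAt.valuation_pos (h : IsDiscAt V ϖ) : 0 < V.valuation ϖ :=
  zero_lt_iff.mpr ((Valuation.ne_zero_iff _).mpr h.ne_zero)

theorem IsDiscAt.valuation_ne_zero (h : IsDiscAt V ϖ) : V.valuation ϖ ≠ 0 :=
  (Valuation.ne_zero_iff _).mpr h.ne_zero

theorem IsDiscAt.zpow_inj (h : IsDiscAt V ϖ) {m n : ℤ}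
    (e : V.valuation ϖ ^ m = V.valuation ϖ ^ n) : m = n :=
  (zpow_right_inj₀ h.valuation_pos h.lt_one.ne).mp e

/-- the value of `c * h ^ m` -/
theorem IsDiscAt.valuation_mul_pow (h : IsDiscAt V ϖ) {c x : F} {n l : ℤ} (m : ℕ)
    (hc : V.valuation c = V.valuation ϖ ^ n) (hx : V.valuation x = V.valuation ϖ ^ l) :
    V.valuation (c * x ^ m) = V.valuation ϖ ^ (n + l * m) := by
  rw [map_mul, map_pow, hc, hx, ← zpow_natCast, ← zpow_mul, ← zpow_add₀ h.valuation_ne_zero]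

end Disc

section Vert

variable {F E : Type*} [Field F] [Field E]

/-- the two vertical congruences from ONE pair of norm relations -/
theorem vert_congr
    {W1 W2 W3 : ValuationSubring F} {ϖ1 ϖ2 ϖ3 : F} {A1 A2 : ValuationSubring E} {qE : E}
    (hdA1 : IsDiscAt A1 qE) (hdA2 : IsDiscAt A2 qE)
    (q : ℕ) (Nm Nm' : F → E)
    (hN1 : ∀ (u : F) (a b : ℤ), W1.valuation u = W1.valuation ϖ1 ^ a →
      W3.valuation u = W3.valuation ϖ3 ^ b → A1.valuation (Nm u) = A1.valuation qE ^ (a + b))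
    (hN2 : ∀ (u : F) (a : ℤ), W2.valuation u = W2.valuation ϖ2 ^ a →
      A2.valuation (Nm u) = A2.valuation qE ^ ((q : ℤ) * a))
    (hN'1 : ∀ (u : F) (a : ℤ), W1.valuation u = W1.valuation ϖ1 ^ a →
      A1.valuation (Nm' u) = A1.valuation qE ^ ((q : ℤ) * a))
    (hN'2 : ∀ (u : F) (a b : ℤ), W2.valuation u = W2.valuation ϖ2 ^ a →
      W3.valuation u = W3.valuation ϖ3 ^ b → A2.valuation (Nm' u) = A2.valuation qE ^ (a + b))
    (C' : Set E)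
    (hC' : ∀ c ∈ C', ∃ n : ℤ, A1.valuation c = A1.valuation qE ^ n ∧
      A2.valuation c = A2.valuation qE ^ n)
    {u : F} {a1 a2 b3 : ℤ}
    (ha1 : W1.valuation u = W1.valuation ϖ1 ^ a1) (ha2 : W2.valuation u = W2.valuation ϖ2 ^ a2)
    (hb3 : W3.valuation u = W3.valuation ϖ3 ^ b3)
    (m : ℕ) {c₁ c₂ h₁ h₂ : E} (hc₁ : c₁ ∈ C') (hc₂ : c₂ ∈ C') (h₁0 : h₁ ≠ 0) (h₂0 : h₂ ≠ 0)
    (e₁ : Nm u = c₁ * h₁ ^ m) (e₂ : Nm' u = c₂ * h₂ ^ m) :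
    (m : ℤ) ∣ a1 + b3 - q * a2 ∧ (m : ℤ) ∣ q * a1 - a2 - b3 := by
  obtain ⟨n₁, hn₁1, hn₁2⟩ := hC' c₁ hc₁
  obtain ⟨n₂, hn₂1, hn₂2⟩ := hC' c₂ hc₂
  obtain ⟨l11, hl11⟩ := hdA1.exists_zpow h₁ h₁0
  obtain ⟨l12, hl12⟩ := hdA2.exists_zpow h₁ h₁0
  obtain ⟨l21, hl21⟩ := hdA1.exists_zpow h₂ h₂0
  obtain ⟨l22, hl22⟩ := hdA2.exists_zpow h₂ h₂0
  have k1 : a1 + b3 = n₁ + l11 * m := by
    have h := hN1 u a1 b3 ha1 hb3
    rw [e₁, hdA1.valuation_mul_pow m hn₁1 hl11] at h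
    exact (hdA1.zpow_inj h).symm
  have k2 : (q : ℤ) * a2 = n₁ + l12 * m := by
    have h := hN2 u a2 ha2
    rw [e₁, hdA2.valuation_mul_pow m hn₁2 hl12] at h
    exact (hdA2.zpow_inj h).symm
  have k3 : (q : ℤ) * a1 = n₂ + l21 * m := by
    have h := hN'1 u a1 ha1
    rw [e₂, hdA1.valuation_mul_pow m hn₂1 hl21] at h
    exact (hdA1.zpow_inj h).symm
  have k4 : a2 + b3 = n₂ + l22 * m := by
    have h := hN'2 u a2 b3 ha2 hb3
    rw [e₂, hdA2.valuation_mul_pow m hn₂2 hl22] at h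
    exact (hdA2.zpow_inj h).symm
  refine ⟨⟨l11 - l12, ?_⟩, ⟨l21 - l22, ?_⟩⟩
  · linear_combination k1 - k2
  · linear_combination k3 - k4

/-- **(d') the vertical step.**  After dividing by a power of the constant `qF` and by a
`p^(n-c)`-th power, `u` is a unit at `W1, W2, W3`. -/
theorem exists_unit_rep
    {W1 W2 W3 : ValuationSubring F} {ϖ1 ϖ2 ϖ3 : F} {A1 A2 : ValuationSubring E} {qE : E}
    (hd1 : IsDiscAt W1 ϖ1) (hd2 : IsDiscAt W2 ϖ2) (hd3 : IsDiscAt W3 ϖ3)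
    (hdA1 : IsDiscAt A1 qE) (hdA2 : IsDiscAt A2 qE)
    {p c r : ℕ} (hp : p.Prime) (q : ℕ) (hq : 1 ≤ q) (hq1 : q + 1 = p ^ c * r) (hr : ¬ p ∣ r)
    (qF : F) (hqF1 : W1.valuation qF = W1.valuation ϖ1) (hqF2 : W2.valuation qF = W2.valuation ϖ2)
    (hqF3 : W3.valuation qF = W3.valuation ϖ3 ^ (q - 1))
    (Nm Nm' : F → E)
    (hN1 : ∀ (u : F) (a b : ℤ), W1.valuation u = W1.valuation ϖ1 ^ a →
      W3.valuation u = W3.valuation ϖ3 ^ b → A1.valuation (Nm u) = A1.valuation qE ^ (a + b))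
    (hN2 : ∀ (u : F) (a : ℤ), W2.valuation u = W2.valuation ϖ2 ^ a →
      A2.valuation (Nm u) = A2.valuation qE ^ ((q : ℤ) * a))
    (hN'1 : ∀ (u : F) (a : ℤ), W1.valuation u = W1.valuation ϖ1 ^ a →
      A1.valuation (Nm' u) = A1.valuation qE ^ ((q : ℤ) * a))
    (hN'2 : ∀ (u : F) (a b : ℤ), W2.valuation u = W2.valuation ϖ2 ^ a →
      W3.valuation u = W3.valuation ϖ3 ^ b → A2.valuation (Nm' u) = A2.valuation qE ^ (a + b))
    (C' : Set E)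
    (hC' : ∀ c ∈ C', ∃ n : ℤ, A1.valuation c = A1.valuation qE ^ n ∧
      A2.valuation c = A2.valuation qE ^ n)
    (ht : ∀ a b d : ℤ, ∃ f : F, f ≠ 0 ∧ W1.valuation f = W1.valuation ϖ1 ^ a ∧
      W2.valuation f = W2.valuation ϖ2 ^ b ∧ W3.valuation f = W3.valuation ϖ3 ^ d)
    {u : F} (hu : u ≠ 0) (n : ℕ) {c₁ c₂ h₁ h₂ : E} (hc₁ : c₁ ∈ C') (hc₂ : c₂ ∈ C')
    (h₁0 : h₁ ≠ 0) (h₂0 : h₂ ≠ 0)
    (e₁ : Nm u = c₁ * h₁ ^ (p ^ n)) (e₂ : Nm' u = c₂ * h₂ ^ (p ^ n)) :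
    ∃ (a : ℤ) (f : F), f ≠ 0 ∧
      W1.valuation (u * qF ^ (-a) * f ^ (p ^ (n - c))) = 1 ∧
      W2.valuation (u * qF ^ (-a) * f ^ (p ^ (n - c))) = 1 ∧
      W3.valuation (u * qF ^ (-a) * f ^ (p ^ (n - c))) = 1 := by
  obtain ⟨a1, ha1⟩ := hd1.exists_zpow u hu
  obtain ⟨a2, ha2⟩ := hd2.exists_zpow u hu
  obtain ⟨b3, hb3⟩ := hd3.exists_zpow u hu
  obtain ⟨k1, k2⟩ := vert_congr hdA1 hdA2 q Nm Nm' hN1 hN2 hN'1 hN'2 C' hC'
    ha1 ha2 hb3 (p ^ n) hc₁ hc₂ h₁0 h₂0 e₁ e₂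
  have hpZ : Prime (p : ℤ) := Nat.prime_iff_prime_int.mp hp
  have hq1Z : (q : ℤ) + 1 = (p : ℤ) ^ c * (r : ℤ) := by exact_mod_cast hq1
  have hrZ : ¬ (p : ℤ) ∣ (r : ℤ) := by
    rw [Int.natCast_dvd_natCast]; exact hr
  have k1' : (p : ℤ) ^ n ∣ a1 + b3 - q * a2 := by exact_mod_cast k1
  have k2' : (p : ℤ) ^ n ∣ q * a1 - a2 - b3 := by exact_mod_cast k2
  obtain ⟨⟨x, hx⟩, ⟨z, hz⟩⟩ := VertMatrix.pow_dvd_of_vert hpZ hq1Z hrZ k1' k2'
  obtain ⟨f, hf0, hf1, hf2, hf3⟩ := ht (-x) 0 (-z)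
  have hm1 : ((p ^ (n - c) : ℕ) : ℤ) = (p : ℤ) ^ (n - c) := by push_cast; rfl
  refine ⟨a2, f, hf0, ?_, ?_, ?_⟩
  · rw [map_mul, map_mul, map_zpow₀, map_pow, ha1, hqF1, hf1, ← zpow_natCast,
      ← zpow_mul, ← zpow_add₀ hd1.valuation_ne_zero, ← zpow_add₀ hd1.valuation_ne_zero]
    have : a1 + -a2 + -x * ((p ^ (n - c) : ℕ) : ℤ) = 0 := by
      rw [hm1]; linear_combination hx
    rw [this, zpow_zero]
  · rw [map_mul, map_mul, map_zpow₀, map_pow, ha2, hqF2, hf2, ← zpow_natCast,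
      ← zpow_mul, ← zpow_add₀ hd2.valuation_ne_zero, ← zpow_add₀ hd2.valuation_ne_zero]
    have : a2 + -a2 + 0 * ((p ^ (n - c) : ℕ) : ℤ) = 0 := by ring
    rw [this, zpow_zero]
  · rw [map_mul, map_mul, map_zpow₀, map_pow, hb3, hqF3, hf3, ← zpow_natCast (W3.valuation ϖ3 ^ (-z)),
      ← zpow_mul, ← zpow_natCast (W3.valuation ϖ3) (q - 1), ← zpow_mul,
      ← zpow_add₀ hd3.valuation_ne_zero, ← zpow_add₀ hd3.valuation_ne_zero]
    have hq' : ((q - 1 : ℕ) : ℤ) = (q : ℤ) - 1 := by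
      rw [Nat.cast_sub hq, Nat.cast_one]
    have : b3 + ((q - 1 : ℕ) : ℤ) * -a2 + -z * ((p ^ (n - c) : ℕ) : ℤ) = 0 := by
      rw [hm1, hq']; linear_combination hz
    rw [this, zpow_zero]

end Vert

end Fermat.Agent.GL.Chain
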