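/-
GATE-L / L4 CONCRETE, step (b) (helper66): **the NORM-REDUCTION step**, in hypothesis form.

Setting as in `VertStep.lean`: `F = F_L(N) ⊇ E = F_L(N/q)` via the two degeneracy maps, `Nm Nm' : F → E`
the two norms, `W1 W2 W3` the three valuations of `F` with reductions `rd_i : W_i → k_i`, `A1 A2` the
two valuations of `E` with reductions `rd_j' : A_j → k_j'`; `k` the (algebraically closed) residue
field of the constants, of characteristic `q`.

The norm-reduction formulas with exponents (helper90 `norm_red_ram_one/_two`, helper8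
`algebraMap_norm_eq_pow_of_pow_mem`; L3c table: `π : w1' ← {w1 (1,1), w3 (q-1,1)}`,
`w2' ← {w2 (1,q) insep}`; `π' : w1' ← {w1 (1,q) insep}`) are the hypotheses `hπ13 hπ2 hπ'1`:
  `rd1' (Nm u) = y1 * y3^(q-1)` with `j11 y1 = rd1 u`, `j13 y3 = rd3 u`,
  `j22 (rd2' (Nm u)) = rd2 u ^ q`,  `j11' (rd1' (Nm' u)) = rd1 u ^ q`.

`red_isCstPow`: if `u` is a unit at `W1, W2, W3` and `Nm u`, `Nm' u` are `constant * m-th power`,
then `rd1 u`, `rd2 u` and `rd3 u ^ (q-1)` are `constant * m-th power` in `k1, k2, k3`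
(`IsCstPow`).  No hypothesis on `m`.
-/
import Mathlib
import Fermat.Agent.GL.Chain.VertStep

set_option autoImplicit false

namespace Fermat.Agent.GL.Chain

/-! ### `constant * m-th power` -/

section CstPow

variable (k : Type*) [Field k] {κ κ' : Type*} [Field κ] [Algebra k κ] [Field κ'] [Algebra k κ']

/-- `x = c * v ^ m` with `c ∈ kˣ` a constant and `v ≠ 0` -/
def IsCstPow (m : ℕ) (x : κ) : Prop :=
  ∃ (c : k) (v : κ), c ≠ 0 ∧ v ≠ 0 ∧ x = algebraMap k κ c * v ^ m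

variable {k} {m : ℕ}

theorem IsCstPow.ne_zero {x : κ} (h : IsCstPow k m x) : x ≠ 0 := by
  obtain ⟨c, v, hc, hv, rfl⟩ := h
  exact mul_ne_zero ((map_ne_zero _).mpr hc) (pow_ne_zero _ hv)

theorem IsCstPow.map (f : κ →ₐ[k] κ') {x : κ} (h : IsCstPow k m x) : IsCstPow k m (f x) := by
  obtain ⟨c, v, hc, hv, rfl⟩ := h
  exact ⟨c, f v, hc, (map_ne_zero _).mpr hv, by rw [map_mul, map_pow, AlgHom.commutes]⟩

theorem IsCstPow.of_map (f : κ →ₐ[k] κ') (hf : Function.Surjective f) {x : κ}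
    (h : IsCstPow k m (f x)) : IsCstPow k m x := by
  obtain ⟨c, v, hc, hv, e⟩ := h
  obtain ⟨v', rfl⟩ := hf v
  refine ⟨c, v', hc, fun h0 => hv (by rw [h0, map_zero]), ?_⟩
  apply f.toRingHom.injective
  show f x = f _
  rw [e, map_mul, map_pow, AlgHom.commutes]

theorem IsCstPow.mul {x y : κ} (hx : IsCstPow k m x) (hy : IsCstPow k m y) :
    IsCstPow k m (x * y) := by
  obtain ⟨c, v, hc, hv, rfl⟩ := hx
  obtain ⟨d, w, hd, hw, rfl⟩ := hy
  exact ⟨c * d, v * w, mul_ne_zero hc hd, mul_ne_zero hv hw, by rw [map_mul, mul_pow]; ring⟩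

theorem IsCstPow.inv {x : κ} (hx : IsCstPow k m x) : IsCstPow k m x⁻¹ := by
  obtain ⟨c, v, hc, hv, rfl⟩ := hx
  exact ⟨c⁻¹, v⁻¹, inv_ne_zero hc, inv_ne_zero hv, by rw [map_inv₀, inv_pow, mul_inv]⟩

theorem IsCstPow.div {x y : κ} (hx : IsCstPow k m x) (hy : IsCstPow k m y) :
    IsCstPow k m (x / y) := by
  rw [div_eq_mul_inv]; exact hx.mul hy.inv

theorem IsCstPow.pow {x : κ} (hx : IsCstPow k m x) (n : ℕ) : IsCstPow k m (x ^ n) := by
  obtain ⟨c, v, hc, hv, rfl⟩ := hx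
  exact ⟨c ^ n, v ^ n, pow_ne_zero _ hc, pow_ne_zero _ hv, by
    rw [map_pow, mul_pow, ← pow_mul, ← pow_mul, mul_comm m n]⟩

/-- root extraction along Frobenius: `x^q = c * (z^q)^m` ⟹ `x = c^(1/q) * z^m` -/
theorem IsCstPow.of_pow_char [IsAlgClosed k] (q : ℕ) [hq : Fact q.Prime] [CharP k q] {x z : κ}
    {c : k} (hc : c ≠ 0) (hz : z ≠ 0) (e : x ^ q = algebraMap k κ c * (z ^ q) ^ m) :
    IsCstPow k m x := by
  have : CharP κ q := charP_of_injective_algebraMap (algebraMap k κ).injective q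
  obtain ⟨c0, hc0⟩ := IsAlgClosed.exists_pow_nat_eq c hq.out.pos
  have hc00 : c0 ≠ 0 := by
    rintro rfl
    rw [zero_pow hq.out.ne_zero] at hc0
    exact hc hc0.symm
  refine ⟨c0, z, hc00, hz, ?_⟩
  apply frobenius_inj κ q
  show x ^ q = (algebraMap k κ c0 * z ^ m) ^ q
  rw [e, mul_pow, ← map_pow, hc0, ← pow_mul, ← pow_mul, mul_comm q m]

/-- every `IsCstPow` is an honest `m`-th power when `k` is algebraically closed and `m ≠ 0` -/
theorem IsCstPow.exists_pow_eq [IsAlgClosed k] (hm : m ≠ 0) {x : κ} (hx : IsCstPow k m x) :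
    ∃ v : κ, v ≠ 0 ∧ x = v ^ m := by
  obtain ⟨c, v, hc, hv, rfl⟩ := hx
  obtain ⟨d, hd⟩ := IsAlgClosed.exists_pow_nat_eq c (Nat.pos_of_ne_zero hm)
  have hd0 : d ≠ 0 := by
    rintro rfl
    rw [zero_pow hm] at hd
    exact hc hd.symm
  exact ⟨algebraMap k κ d * v, mul_ne_zero ((map_ne_zero _).mpr hd0) hv, by
    rw [mul_pow, ← map_pow, hd]⟩

end CstPow

/-! ### reduction of `constant * m-th power` units -/

section UnitFactor

variable {L E : Type*} [Field L] [Field E] [Algebra L E]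
  {k : Type*} [Field k] {κ : Type*} [Field κ] [Algebra k κ]

/-- the reduction of a unit of the form `constant * m-th power` is `constant * m-th power` -/
theorem isCstPow_red_of_unit {A : ValuationSubring E} {q0 : L}
    (hdA : IsDiscAt A (algebraMap L E q0))
    (rd : A →+* κ) (hker : ∀ x : A, rd x = 0 ↔ A.valuation (x : E) < 1)
    (hLval : ∀ c : L, c ≠ 0 → ∃ n : ℤ,
      A.valuation (algebraMap L E c) = A.valuation (algebraMap L E q0) ^ n)
    (hLred : ∀ (c : L) (hc : algebraMap L E c ∈ A), ∃ a : k,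
      rd ⟨algebraMap L E c, hc⟩ = algebraMap k κ a)
    {m : ℕ} {x : E} (hxA : x ∈ A) (hx : A.valuation x = 1)
    {c : L} {h : E} (hc : c ≠ 0) (hh : h ≠ 0) (e : x = algebraMap L E c * h ^ m) :
    IsCstPow k m (rd ⟨x, hxA⟩) := by
  have hq0 : q0 ≠ 0 := fun h0 => hdA.ne_zero (by rw [h0, map_zero])
  obtain ⟨n, hn⟩ := hLval c hc
  obtain ⟨l, hl⟩ := hdA.exists_zpow h hh
  have h1 : n + l * m = 0 := by
    have := hdA.valuation_mul_pow m hn hl
    rw [← e, hx, ← zpow_zero (A.valuation (algebraMap L E q0))] at this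
    exact (hdA.zpow_inj this).symm
  set c0 : L := c * q0 ^ (-n) with hc0
  set h0 : E := h * algebraMap L E q0 ^ (-l) with hh0
  have hv : A.valuation (algebraMap L E q0) ≠ 0 := hdA.valuation_ne_zero
  have hc0v : A.valuation (algebraMap L E c0) = 1 := by
    rw [hc0, map_mul, map_zpow₀, map_mul, map_zpow₀, hn, ← zpow_add₀ hv, add_neg_cancel,
      zpow_zero]
  have hh0v : A.valuation h0 = 1 := by
    rw [hh0, map_mul, map_zpow₀, hl, ← zpow_add₀ hv, add_neg_cancel, zpow_zero]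
  have hc0A : algebraMap L E c0 ∈ A := (A.valuation_le_one_iff _).mp hc0v.le
  have hh0A : h0 ∈ A := (A.valuation_le_one_iff _).mp hh0v.le
  have hx' : x = algebraMap L E c0 * h0 ^ m := by
    have hqE : algebraMap L E q0 ≠ 0 := hdA.ne_zero
    rw [e, hc0, hh0, map_mul, map_zpow₀, mul_pow, ← zpow_natCast (algebraMap L E q0 ^ (-l)),
      ← zpow_mul]
    have : algebraMap L E q0 ^ (-n) * algebraMap L E q0 ^ (-l * (m : ℤ)) = 1 := by
      rw [← zpow_add₀ hqE]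
      have : -n + -l * (m : ℤ) = 0 := by linear_combination -h1
      rw [this, zpow_zero]
    calc algebraMap L E c * h ^ m = algebraMap L E c * h ^ m * 1 := (mul_one _).symm
      _ = algebraMap L E c * h ^ m *
          (algebraMap L E q0 ^ (-n) * algebraMap L E q0 ^ (-l * (m : ℤ))) := by rw [this]
      _ = _ := by ring
  obtain ⟨a, ha⟩ := hLred c0 hc0A
  have ha0 : a ≠ 0 := by
    rintro rfl
    rw [map_zero, hker] at ha
    rw [hc0v] at ha
    exact lt_irrefl _ ha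
  have hrd0 : rd ⟨h0, hh0A⟩ ≠ 0 := by
    intro h0'
    rw [hker] at h0'
    rw [hh0v] at h0'
    exact lt_irrefl _ h0'
  refine ⟨a, rd ⟨h0, hh0A⟩, ha0, hrd0, ?_⟩
  rw [← ha, ← map_pow, ← map_mul]
  congr 1
  exact Subtype.ext hx'

end UnitFactor

/-- a nonzero reduction is the reduction of a unit -/
theorem valuation_eq_one_of_red_ne_zero {E κ : Type*} [Field E] [Field κ]
    {A : ValuationSubring E} (rd : A →+* κ)
    (hk : ∀ x : A, rd x = 0 ↔ A.valuation (x : E) < 1) (x : A) (hx : rd x ≠ 0) :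
    A.valuation (x : E) = 1 :=
  le_antisymm ((A.valuation_le_one_iff _).mpr x.2) (not_lt.mp fun hlt => hx ((hk x).mpr hlt))

/-! ### the norm-reduction step -/

section RedStep

variable {L F E : Type*} [Field L] [Field F] [Field E] [Algebra L E]
  {k : Type*} [Field k] [IsAlgClosed k]
  {k1 k2 k3 k1' k2' : Type*} [Field k1] [Field k2] [Field k3] [Field k1'] [Field k2']
  [Algebra k k1] [Algebra k k2] [Algebra k k3] [Algebra k k1'] [Algebra k k2']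

/-- **(b) the norm-reduction step.** -/
theorem red_isCstPow (q : ℕ) [Fact q.Prime] [CharP k q]
    {W1 W2 W3 : ValuationSubring F} {A1 A2 : ValuationSubring E} {q0 : L}
    (hdA1 : IsDiscAt A1 (algebraMap L E q0)) (hdA2 : IsDiscAt A2 (algebraMap L E q0))
    (rd1 : W1 →+* k1) (rd2 : W2 →+* k2) (rd3 : W3 →+* k3)
    (hker1 : ∀ x : W1, rd1 x = 0 ↔ W1.valuation (x : F) < 1)
    (hker2 : ∀ x : W2, rd2 x = 0 ↔ W2.valuation (x : F) < 1)
    (hker3 : ∀ x : W3, rd3 x = 0 ↔ W3.valuation (x : F) < 1)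
    (rd1' : A1 →+* k1') (rd2' : A2 →+* k2')
    (hker1' : ∀ x : A1, rd1' x = 0 ↔ A1.valuation (x : E) < 1)
    (hker2' : ∀ x : A2, rd2' x = 0 ↔ A2.valuation (x : E) < 1)
    (hLval1 : ∀ c : L, c ≠ 0 → ∃ n : ℤ,
      A1.valuation (algebraMap L E c) = A1.valuation (algebraMap L E q0) ^ n)
    (hLval2 : ∀ c : L, c ≠ 0 → ∃ n : ℤ,
      A2.valuation (algebraMap L E c) = A2.valuation (algebraMap L E q0) ^ n)
    (hLred1 : ∀ (c : L) (hc : algebraMap L E c ∈ A1), ∃ a : k,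
      rd1' ⟨algebraMap L E c, hc⟩ = algebraMap k k1' a)
    (hLred2 : ∀ (c : L) (hc : algebraMap L E c ∈ A2), ∃ a : k,
      rd2' ⟨algebraMap L E c, hc⟩ = algebraMap k k2' a)
    (j11 : k1' →ₐ[k] k1) (hj11 : Function.Surjective j11)
    (j13 : k1' →ₐ[k] k3)
    (j22 : k2' →ₐ[k] k2) (hj22 : ∀ y : k2', ∃ z : k2, j22 y = z ^ q)
    (j11' : k1' →ₐ[k] k1) (hj11' : ∀ y : k1', ∃ z : k1, j11' y = z ^ q)
    (Nm Nm' : F → E)
    (hπ13 : ∀ (u : F) (h1 : u ∈ W1) (h3 : u ∈ W3), ∃ hN : Nm u ∈ A1, ∃ y1 y3 : k1',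
      j11 y1 = rd1 ⟨u, h1⟩ ∧ j13 y3 = rd3 ⟨u, h3⟩ ∧ rd1' ⟨Nm u, hN⟩ = y1 * y3 ^ (q - 1))
    (hπ2 : ∀ (u : F) (h2 : u ∈ W2), ∃ hN : Nm u ∈ A2,
      j22 (rd2' ⟨Nm u, hN⟩) = rd2 ⟨u, h2⟩ ^ q)
    (hπ'1 : ∀ (u : F) (h1 : u ∈ W1), ∃ hN : Nm' u ∈ A1,
      j11' (rd1' ⟨Nm' u, hN⟩) = rd1 ⟨u, h1⟩ ^ q)
    {m : ℕ} {u : F} (h1 : u ∈ W1) (h2 : u ∈ W2) (h3 : u ∈ W3)
    (hu1 : W1.valuation u = 1) (hu2 : W2.valuation u = 1) (hu3 : W3.valuation u = 1)
    {c₁ c₂ : L} {h₁ h₂ : E} (hc₁ : c₁ ≠ 0) (hc₂ : c₂ ≠ 0) (h₁0 : h₁ ≠ 0) (h₂0 : h₂ ≠ 0)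
    (e₁ : Nm u = algebraMap L E c₁ * h₁ ^ m) (e₂ : Nm' u = algebraMap L E c₂ * h₂ ^ m) :
    IsCstPow k m (rd1 ⟨u, h1⟩) ∧ IsCstPow k m (rd2 ⟨u, h2⟩) ∧
      IsCstPow k m (rd3 ⟨u, h3⟩ ^ (q - 1)) := by
  have hq : q ≠ 0 := (Fact.out : q.Prime).ne_zero
  have r1 : rd1 ⟨u, h1⟩ ≠ 0 := fun h => by
    rw [hker1] at h; simp only [hu1, lt_self_iff_false] at h
  have r2 : rd2 ⟨u, h2⟩ ≠ 0 := fun h => by
    rw [hker2] at h; simp only [hu2, lt_self_iff_false] at h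
  have r3 : rd3 ⟨u, h3⟩ ≠ 0 := fun h => by
    rw [hker3] at h; simp only [hu3, lt_self_iff_false] at h
  -- `rd2`
  have s2 : IsCstPow k m (rd2 ⟨u, h2⟩) := by
    obtain ⟨hN, e⟩ := hπ2 u h2
    have hne : rd2' ⟨Nm u, hN⟩ ≠ 0 := fun h0 => by
      rw [h0, map_zero] at e
      exact pow_ne_zero q r2 e.symm
    have hval := valuation_eq_one_of_red_ne_zero rd2' hker2' ⟨Nm u, hN⟩ hne
    obtain ⟨c, v, hc, hv, ecv⟩ := isCstPow_red_of_unit (k := k) hdA2 rd2' hker2' hLval2 hLred2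
      hN hval hc₁ h₁0 e₁
    obtain ⟨z, hz⟩ := hj22 v
    have hz0 : z ≠ 0 := by
      rintro rfl
      rw [zero_pow hq] at hz
      exact hv ((map_eq_zero _).mp hz)
    refine IsCstPow.of_pow_char q hc hz0 ?_
    rw [← e, ecv, map_mul, map_pow, AlgHom.commutes, hz]
  -- `rd1`
  have s1 : IsCstPow k m (rd1 ⟨u, h1⟩) := by
    obtain ⟨hN, e⟩ := hπ'1 u h1
    have hne : rd1' ⟨Nm' u, hN⟩ ≠ 0 := fun h0 => by
      rw [h0, map_zero] at e
      exact pow_ne_zero q r1 e.symm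
    have hval := valuation_eq_one_of_red_ne_zero rd1' hker1' ⟨Nm' u, hN⟩ hne
    obtain ⟨c, v, hc, hv, ecv⟩ := isCstPow_red_of_unit (k := k) hdA1 rd1' hker1' hLval1 hLred1
      hN hval hc₂ h₂0 e₂
    obtain ⟨z, hz⟩ := hj11' v
    have hz0 : z ≠ 0 := by
      rintro rfl
      rw [zero_pow hq] at hz
      exact hv ((map_eq_zero _).mp hz)
    refine IsCstPow.of_pow_char q hc hz0 ?_
    rw [← e, ecv, map_mul, map_pow, AlgHom.commutes, hz]
  refine ⟨s1, s2, ?_⟩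
  -- `rd3 ^ (q-1)`
  obtain ⟨hN, y1, y3, e1, e3, e⟩ := hπ13 u h1 h3
  have hy1 : y1 ≠ 0 := fun h0 => r1 (by rw [← e1, h0, map_zero])
  have hy3 : y3 ≠ 0 := fun h0 => r3 (by rw [← e3, h0, map_zero])
  have hne : rd1' ⟨Nm u, hN⟩ ≠ 0 := by
    rw [e]; exact mul_ne_zero hy1 (pow_ne_zero _ hy3)
  have hval := valuation_eq_one_of_red_ne_zero rd1' hker1' ⟨Nm u, hN⟩ hne
  have t1 : IsCstPow k m (rd1' ⟨Nm u, hN⟩) :=
    isCstPow_red_of_unit (k := k) hdA1 rd1' hker1' hLval1 hLred1 hN hval hc₁ h₁0 e₁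
  have t2 : IsCstPow k m y1 := IsCstPow.of_map j11 hj11 (by rw [e1]; exact s1)
  have t3 : IsCstPow k m (y3 ^ (q - 1)) := by
    have : y3 ^ (q - 1) = rd1' ⟨Nm u, hN⟩ / y1 := by
      rw [e, mul_div_cancel_left₀ _ hy1]
    rw [this]
    exact t1.div t2
  have := t3.map j13
  rwa [map_pow, e3] at this

end RedStep

end Fermat.Agent.GL.Chain
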