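/-
GATE-L / L3+L4 CONCRETE, the ROWS of the L3c table as norm formulas (helper66).

`E ⊆ F` a finite extension (ONE degeneracy map; `[Algebra E F]`), `A ⊂ E` a discrete valuation ring
with uniformiser `qE`, residue map `res : A → k'`.  Relative reduction data `RedData E F k' κ`
(`Rw` = a valuation of `F` above `A`, `red : Rw → κ`, `κ / k'` the residue extension) are what the
L3c table (helper54 `TableW`, helper67 `CuspRestrict`, helper18 `W3Table`) delivers.

* SPLIT row `w' ← {w_x (e = 1, f = 1), w_z (e, f = 1)}`, `[F : E] ≤ 1 + e`: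
  `row_split_vert` : `|Nm u|_A = |qE|^(a + b)` if `|u|_x = |ϖx|^a`, `|u|_z = |ϖz|^b`;
  `row_split_red`  : `res (Nm u) = y1 * y3 ^ e` with `y1, y3 ∈ k'` mapping to `red_x u`, `red_z u`.
* INSEPARABLE row `w' ← {w_y (e = 1, f = q)}`, `[F : E] ≤ q`, `κ_y^q ⊆ k'`:
  `row_insep_vert` : `|Nm u|_A = |qE|^(q a)`;
  `row_insep_red`  : `res (Nm u) ↦ (red_y u)^q` in `κ_y`.

These are the hypotheses `hN1 hN2 hN'1 hN'2 hπ13 hπ2 hπ'1` of `Chain.exists_normalised`, from
helper90 `norm_red_ram_one/_two`, `valuation_norm_ram_one/_two` and helper8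
`algebraMap_norm_eq_pow_of_pow_mem`.
-/
import Mathlib
import Fermat.Agent.GL.MultiVal.RamRedData
import Fermat.Agent.GL.Norm.NormMap

set_option autoImplicit false

open Module

namespace Fermat.Agent.GL.Chain

open Fermat.Agent.GJ.J1 Fermat.Agent.GK.MultiVal Fermat.Agent.GL.MultiVal

universe u

section DegOne

variable {K L : Type*} [Field K] [Field L] [Algebra K L]

/-- the norm of an extension of degree one is the inverse of the structure map -/
theorem algebraMap_norm_of_finrank_eq_one (h : finrank K L = 1) (x : L) :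
    algebraMap K L (Algebra.norm K x) = x := by
  have hx : x ∈ (⊥ : Subalgebra K L) := by
    rw [Subalgebra.bot_eq_top_of_finrank_eq_one h]; exact Algebra.mem_top
  obtain ⟨a, rfl⟩ := Algebra.mem_bot.mp hx
  rw [Algebra.norm_algebraMap, h, pow_one]

end DegOne

variable {E F k' : Type*} [Field E] [Field F] [Algebra E F] [FiniteDimensional E F] [Field k']

/-! ### the split row -/

section Split

variable {κx κz : Type u} [Field κx] [Algebra k' κx] [Field κz] [Algebra k' κz]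
  {Rx : RedData E F k' κx} {Rz : RedData E F k' κz} {qE : E} {ϖx ϖz : F} {e : ℕ}

theorem row_split_vert (hc : RedCompat Rx Rz) (hne : Rx.Rw ≠ Rz.Rw) (hq : IsUnif Rx.A qE)
    (hRx : IsRamified Rx.A qE Rx.Rw ϖx 1) (hRz : IsRamified Rx.A qE Rz.Rw ϖz e)
    (hfx : finrank k' κx = 1) (hfz : finrank k' κz = 1) (hdeg : finrank E F ≤ 1 + e)
    (u : F) (a b : ℤ) (hu1 : Rx.Rw.valuation u = Rx.Rw.valuation ϖx ^ a)
    (hu2 : Rz.Rw.valuation u = Rz.Rw.valuation ϖz ^ b) :
    Rx.A.valuation (Algebra.norm E u) = Rx.A.valuation qE ^ (a + b) := by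
  have : FiniteDimensional k' κx := FiniteDimensional.of_finrank_pos (by rw [hfx]; exact one_pos)
  have : FiniteDimensional k' κz := FiniteDimensional.of_finrank_pos (by rw [hfz]; exact one_pos)
  have h := valuation_norm_ram_two hc hne hq hRx hRz (by rw [hfx, hfz]; simpa using hdeg) a b
    hu1 hu2
  rw [h, hfx, hfz]
  simp

theorem row_split_red (hc : RedCompat Rx Rz) (hne : Rx.Rw ≠ Rz.Rw) (hq : IsUnif Rx.A qE)
    (hRx : IsRamified Rx.A qE Rx.Rw ϖx 1) (hRz : IsRamified Rx.A qE Rz.Rw ϖz e)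
    (hfx : finrank k' κx = 1) (hfz : finrank k' κz = 1) (hdeg : finrank E F ≤ 1 + e)
    (u : F) (h1 : u ∈ Rx.Rw) (h3 : u ∈ Rz.Rw) :
    ∃ hN : Algebra.norm E u ∈ Rx.A, ∃ y1 y3 : k',
      algebraMap k' κx y1 = Rx.red ⟨u, h1⟩ ∧ algebraMap k' κz y3 = Rz.red ⟨u, h3⟩ ∧
        Rx.res ⟨Algebra.norm E u, hN⟩ = y1 * y3 ^ e := by
  have : FiniteDimensional k' κx := FiniteDimensional.of_finrank_pos (by rw [hfx]; exact one_pos)
  have : FiniteDimensional k' κz := FiniteDimensional.of_finrank_pos (by rw [hfz]; exact one_pos)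
  obtain ⟨hN, h⟩ := norm_red_ram_two hc hne hq hRx hRz (by rw [hfx, hfz]; simpa using hdeg) h1 h3
  refine ⟨hN, Algebra.norm k' (Rx.red ⟨u, h1⟩), Algebra.norm k' (Rz.red ⟨u, h3⟩),
    algebraMap_norm_of_finrank_eq_one hfx _, algebraMap_norm_of_finrank_eq_one hfz _, ?_⟩
  rw [h, pow_one]

end Split

/-! ### the inseparable row -/

section Insep

variable {κy : Type*} [Field κy] [Algebra k' κy] {Ry : RedData E F k' κy} {qE : E} {ϖy : F}

theorem row_insep_vert (q : ℕ) (hq0 : 0 < q) (hq : IsUnif Ry.A qE)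
    (hRy : IsRamified Ry.A qE Ry.Rw ϖy 1) (hf : finrank k' κy = q) (hdeg : finrank E F ≤ q)
    (u : F) (a : ℤ) (hu : Ry.Rw.valuation u = Ry.Rw.valuation ϖy ^ a) :
    Ry.A.valuation (Algebra.norm E u) = Ry.A.valuation qE ^ ((q : ℤ) * a) := by
  have : FiniteDimensional k' κy := FiniteDimensional.of_finrank_pos (by rw [hf]; exact hq0)
  have h := valuation_norm_ram_one hq hRy (by rw [hf, one_mul]; exact hdeg) a hu
  rw [h, hf, mul_comm]

theorem row_insep_red (q : ℕ) [hq' : Fact q.Prime] [CharP k' q] (hq : IsUnif Ry.A qE)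
    (hRy : IsRamified Ry.A qE Ry.Rw ϖy 1) (hf : finrank k' κy = q) (hdeg : finrank E F ≤ q)
    (hpow : ∀ x : κy, x ^ q ∈ (algebraMap k' κy).range)
    (u : F) (h2 : u ∈ Ry.Rw) :
    ∃ hN : Algebra.norm E u ∈ Ry.A,
      algebraMap k' κy (Ry.res ⟨Algebra.norm E u, hN⟩) = Ry.red ⟨u, h2⟩ ^ q := by
  have : FiniteDimensional k' κy :=
    FiniteDimensional.of_finrank_pos (by rw [hf]; exact hq'.out.pos)
  obtain ⟨hN, h⟩ := norm_red_ram_one hq hRy (by rw [hf, one_mul]; exact hdeg) h2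
  refine ⟨hN, ?_⟩
  rw [h, pow_one]
  exact Fermat.Agent.GL.NormRed.algebraMap_norm_eq_pow_of_pow_mem q hf hpow _

end Insep

end Fermat.Agent.GL.Chain
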