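/-
GATE-L / L3+L4 CONCRETE, RELATIVE reduction data (helper66).

The concrete valuations `w₁, w₂, w₃` of `K₀(X₀(N))` and `w₁', w₂'` of `K₀(X₀(N/q))` are given as
ABSOLUTE reduction data (`RedData L F k κ`, `RedData L E k k'`, `L = K₀`).  The rows of the L3c
table (`GL/Chain/Rows.lean`) want RELATIVE data `RedData E F k' κ` for ONE degeneracy map
`E → F`.  This file builds them from the membership row `a ∈ A' ↔ (a : F) ∈ W` alone:

* `resFieldMap` : the induced map of residue fields `k' → κ` (`resFieldMap_res`);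
* `RedData.resHom R' R hmem : k' →ₐ[k] κ` for two absolute data (`resHom_red`), and
  `RedData.rel R' R hmem : RedData E F k' κ` (w.r.t. `(R'.resHom R hmem).toAlgebra`);
* `RedData.ofVal` : an absolute datum from a bare valuation subring (`κ` := its residue field);
* the fundamental inequality in residue-family form `sum_mul_le_finrank`
  (helper90 `card_le_finrank_ram'`), `finiteDimensional_of_ram`, `mul_finrank_le_of_ram`,
  `finrank_eq_one_of_split` (`[F : E] ≤ 1 + e` forces `f = 1` at both places),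
  `finrank_eq_of_insep` (`[F : E] ≤ q`, a witness outside the image and `x₀^q` inside force
  `f = q`);
* `split_rows_abs`, `insep_rows_abs` : the rows `hN1 / hπ13` and `hN2 / hπ2` of
  `Chain.exists_normalised` from ABSOLUTE data + membership rows + `[F : E]`.
-/
import Mathlib
import Fermat.Agent.GL.Chain.Rows
import Fermat.Agent.GL.Chain.VertStep

set_option autoImplicit false

noncomputable section

open Module IsLocalRing

namespace Fermat.Agent.GL.Chain

open Fermat.Agent.GJ.J1 Fermat.Agent.GK.MultiVal Fermat.Agent.GL.MultiVal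

universe u

/-! ### the induced map of residue fields -/

section ResMap

variable {E F k' κ : Type*} [Field E] [Field F] [Algebra E F] [Field k'] [Field κ]
  {A : ValuationSubring E} {W : ValuationSubring F}

/-- the structure map restricted to the valuation rings -/
def inclVal (hmem : ∀ a : E, a ∈ A ↔ algebraMap E F a ∈ W) : A →+* W :=
  ((algebraMap E F).comp A.subtype).codRestrict W.toSubring (fun a => (hmem a).1 a.2)

@[simp] theorem coe_inclVal (hmem : ∀ a : E, a ∈ A ↔ algebraMap E F a ∈ W) (a : A) :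
    ((inclVal hmem a : W) : F) = algebraMap E F (a : E) := rfl

theorem inclVal_mem_maximalIdeal (hmem : ∀ a : E, a ∈ A ↔ algebraMap E F a ∈ W) (a : A)
    (ha : a ∈ maximalIdeal A) : inclVal hmem a ∈ maximalIdeal W := by
  rw [ValuationSubring.valuation_lt_one_iff] at ha ⊢
  rw [coe_inclVal]
  exact (Fermat.Agent.GJ.Ortho.valuation_algebraMap_lt_one_iff (fun a => (hmem a).symm) _).mpr ha

/-- the induced map of residue fields -/
def resFieldMap (hmem : ∀ a : E, a ∈ A ↔ algebraMap E F a ∈ W) (res : A →+* k')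
    (hres : Function.Surjective res) (hker' : ∀ x : A, res x = 0 → x ∈ maximalIdeal A)
    (red : W →+* κ) (hker : ∀ x : W, x ∈ maximalIdeal W → red x = 0) : k' →+* κ :=
  res.liftOfSurjective hres ⟨red.comp (inclVal hmem), fun x hx =>
    hker _ (inclVal_mem_maximalIdeal hmem x (hker' x hx))⟩

theorem resFieldMap_res (hmem : ∀ a : E, a ∈ A ↔ algebraMap E F a ∈ W) (res : A →+* k')
    (hres : Function.Surjective res) (hker' : ∀ x : A, res x = 0 → x ∈ maximalIdeal A)
    (red : W →+* κ) (hker : ∀ x : W, x ∈ maximalIdeal W → red x = 0) (a : A) :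
    resFieldMap hmem res hres hker' red hker (res a) = red (inclVal hmem a) := by
  unfold resFieldMap
  exact RingHom.liftOfRightInverse_comp_apply _ _ _ _ a

end ResMap

/-! ### two absolute reduction data give a relative one -/

section Rel

variable {L E F k k' κ : Type*} [Field L] [Field E] [Field F] [Algebra L E] [Algebra L F]
  [Algebra E F] [IsScalarTower L E F] [Field k] [Field k'] [Field κ] [Algebra k k'] [Algebra k κ]
  (R' : RedData L E k k') (R : RedData L F k κ)
  (hmem : ∀ a : E, a ∈ R'.Rw ↔ algebraMap E F a ∈ R.Rw)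

/-- the map of residue fields of two absolute reduction data along `E → F` -/
def relResMap : k' →+* κ :=
  resFieldMap hmem R'.red R'.red_surjective (fun x hx => (R'.red_eq_zero_iff x).1 hx) R.red
    (fun x hx => (R.red_eq_zero_iff x).2 hx)

omit [IsScalarTower L E F] in
theorem relResMap_red (a : R'.Rw) :
    relResMap R' R hmem (R'.red a) = R.red (inclVal hmem a) :=
  resFieldMap_res hmem _ _ _ _ _ a

omit [IsScalarTower L E F] in
theorem relResMap_red' (a : E) (ha : a ∈ R'.Rw) :
    relResMap R' R hmem (R'.red ⟨a, ha⟩) = R.red ⟨algebraMap E F a, (hmem a).1 ha⟩ :=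
  relResMap_red R' R hmem ⟨a, ha⟩

/-- the base data agree -/
structure SameBase : Prop where
  A_eq : R'.A = R.A
  res_eq : ∀ (a : L) (h1 : a ∈ R'.A) (h2 : a ∈ R.A), R'.res ⟨a, h1⟩ = R.res ⟨a, h2⟩

variable {R' R}

theorem relResMap_algebraMap (hb : SameBase R' R) (c : k) :
    relResMap R' R hmem (algebraMap k k' c) = algebraMap k κ c := by
  obtain ⟨a, rfl⟩ := R'.res_surjective c
  have ha2 : (a : L) ∈ R.A := hb.A_eq ▸ a.2
  rw [← R'.red_algebraMap a, relResMap_red' R' R hmem, hb.res_eq (a : L) a.2 ha2,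
    ← R.red_algebraMap ⟨(a : L), ha2⟩]
  congr 1
  apply Subtype.ext
  exact (IsScalarTower.algebraMap_apply L E F (a : L)).symm

variable (R' R)

/-- the map of residue fields as a `k`-algebra hom -/
def relResHom (hb : SameBase R' R) : k' →ₐ[k] κ :=
  { relResMap R' R hmem with commutes' := relResMap_algebraMap hmem hb }

theorem relResHom_red (hb : SameBase R' R) (a : E) (ha : a ∈ R'.Rw) :
    relResHom R' R hmem hb (R'.red ⟨a, ha⟩) = R.red ⟨algebraMap E F a, (hmem a).1 ha⟩ :=
  relResMap_red' R' R hmem a ha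

theorem relResHom_apply (hb : SameBase R' R) (y : k') :
    relResHom R' R hmem hb y = relResMap R' R hmem y := rfl

/-- **the relative reduction datum** of `R` over `R'`, for any algebra structure `k' → κ`
inducing the map of residue fields -/
def relRedData [Algebra k' κ] (halg : ∀ y : k', algebraMap k' κ y = relResMap R' R hmem y) :
    RedData E F k' κ where
  Rw := R.Rw
  A := R'.Rw
  mem_A_iff := hmem
  red := R.red
  red_surjective := R.red_surjective
  red_eq_zero_iff := R.red_eq_zero_iff
  res := R'.red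
  res_surjective := R'.red_surjective
  red_algebraMap := fun a => by
    rw [halg, relResMap_red R' R hmem a]
    rfl

end Rel

/-! ### the fundamental inequality, residue-family form -/

section FundIneq

variable {K F k : Type*} [Field K] [Field F] [Algebra K F] [Field k] {ι : Type*}
  {A : ValuationSubring K} {res : A →+* k} {W : ι → ValuationSubring F}
  {Ft : ι → Type*} [∀ i, Field (Ft i)] [∀ i, Algebra k (Ft i)] {red : ∀ i, W i →+* Ft i}
  {q : K} {ϖ : ι → F} {e : ι → ℕ}

/-- **`∑ e_i f_i ≤ [F : K]`** for ANY finite `k`-linearly independent families of the residue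
fields (no finiteness assumption on the residue extensions). -/
theorem sum_mul_le_finrank [Fintype ι] [Nonempty ι] [FiniteDimensional K F]
    (hF : RedFam A res W Ft red) (hW : Incomparable W) (hq : IsUnif A q)
    (hR : ∀ i, IsRamified A q (W i) (ϖ i) (e i)) (f : ι → ℕ) (y : ∀ i, Fin (f i) → Ft i)
    (hy : ∀ i, LinearIndependent k (y i)) : ∑ i, e i * f i ≤ finrank K F := by
  classical
  choose G hG using fun i (m : Fin (f i)) => hF.red_surj i (y i m)
  let π : RamIdx e f → ι := fun l => l.1
  let α : RamIdx e f → ℕ := fun l => (l.2.1 : ℕ)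
  let g : RamIdx e f → F := fun l => ((G l.1 l.2.2 : W l.1) : F)
  have hgW : ∀ i a (j : {l : RamIdx e f // π l = i ∧ α l = a}), g j ∈ W i := by
    rintro i a ⟨⟨i', a', m'⟩, h1, h2⟩
    dsimp only [π] at h1
    subst h1
    exact (G i' m').2
  have hgred : ∀ i a (ha : a < e i) (j : {l : RamIdx e f // π l = i ∧ α l = a})
      (hj : g j ∈ W i), red i ⟨g j, hj⟩ = y i ((ramFibreEquiv e f i a ha).symm j) := by
    rintro i a ha ⟨⟨i', a', m'⟩, h1, h2⟩ hj
    dsimp only [π] at h1
    subst h1
    have e1 : (ramFibreEquiv e f i' a ha).symm ⟨⟨i', (a', m')⟩, ⟨rfl, h2⟩⟩ = m' := by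
      simp [ramFibreEquiv]
    rw [e1, ← hG i' m']
  have hg : ∀ i a, IsOrthoFamily A (W i).toSubring (vrad (W i))
      (fun j : {l : RamIdx e f // π l = i ∧ α l = a} => g j) := by
    intro i a
    by_cases ha : a < e i
    · refine hF.isOrthoFamily_of_red i _ (hgW i a) ?_
      have h1 : (fun j : {l : RamIdx e f // π l = i ∧ α l = a} => red i ⟨g j, hgW i a j⟩)
          = (y i) ∘ (ramFibreEquiv e f i a ha).symm := by
        funext j
        exact hgred i a ha j _
      rw [h1]
      exact (hy i).comp _ (ramFibreEquiv e f i a ha).symm.injective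
    · have hemp : IsEmpty {l : RamIdx e f // π l = i ∧ α l = a} := by
        refine ⟨fun j => ha ?_⟩
        obtain ⟨⟨i', a', m'⟩, h1, h2⟩ := j
        dsimp only [π, α] at h1 h2
        subst h1
        rw [← h2]
        exact a'.isLt
      refine ⟨fun j => (hemp.false j).elim, fun c _ _ j => (hemp.false j).elim⟩
  have hα : ∀ l : RamIdx e f, α l < e (π l) := fun l => l.2.1.isLt
  have h := card_le_finrank_ram' (π := π) (α := α) (g := g) hW hq hR hα hg
  rwa [card_ramIdx] at h

end FundIneq

/-! ### residue degrees from the fundamental inequality -/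

section Degrees

variable {K F k : Type*} [Field K] [Field F] [Algebra K F] [FiniteDimensional K F] [Field k]

section One

variable {Ft : Type*} [Field Ft] [Algebra k Ft] {R : RedData K F k Ft} {q : K} {ϖ : F} {e : ℕ}

theorem mul_card_le_finrank_one (hq : IsUnif R.A q) (hR : IsRamified R.A q R.Rw ϖ e) (n : ℕ)
    (y : Fin n → Ft) (hy : LinearIndependent k y) : e * n ≤ finrank K F := by
  have h := sum_mul_le_finrank (ι := Unit) (ϖ := fun _ => ϖ) (e := fun _ => e) (redFam_one R)
    (incomparable_unit R.Rw) hq (fun _ => hR) (fun _ => n) (fun _ => y) (fun _ => hy)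
  simpa using h

/-- the residue extension of a discrete extension of a discrete valuation is finite -/
theorem finiteDimensional_of_ram (hq : IsUnif R.A q) (hR : IsRamified R.A q R.Rw ϖ e) :
    FiniteDimensional k Ft := by
  have he := hR.e_pos hq
  have hrank : Module.rank k Ft ≤ (finrank K F : ℕ) := by
    apply rank_le
    intro s hs
    have h1 := mul_card_le_finrank_one hq hR s.card
      (fun i => ((s.equivFin.symm i : s) : Ft)) (hs.comp _ s.equivFin.symm.injective)
    calc s.card ≤ e * s.card := Nat.le_mul_of_pos_left _ he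
      _ ≤ _ := h1
  exact Module.rank_lt_aleph0_iff.mp (lt_of_le_of_lt hrank (Cardinal.natCast_lt_aleph0))

/-- `e f ≤ [F : K]` -/
theorem mul_finrank_le_of_ram (hq : IsUnif R.A q) (hR : IsRamified R.A q R.Rw ϖ e) :
    e * finrank k Ft ≤ finrank K F := by
  have := finiteDimensional_of_ram hq hR
  exact mul_card_le_finrank_one hq hR _ _ (Module.finBasis k Ft).linearIndependent

/-- **the inseparable row has `f = p`**: `[F : K] ≤ p`, one unramified place, a residue class
outside the image of `k` whose `p`-th power lies in it. -/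
theorem finrank_eq_of_insep (p : ℕ) [hp : Fact p.Prime] [CharP k p] (hq : IsUnif R.A q)
    (hR : IsRamified R.A q R.Rw ϖ 1) (hdeg : finrank K F ≤ p) (x0 : Ft)
    (hx0 : x0 ∉ (algebraMap k Ft).range) (hx0p : x0 ^ p ∈ (algebraMap k Ft).range) :
    finrank k Ft = p := by
  have := finiteDimensional_of_ram hq hR
  have hle : finrank k Ft ≤ p := by
    have := mul_finrank_le_of_ram hq hR
    rw [one_mul] at this
    exact this.trans hdeg
  refine le_antisymm hle ?_
  obtain ⟨a0, ha0⟩ := hx0p
  have : CharP Ft p := charP_of_injective_algebraMap (algebraMap k Ft).injective p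
  have hirr : Irreducible (Polynomial.X ^ p - Polynomial.C a0 : Polynomial k) := by
    apply X_pow_sub_C_irreducible_of_prime hp.out
    intro b hb
    apply hx0
    refine ⟨b, ?_⟩
    apply frobenius_inj Ft p
    rw [frobenius_def, frobenius_def, ← map_pow, hb, ha0]
  have hroot : Polynomial.aeval x0 (Polynomial.X ^ p - Polynomial.C a0 : Polynomial k) = 0 := by
    rw [map_sub, map_pow, Polynomial.aeval_X, Polynomial.aeval_C, ha0, sub_self]
  have hmin := minpoly.eq_of_irreducible_of_monic hirr hroot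
    (Polynomial.monic_X_pow_sub_C a0 hp.out.ne_zero)
  have hdegm := minpoly.natDegree_le (A := k) x0
  rw [← hmin, Polynomial.natDegree_X_pow_sub_C] at hdegm
  exact hdegm

end One

section Two

variable {Ft1 Ft2 : Type u} [Field Ft1] [Algebra k Ft1] [Field Ft2] [Algebra k Ft2]
  {R1 : RedData K F k Ft1} {R2 : RedData K F k Ft2} {q : K} {ϖ1 ϖ2 : F} {e1 e2 : ℕ}

theorem mul_card_add_le_finrank_two (hc : RedCompat R1 R2) (hne : R1.Rw ≠ R2.Rw)
    (hq : IsUnif R1.A q) (hR1 : IsRamified R1.A q R1.Rw ϖ1 e1)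
    (hR2 : IsRamified R1.A q R2.Rw ϖ2 e2) (n1 n2 : ℕ) (y1 : Fin n1 → Ft1) (y2 : Fin n2 → Ft2)
    (hy1 : LinearIndependent k y1) (hy2 : LinearIndependent k y2) :
    e1 * n1 + e2 * n2 ≤ finrank K F := by
  have h := sum_mul_le_finrank (ι := Bool) (ϖ := fun b => cond b ϖ1 ϖ2)
    (e := fun b => cond b e1 e2) (redFam_two hc) (incomparable_pairW hc hne) hq
    (fun b => by
      cases b
      · exact hR2
      · exact hR1)
    (fun b => cond b n1 n2)
    (fun b => match b with
      | true => y1
      | false => y2)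
    (fun b => by
      cases b
      · exact hy2
      · exact hy1)
  rw [Fintype.sum_bool] at h
  exact h

/-- **the split row has `f = 1` at both places**: `[F : K] ≤ 1 + e`. -/
theorem finrank_eq_one_of_split (hc : RedCompat R1 R2) (hne : R1.Rw ≠ R2.Rw)
    (hq : IsUnif R1.A q) (hR1 : IsRamified R1.A q R1.Rw ϖ1 1)
    (hR2 : IsRamified R1.A q R2.Rw ϖ2 e2) (hdeg : finrank K F ≤ 1 + e2) :
    finrank k Ft1 = 1 ∧ finrank k Ft2 = 1 := by
  have hf1 : FiniteDimensional k Ft1 := finiteDimensional_of_ram hq hR1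
  have hf2 : FiniteDimensional k Ft2 := by
    have hq' : IsUnif R2.A q := hc.A_eq ▸ hq
    have hR2' : IsRamified R2.A q R2.Rw ϖ2 e2 := hc.A_eq ▸ hR2
    exact finiteDimensional_of_ram hq' hR2'
  have h := mul_card_add_le_finrank_two hc hne hq hR1 hR2 _ _ _ _
    (Module.finBasis k Ft1).linearIndependent (Module.finBasis k Ft2).linearIndependent
  have h1 : 0 < finrank k Ft1 := Module.finrank_pos
  have h2 : 0 < finrank k Ft2 := Module.finrank_pos
  have he : 0 < e2 := by
    have hq' : IsUnif R2.A q := hc.A_eq ▸ hq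
    have hR2' : IsRamified R2.A q R2.Rw ϖ2 e2 := hc.A_eq ▸ hR2
    exact hR2'.e_pos hq'
  rw [one_mul] at h
  have h3 : finrank k Ft2 = 1 := by
    by_contra hne2
    have : 2 ≤ finrank k Ft2 := by omega
    have : e2 * 2 ≤ e2 * finrank k Ft2 := Nat.mul_le_mul_left _ this
    omega
  rw [h3, mul_one] at h
  exact ⟨by omega, h3⟩

end Two

end Degrees

/-! ### the rows from ABSOLUTE data -/

section AbsRows

variable {L E F k : Type*} [Field L] [Field E] [Field F] [Algebra L E] [Algebra L F]
  [Algebra E F] [IsScalarTower L E F] [FiniteDimensional E F] [Field k]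

/-- the unramified lower valuation has uniformiser `q₀` -/
theorem isUnif_of_isRamified_one {k' : Type*} [Field k'] [Algebra k k'] (R' : RedData L E k k')
    {q0 : L} (hq : IsUnif R'.A q0) (hR' : IsRamified R'.A q0 R'.Rw (algebraMap L E q0) 1) :
    IsUnif R'.Rw (algebraMap L E q0) where
  ne_zero := (map_ne_zero _).mpr hq.ne_zero
  mem := (ValuationSubring.mem_nonunits_iff _).mpr hR'.lt_one
  gen := fun a ha => hR'.gen a ((ValuationSubring.mem_nonunits_iff _).mp ha)

omit [FiniteDimensional E F] in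
/-- change of base in `IsRamified` (only `mem_iff` depends on the base) -/
theorem isRamified_rel {A0 : ValuationSubring L} {A' : ValuationSubring E}
    {V : ValuationSubring F} {q0 : L} {ϖ : F} {e : ℕ} (h : IsRamified A0 q0 V ϖ e)
    (hmem : ∀ a : E, a ∈ A' ↔ algebraMap E F a ∈ V) :
    IsRamified A' (algebraMap L E q0) V ϖ e where
  mem_iff := fun a => (hmem a).symm
  lt_one := h.lt_one
  gen := h.gen
  pow_eq := by
    rw [h.pow_eq, ← IsScalarTower.algebraMap_apply]

section Split

variable {k' : Type*} {κx κz : Type u} [Field k'] [Field κx] [Field κz] [Algebra k k']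
  [Algebra k κx] [Algebra k κz]
  (R' : RedData L E k k') (Rx : RedData L F k κx) (Rz : RedData L F k κz)
  (hmx : ∀ a : E, a ∈ R'.Rw ↔ algebraMap E F a ∈ Rx.Rw)
  (hmz : ∀ a : E, a ∈ R'.Rw ↔ algebraMap E F a ∈ Rz.Rw)
  {q0 : L} {ϖx ϖz : F} {e : ℕ}

/-- **the SPLIT row from absolute data**: `w' ← {w_x (e = 1), w_z (e)}`, `[F : E] ≤ 1 + e`:
the residue maps are isomorphisms, `|Nm u|' = |q₀|^(a + b)` and
`red' (Nm u) = y₁ * y₃ ^ e` with `y₁ ↦ red_x u`, `y₃ ↦ red_z u`. -/
theorem split_rows_abs (hbx : SameBase R' Rx) (hbz : SameBase R' Rz) (hne : Rx.Rw ≠ Rz.Rw)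
    (hq : IsUnif R'.A q0) (hR' : IsRamified R'.A q0 R'.Rw (algebraMap L E q0) 1)
    (hRx : IsRamified Rx.A q0 Rx.Rw ϖx 1) (hRz : IsRamified Rz.A q0 Rz.Rw ϖz e)
    (hdeg : finrank E F ≤ 1 + e) :
    Function.Bijective (relResHom R' Rx hmx hbx) ∧
    Function.Bijective (relResHom R' Rz hmz hbz) ∧
    (∀ (u : F) (a b : ℤ), Rx.Rw.valuation u = Rx.Rw.valuation ϖx ^ a →
      Rz.Rw.valuation u = Rz.Rw.valuation ϖz ^ b →
      R'.Rw.valuation (Algebra.norm E u) = R'.Rw.valuation (algebraMap L E q0) ^ (a + b)) ∧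
    (∀ (u : F) (h1 : u ∈ Rx.Rw) (h3 : u ∈ Rz.Rw), ∃ hN : Algebra.norm E u ∈ R'.Rw,
      ∃ y1 y3 : k', relResHom R' Rx hmx hbx y1 = Rx.red ⟨u, h1⟩ ∧
        relResHom R' Rz hmz hbz y3 = Rz.red ⟨u, h3⟩ ∧
        R'.red ⟨Algebra.norm E u, hN⟩ = y1 * y3 ^ e) := by
  let algx : Algebra k' κx := (relResMap R' Rx hmx).toAlgebra
  let algz : Algebra k' κz := (relResMap R' Rz hmz).toAlgebra
  set Relx : RedData E F k' κx := relRedData R' Rx hmx (fun _ => rfl) with hRelx
  set Relz : RedData E F k' κz := relRedData R' Rz hmz (fun _ => rfl) with hRelz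
  have hc : RedCompat Relx Relz := ⟨rfl, fun _ _ _ => rfl⟩
  have hqE : IsUnif Relx.A (algebraMap L E q0) := isUnif_of_isRamified_one R' hq hR'
  have hx : IsRamified Relx.A (algebraMap L E q0) Relx.Rw ϖx 1 := isRamified_rel hRx hmx
  have hz : IsRamified Relx.A (algebraMap L E q0) Relz.Rw ϖz e := isRamified_rel hRz hmz
  have hne' : Relx.Rw ≠ Relz.Rw := hne
  obtain ⟨hfx, hfz⟩ := finrank_eq_one_of_split hc hne' hqE hx hz hdeg
  refine ⟨⟨(relResHom R' Rx hmx hbx).injective, fun y => ?_⟩,
    ⟨(relResHom R' Rz hmz hbz).injective, fun y => ?_⟩, ?_, ?_⟩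
  · exact ⟨_, algebraMap_norm_of_finrank_eq_one hfx y⟩
  · exact ⟨_, algebraMap_norm_of_finrank_eq_one hfz y⟩
  · intro u a b hu1 hu2
    exact row_split_vert hc hne' hqE hx hz hfx hfz hdeg u a b hu1 hu2
  · intro u h1 h3
    exact row_split_red hc hne' hqE hx hz hfx hfz hdeg u h1 h3

end Split

section Insep

variable {k' κy : Type*} [Field k'] [Field κy] [Algebra k k'] [Algebra k κy]
  (R' : RedData L E k k') (Ry : RedData L F k κy)
  (hmy : ∀ a : E, a ∈ R'.Rw ↔ algebraMap E F a ∈ Ry.Rw)
  {q0 : L} {ϖy : F}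

/-- **the INSEPARABLE row from absolute data**: `w' ← {w_y (e = 1, f = p)}`, `[F : E] ≤ p`,
`κ_y^p ⊆ k'` and ONE residue class outside `k'`:
`|Nm u|' = |q₀|^(p a)` and `red' (Nm u) ↦ (red_y u)^p`. -/
theorem insep_rows_abs (p : ℕ) [hp : Fact p.Prime] [CharP k' p] (hby : SameBase R' Ry)
    (hq : IsUnif R'.A q0) (hR' : IsRamified R'.A q0 R'.Rw (algebraMap L E q0) 1)
    (hRy : IsRamified Ry.A q0 Ry.Rw ϖy 1) (hdeg : finrank E F ≤ p)
    (x0 : κy) (hx0 : ∀ y : k', relResHom R' Ry hmy hby y ≠ x0)
    (hpow : ∀ x : κy, ∃ y : k', relResHom R' Ry hmy hby y = x ^ p) :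
    (∀ (u : F) (a : ℤ), Ry.Rw.valuation u = Ry.Rw.valuation ϖy ^ a →
      R'.Rw.valuation (Algebra.norm E u)
        = R'.Rw.valuation (algebraMap L E q0) ^ ((p : ℤ) * a)) ∧
    (∀ (u : F) (h2 : u ∈ Ry.Rw), ∃ hN : Algebra.norm E u ∈ R'.Rw,
      relResHom R' Ry hmy hby (R'.red ⟨Algebra.norm E u, hN⟩) = Ry.red ⟨u, h2⟩ ^ p) := by
  let algy : Algebra k' κy := (relResMap R' Ry hmy).toAlgebra
  set Rely : RedData E F k' κy := relRedData R' Ry hmy (fun _ => rfl) with hRely
  have hqE : IsUnif Rely.A (algebraMap L E q0) := isUnif_of_isRamified_one R' hq hR'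
  have hy : IsRamified Rely.A (algebraMap L E q0) Rely.Rw ϖy 1 := isRamified_rel hRy hmy
  have hpow' : ∀ x : κy, x ^ p ∈ (algebraMap k' κy).range := fun x => hpow x
  have hf : finrank k' κy = p :=
    finrank_eq_of_insep p hqE hy hdeg x0 (fun ⟨y, hy⟩ => hx0 y hy) (hpow' x0)
  refine ⟨?_, ?_⟩
  · intro u a hu
    exact row_insep_vert p hp.out.pos hqE hy hf hdeg u a hu
  · intro u h2
    exact row_insep_red p hqE hy hf hdeg hpow' u h2

end Insep

end AbsRows

/-! ### an absolute reduction datum from a bare valuation subring -/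

section OfVal

variable {K F k : Type*} [Field K] [Field F] [Algebra K F] [Field k]
  (A : ValuationSubring K) (W : ValuationSubring F)
  (hmem : ∀ a : K, a ∈ A ↔ algebraMap K F a ∈ W)
  (res : A →+* k) (hres : Function.Surjective res)
  (hker : ∀ x : A, res x = 0 ↔ x ∈ maximalIdeal A)

/-- the residue field of `A` maps to the residue field of `W` -/
def valResMap : k →+* ResidueField W :=
  resFieldMap hmem res hres (fun x hx => (hker x).1 hx) (residue W)
    (fun x hx => (residue_eq_zero_iff x).2 hx)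

theorem valResMap_res (a : A) :
    valResMap A W hmem res hres hker (res a) = residue W (inclVal hmem a) :=
  resFieldMap_res hmem _ _ _ _ _ a

/-- **a valuation subring above `A` as a reduction datum**, with its own residue field -/
def redDataOfVal [Algebra k (ResidueField W)]
    (halg : ∀ y : k, algebraMap k (ResidueField W) y = valResMap A W hmem res hres hker y) :
    RedData K F k (ResidueField W) where
  Rw := W
  A := A
  mem_A_iff := hmem
  red := residue W
  red_surjective := residue_surjective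
  red_eq_zero_iff := residue_eq_zero_iff
  res := res
  res_surjective := hres
  red_algebraMap := fun a => by
    rw [halg, valResMap_res A W hmem res hres hker a]
    rfl

end OfVal

/-! ### discreteness, constants, norms of constants -/

section Misc

variable {F : Type*} [Field F]

/-- a discrete valuation ring whose maximal ideal is generated by `ϖ` -/
theorem isDiscAt_of_gen (V : ValuationSubring F) [IsDiscreteValuationRing V] {ϖ : F}
    (hlt : V.valuation ϖ < 1) (h0 : ϖ ≠ 0)
    (hgen : ∀ x, V.valuation x < 1 → V.valuation x ≤ V.valuation ϖ) : IsDiscAt V ϖ := by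
  have hϖV : ϖ ∈ V := (V.valuation_le_one_iff _).mp hlt.le
  have hv0 : V.valuation ϖ ≠ 0 := (Valuation.ne_zero_iff _).mpr h0
  have hirr : Irreducible (⟨ϖ, hϖV⟩ : V) := by
    rw [IsDiscreteValuationRing.irreducible_iff_uniformizer]
    apply le_antisymm
    · intro x hx
      rw [ValuationSubring.valuation_lt_one_iff] at hx
      have h1 : (x : F) / ϖ ∈ V := by
        rw [← ValuationSubring.valuation_le_one_iff, map_div₀]
        exact div_le_one_of_le₀ (hgen _ hx) zero_le
      rw [Ideal.mem_span_singleton]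
      refine ⟨⟨(x : F) / ϖ, h1⟩, Subtype.ext ?_⟩
      show (x : F) = ϖ * ((x : F) / ϖ)
      field_simp
    · rw [Ideal.span_singleton_le_iff_mem, ValuationSubring.valuation_lt_one_iff]
      exact hlt
  -- elements of `V`
  have key : ∀ x : F, x ≠ 0 → x ∈ V → ∃ n : ℕ, V.valuation x = V.valuation ϖ ^ n := by
    intro x hx0 hxV
    have hx0' : (⟨x, hxV⟩ : V) ≠ 0 := fun h => hx0 (congrArg Subtype.val h)
    obtain ⟨n, hn⟩ := IsDiscreteValuationRing.associated_pow_irreducible hx0' hirr
    obtain ⟨w, hw⟩ := hn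
    refine ⟨n, ?_⟩
    have h1 : x * ((w : V) : F) = ϖ ^ n := congrArg Subtype.val hw
    have h2 : V.valuation ((w : V) : F) = 1 := V.valuation_unit w
    have h3 := congrArg V.valuation h1
    rwa [map_mul, h2, mul_one, map_pow] at h3
  refine ⟨hlt, h0, fun x hx0 => ?_⟩
  rcases V.mem_or_inv_mem x with hxV | hxV
  · obtain ⟨n, hn⟩ := key x hx0 hxV
    exact ⟨n, by rw [hn, zpow_natCast]⟩
  · obtain ⟨n, hn⟩ := key x⁻¹ (inv_ne_zero hx0) hxV
    refine ⟨-(n : ℤ), ?_⟩
    rw [map_inv₀] at hn
    rw [zpow_neg, zpow_natCast, ← hn, inv_inv]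

variable {L E : Type*} [Field L] [Field E] [Algebra L E]

/-- constants have the same `q₀`-adic order at every valuation above `A₀` -/
theorem exists_zpow_algebraMap {A0 : ValuationSubring L} {q0 : L} (hd0 : IsDiscAt A0 q0)
    (c : L) (hc : c ≠ 0) :
    ∃ n : ℤ, ∀ (V : ValuationSubring E), (∀ a : L, a ∈ A0 ↔ algebraMap L E a ∈ V) →
      V.valuation (algebraMap L E c) = V.valuation (algebraMap L E q0) ^ n := by
  obtain ⟨n, hn⟩ := hd0.exists_zpow c hc
  refine ⟨n, fun V hV => ?_⟩
  set w : L := c * q0 ^ (-n) with hw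
  have hq0 : A0.valuation q0 ≠ 0 := hd0.valuation_ne_zero
  have hw1 : A0.valuation w = 1 := by
    rw [hw, map_mul, map_zpow₀, hn, ← zpow_add₀ hq0, add_neg_cancel, zpow_zero]
  have hwA : w ∈ A0 := (A0.valuation_le_one_iff _).mp hw1.le
  have hwiA : w⁻¹ ∈ A0 := by
    rw [← ValuationSubring.valuation_le_one_iff, map_inv₀, hw1, inv_one]
  have h1 : V.valuation (algebraMap L E w) ≤ 1 := (V.valuation_le_one_iff _).mpr ((hV w).1 hwA)
  have h2 : V.valuation (algebraMap L E w)⁻¹ ≤ 1 := by
    rw [← map_inv₀]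
    exact (V.valuation_le_one_iff _).mpr ((hV _).1 hwiA)
  have hw0 : w ≠ 0 := by
    intro h
    rw [h, map_zero] at hw1
    exact zero_ne_one hw1
  have h3 : V.valuation (algebraMap L E w) = 1 := by
    refine le_antisymm h1 ?_
    rw [map_inv₀] at h2
    have hne : V.valuation (algebraMap L E w) ≠ 0 :=
      (Valuation.ne_zero_iff _).mpr ((map_ne_zero _).mpr hw0)
    exact (inv_le_one₀ (zero_lt_iff.mpr hne)).mp h2
  have hcw : c = w * q0 ^ n := by
    rw [hw, mul_assoc, ← zpow_add₀ hd0.ne_zero, neg_add_cancel, zpow_zero, mul_one]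
  rw [hcw, map_mul, map_mul, h3, one_mul, map_zpow₀, map_zpow₀]

variable {F' : Type*} [Field F'] [Algebra L F'] [Algebra E F'] [IsScalarTower L E F']

/-- the norm of a constant is a constant -/
theorem norm_algebraMap_tower (c : L) :
    ∃ c' : L, Algebra.norm E (algebraMap L F' c) = algebraMap L E c' :=
  ⟨c ^ finrank E F', by
    rw [IsScalarTower.algebraMap_apply L E F', Algebra.norm_algebraMap, map_pow]⟩

/-- the norm as a `MonoidWithZeroHom` -/
def normHom₀ [FiniteDimensional E F'] : F' →*₀ E :=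
  { Algebra.norm E with map_zero' := Algebra.norm_zero }

@[simp] theorem normHom₀_apply [FiniteDimensional E F'] (x : F') :
    (normHom₀ : F' →*₀ E) x = Algebra.norm E x := rfl

end Misc

end Fermat.Agent.GL.Chain
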