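/-
GATE-L / NORM-UNIT (helper46): the norm of a semilocal unit is a unit below.
Input (iii) of the (V3) checklist (`XiStep.node_eq_of_norm`, hypotheses `hx hx'`).

* `exists_mul_eq_of_not_mem_over` : `B` integral over `B'`, `n'` a maximal ideal of `B'`,
  `c : B` in NO maximal ideal of `B` lying over `n'`  ⟹  `∃ a ∉ n', ∃ y, c * y = a`
  (going-up for the integral extension `B' → B ⧸ (c)`; fraction-free).
* `exists_norm_eq_of_not_mem_over` : moreover `B'` integrally closed with fraction field `E`,
  `B → F`, `E → F` a field extension: `Algebra.norm E c = ν` with `ν ∈ B' ∖ n'`.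
-/
import Mathlib

set_option autoImplicit false
set_option linter.unusedSectionVars false
set_option linter.unusedVariables false

namespace Fermat.Agent.GL.NormUnit

variable {B' B : Type*} [CommRing B'] [CommRing B] [Algebra B' B] [Algebra.IsIntegral B' B]

/-- (NU1) -/
theorem exists_mul_eq_of_not_mem_over (n' : Ideal B') [hn' : n'.IsMaximal] (c : B)
    (hc : ∀ n : Ideal B, n.IsMaximal → n.comap (algebraMap B' B) = n' → c ∉ n) :
    ∃ a : B', a ∉ n' ∧ ∃ y : B, c * y = algebraMap B' B a := by
  by_contra hcon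
  push Not at hcon
  -- then `(c) ∩ B' ≤ n'`
  have hle : (Ideal.span {c}).comap (algebraMap B' B) ≤ n' := by
    intro a ha
    by_contra han
    rw [Ideal.mem_comap, Ideal.mem_span_singleton'] at ha
    obtain ⟨y, hy⟩ := ha
    exact hcon a han y (by rw [mul_comm]; exact hy)
  obtain ⟨Q, hQ, hQp, hQn⟩ := Ideal.exists_ideal_over_prime_of_isIntegral n' (Ideal.span {c}) hle
  have hQmax : Q.IsMaximal :=
    Ideal.isMaximal_of_isIntegral_of_isMaximal_comap (R := B') Q (hQn ▸ hn')
  exact hc Q hQmax hQn (hQ (Ideal.mem_span_singleton_self c))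

variable {E F : Type*} [Field E] [Field F] [Algebra E F] [IsDomain B'] [IsIntegrallyClosed B']
  [Algebra B' E] [IsFractionRing B' E] [Algebra B F] [Algebra B' F] [IsScalarTower B' B F]
  [IsScalarTower B' E F]

/-- the norm of an element of `B` lies in `B'`. -/
theorem exists_norm_eq (c : B) :
    ∃ ν : B', algebraMap B' E ν = Algebra.norm E (algebraMap B F c) := by
  have hint : IsIntegral B' (algebraMap B F c) :=
    IsIntegral.algebraMap (Algebra.IsIntegral.isIntegral (R := B') c)
  have := Algebra.isIntegral_norm (R := B') E hint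
  exact IsIntegrallyClosed.isIntegral_iff.mp this

/-- (NU2) -/
theorem exists_norm_eq_of_not_mem_over (n' : Ideal B') [hn' : n'.IsMaximal] (c : B)
    (hc : ∀ n : Ideal B, n.IsMaximal → n.comap (algebraMap B' B) = n' → c ∉ n) :
    ∃ ν : B', ν ∉ n' ∧ algebraMap B' E ν = Algebra.norm E (algebraMap B F c) := by
  obtain ⟨a, ha, y, hy⟩ := exists_mul_eq_of_not_mem_over n' c hc
  obtain ⟨ν, hν⟩ := exists_norm_eq (B' := B') (E := E) (F := F) c
  obtain ⟨νy, hνy⟩ := exists_norm_eq (B' := B') (E := E) (F := F) y
  refine ⟨ν, fun hmem => ?_, hν⟩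
  have hprod : ν * νy = a ^ Module.finrank E F := by
    apply IsFractionRing.injective B' E
    rw [map_mul, map_pow, hν, hνy, ← map_mul, ← map_mul, hy,
      ← IsScalarTower.algebraMap_apply, IsScalarTower.algebraMap_apply B' E F,
      Algebra.norm_algebraMap]
  have : a ^ Module.finrank E F ∈ n' := hprod ▸ n'.mul_mem_right _ hmem
  exact ha (hn'.isPrime.mem_of_pow_mem _ this)

end Fermat.Agent.GL.NormUnit
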