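/-
GATE-L / L3+L4 CONCRETE, step APPROX + assembly (helper66): **`u ≡ 1` modulo the radical**, in
hypothesis form.

* `exists_approx_three` : simultaneous residue approximation at three incomparable valuation
  subrings (helper90 `GK/MultiVal/Approx.exists_approx`).
* `exists_one_mod_rad`  : a unit `u1` whose three reductions are `m`-th powers `V_i ^ m` can be
  divided by an `m`-th power `β ^ m` so that all three reductions become `1`.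
* `exists_normalised`   : the chain (d') ⟶ (b) ⟶ APPROX of BLUEPRINT v2 (board 2677 (V4)):
  if `Nm u` and `Nm' u` are `constant * p^n-th power`, then
  `u ^ (q-1) = constant * g ^ (p^(n-c)) * u2` with `u2` a unit at `W1, W2, W3`, `rd_i u2 = 1`, and
  `Nm u2`, `Nm' u2` still `constant * p^(n-c)-th power` (the input of (V3) = L9).
-/
import Mathlib
import Fermat.Agent.GK.MultiVal.Approx
import Fermat.Agent.GL.Chain.RedStep

set_option autoImplicit false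

namespace Fermat.Agent.GL.Chain

open Fermat.Agent.GK.MultiVal

section Approx

variable {F : Type*} [Field F] {k1 k2 k3 : Type*} [Field k1] [Field k2] [Field k3]

/-- the reduction of an element differing by a non-unit -/
theorem red_eq_of_sub_lt {κ : Type*} [Field κ] {V : ValuationSubring F} (rd : V →+* κ)
    (hker : ∀ x : V, rd x = 0 ↔ V.valuation (x : F) < 1) {x a : F} (hx : x ∈ V) (ha : a ∈ V)
    (h : V.valuation (x - a) < 1) : rd ⟨x, hx⟩ = rd ⟨a, ha⟩ := by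
  have : rd (⟨x, hx⟩ - ⟨a, ha⟩) = 0 := (hker _).mpr h
  rwa [map_sub, sub_eq_zero] at this

/-- **simultaneous residue approximation at three places** -/
theorem exists_approx_three {W1 W2 W3 : ValuationSubring F}
    (hW : Incomparable ![W1, W2, W3])
    (rd1 : W1 →+* k1) (rd2 : W2 →+* k2) (rd3 : W3 →+* k3)
    (hs1 : Function.Surjective rd1) (hs2 : Function.Surjective rd2)
    (hs3 : Function.Surjective rd3)
    (hker1 : ∀ x : W1, rd1 x = 0 ↔ W1.valuation (x : F) < 1)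
    (hker2 : ∀ x : W2, rd2 x = 0 ↔ W2.valuation (x : F) < 1)
    (hker3 : ∀ x : W3, rd3 x = 0 ↔ W3.valuation (x : F) < 1)
    (V1 : k1) (V2 : k2) (V3 : k3) :
    ∃ (β : F) (h1 : β ∈ W1) (h2 : β ∈ W2) (h3 : β ∈ W3),
      rd1 ⟨β, h1⟩ = V1 ∧ rd2 ⟨β, h2⟩ = V2 ∧ rd3 ⟨β, h3⟩ = V3 := by
  obtain ⟨a1, ha1⟩ := hs1 V1
  obtain ⟨a2, ha2⟩ := hs2 V2
  obtain ⟨a3, ha3⟩ := hs3 V3
  obtain ⟨x, hx1, hx2⟩ := exists_approx hW ![(a1 : F), (a2 : F), (a3 : F)] (by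
    intro i
    fin_cases i
    · exact a1.2
    · exact a2.2
    · exact a3.2)
  have m1 : x ∈ W1 := (W1.valuation_le_one_iff _).mp (hx1 0)
  have m2 : x ∈ W2 := (W2.valuation_le_one_iff _).mp (hx1 1)
  have m3 : x ∈ W3 := (W3.valuation_le_one_iff _).mp (hx1 2)
  refine ⟨x, m1, m2, m3, ?_, ?_, ?_⟩
  · rw [red_eq_of_sub_lt rd1 hker1 m1 a1.2 (hx2 0)]; exact ha1
  · rw [red_eq_of_sub_lt rd2 hker2 m2 a2.2 (hx2 1)]; exact ha2
  · rw [red_eq_of_sub_lt rd3 hker3 m3 a3.2 (hx2 2)]; exact ha3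

/-- reduction of the inverse of a unit -/
theorem red_inv {κ : Type*} [Field κ] {V : ValuationSubring F} (rd : V →+* κ) {x : F}
    (hx : x ∈ V) (hxi : x⁻¹ ∈ V) (h0 : x ≠ 0) : rd ⟨x⁻¹, hxi⟩ = (rd ⟨x, hx⟩)⁻¹ := by
  have h1 : rd ⟨x, hx⟩ * rd ⟨x⁻¹, hxi⟩ = 1 := by
    rw [← map_mul, ← map_one rd]
    congr 1
    exact Subtype.ext (mul_inv_cancel₀ h0)
  exact eq_inv_of_mul_eq_one_right h1

/-- `rd (u * β⁻¹ ^ m) = 1` if `rd u = v ^ m` and `rd β = v ≠ 0` -/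
theorem red_mul_inv_pow {κ : Type*} [Field κ] {V : ValuationSubring F} (rd : V →+* κ)
    {u β : F} {m : ℕ} (hu : u ∈ V) (hb : β ∈ V) (hbi : β⁻¹ ∈ V) (g : u * β⁻¹ ^ m ∈ V)
    (hβ0 : β ≠ 0) {v : κ} (hv : v ≠ 0) (rb : rd ⟨β, hb⟩ = v) (ru : rd ⟨u, hu⟩ = v ^ m) :
    rd ⟨u * β⁻¹ ^ m, g⟩ = 1 := by
  have : (⟨u * β⁻¹ ^ m, g⟩ : V) = ⟨u, hu⟩ * ⟨β⁻¹, hbi⟩ ^ m := Subtype.ext rfl
  rw [this, map_mul, map_pow, red_inv rd hb hbi hβ0, rb, ru, inv_pow,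
    mul_inv_cancel₀ (pow_ne_zero _ hv)]

/-- **`u ≡ 1` modulo the radical after dividing by an `m`-th power.** -/
theorem exists_one_mod_rad {W1 W2 W3 : ValuationSubring F}
    (hW : Incomparable ![W1, W2, W3])
    (rd1 : W1 →+* k1) (rd2 : W2 →+* k2) (rd3 : W3 →+* k3)
    (hs1 : Function.Surjective rd1) (hs2 : Function.Surjective rd2)
    (hs3 : Function.Surjective rd3)
    (hker1 : ∀ x : W1, rd1 x = 0 ↔ W1.valuation (x : F) < 1)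
    (hker2 : ∀ x : W2, rd2 x = 0 ↔ W2.valuation (x : F) < 1)
    (hker3 : ∀ x : W3, rd3 x = 0 ↔ W3.valuation (x : F) < 1)
    (m : ℕ) {u1 : F} (h1 : u1 ∈ W1) (h2 : u1 ∈ W2) (h3 : u1 ∈ W3)
    {V1 : k1} {V2 : k2} {V3 : k3} (hV1 : V1 ≠ 0) (hV2 : V2 ≠ 0) (hV3 : V3 ≠ 0)
    (e1 : rd1 ⟨u1, h1⟩ = V1 ^ m) (e2 : rd2 ⟨u1, h2⟩ = V2 ^ m) (e3 : rd3 ⟨u1, h3⟩ = V3 ^ m) :
    ∃ β : F, β ≠ 0 ∧ W1.valuation β = 1 ∧ W2.valuation β = 1 ∧ W3.valuation β = 1 ∧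
      ∃ (g1 : u1 * β⁻¹ ^ m ∈ W1) (g2 : u1 * β⁻¹ ^ m ∈ W2) (g3 : u1 * β⁻¹ ^ m ∈ W3),
        rd1 ⟨u1 * β⁻¹ ^ m, g1⟩ = 1 ∧ rd2 ⟨u1 * β⁻¹ ^ m, g2⟩ = 1 ∧
          rd3 ⟨u1 * β⁻¹ ^ m, g3⟩ = 1 := by
  obtain ⟨β, b1, b2, b3, r1, r2, r3⟩ := exists_approx_three hW rd1 rd2 rd3 hs1 hs2 hs3
    hker1 hker2 hker3 V1 V2 V3
  have v1 : W1.valuation β = 1 :=
    valuation_eq_one_of_red_ne_zero rd1 hker1 ⟨β, b1⟩ (by rw [r1]; exact hV1)
  have v2 : W2.valuation β = 1 :=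
    valuation_eq_one_of_red_ne_zero rd2 hker2 ⟨β, b2⟩ (by rw [r2]; exact hV2)
  have v3 : W3.valuation β = 1 :=
    valuation_eq_one_of_red_ne_zero rd3 hker3 ⟨β, b3⟩ (by rw [r3]; exact hV3)
  have hβ0 : β ≠ 0 := by
    rintro rfl
    rw [map_zero] at v1
    exact zero_ne_one v1
  have i1 : β⁻¹ ∈ W1 := (W1.valuation_le_one_iff _).mp (by rw [map_inv₀, v1, inv_one])
  have i2 : β⁻¹ ∈ W2 := (W2.valuation_le_one_iff _).mp (by rw [map_inv₀, v2, inv_one])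
  have i3 : β⁻¹ ∈ W3 := (W3.valuation_le_one_iff _).mp (by rw [map_inv₀, v3, inv_one])
  refine ⟨β, hβ0, v1, v2, v3, W1.mul_mem _ _ h1 (pow_mem i1 m),
    W2.mul_mem _ _ h2 (pow_mem i2 m), W3.mul_mem _ _ h3 (pow_mem i3 m), ?_, ?_, ?_⟩
  · exact red_mul_inv_pow rd1 h1 b1 i1 _ hβ0 hV1 r1 e1
  · exact red_mul_inv_pow rd2 h2 b2 i2 _ hβ0 hV2 r2 e2
  · exact red_mul_inv_pow rd3 h3 b3 i3 _ hβ0 hV3 r3 e3

end Approx

end Fermat.Agent.GL.Chain
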