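/-
GATE-L / L3+L4 CONCRETE (helper66): COPRIME forms of `red_isCstPow` and `exists_normalised`.

The landed `Chain.red_isCstPow` / `Chain.exists_normalised` ask for `hj22`, `hj11'` ("the image of
the inseparable residue map consists of `q`-th powers"), a statement about `[k' : k'^q] = q`.
It is NOT needed: the exponent `m = p^(n-c)` is prime to `q`, and
  `x^q = c * y^m`, `a q + b m = 1`  ⟹  `x = c^a * (y^a * x^b)^m`   (Bezout).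
`red_isCstPow'`, `exists_normalised'` = the same statements WITHOUT `hj22 hj11'` (and without
`[CharP k q]`), WITH `p ≠ q`.  Proofs: verbatim copies with the two root extractions replaced by
`IsCstPow.of_pow_coprime`.
-/
import Mathlib
import Fermat.Agent.GL.Chain.Normalise

set_option autoImplicit false

namespace Fermat.Agent.GL.Chain

open Fermat.Agent.GK.MultiVal

section Cop

variable {k : Type*} [Field k] {κ : Type*} [Field κ] [Algebra k κ] {m : ℕ}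

/-- Bezout root extraction: `x^q = c * y^m`, `gcd(q, m) = 1` ⟹ `x = c^a * (y^a * x^b)^m` -/
theorem IsCstPow.of_pow_coprime {q : ℕ} (hqm : Nat.Coprime q m) {x y : κ} {c : k}
    (hc : c ≠ 0) (hx : x ≠ 0) (hy : y ≠ 0) (e : x ^ q = algebraMap k κ c * y ^ m) :
    IsCstPow k m x := by
  obtain ⟨a, b, hab⟩ := (Nat.isCoprime_iff_coprime.mpr hqm : IsCoprime (q : ℤ) (m : ℤ))
  refine ⟨c ^ a, y ^ a * x ^ b, zpow_ne_zero _ hc,
    mul_ne_zero (zpow_ne_zero _ hy) (zpow_ne_zero _ hx), ?_⟩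
  have h1 : x = x ^ (a * (q : ℤ) + b * (m : ℤ)) := by rw [hab, zpow_one]
  have h2 : x ^ (a * (q : ℤ)) = (x ^ q) ^ a := by
    rw [mul_comm, zpow_mul, zpow_natCast]
  have h3 : x ^ (b * (m : ℤ)) = (x ^ b) ^ m := by
    rw [zpow_mul, zpow_natCast]
  have h4 : (y ^ m) ^ a = (y ^ a) ^ m := by
    rw [← zpow_natCast y m, ← zpow_mul, mul_comm, zpow_mul, zpow_natCast]
  calc x = x ^ (a * (q : ℤ)) * x ^ (b * (m : ℤ)) := by rw [← zpow_add₀ hx, ← h1]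
    _ = (algebraMap k κ c * y ^ m) ^ a * (x ^ b) ^ m := by rw [h2, h3, e]
    _ = algebraMap k κ (c ^ a) * (y ^ a * x ^ b) ^ m := by
        rw [mul_zpow, h4, map_zpow₀, mul_pow, mul_assoc]

end Cop

section RedStepCop

variable {L F E : Type*} [Field L] [Field F] [Field E] [Algebra L E]
  {k : Type*} [Field k]
  {k1 k2 k3 k1' k2' : Type*} [Field k1] [Field k2] [Field k3] [Field k1'] [Field k2']
  [Algebra k k1] [Algebra k k2] [Algebra k k3] [Algebra k k1'] [Algebra k k2']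

/-- **(b) the norm-reduction step, coprime form**: NO hypothesis that the images of the
inseparable residue maps consist of `q`-th powers; instead `gcd(q, m) = 1` (Bezout). -/
theorem red_isCstPow' (q : ℕ) [Fact q.Prime]
    {W1 W2 W3 : ValuationSubring F} {A1 A2 : ValuationSubring E} {q0 : L}
    (hdA1 : IsDiscAt A1 (algebraMap L E q0)) (hdA2 : IsDiscAt A2 (algebraMap L E q0))
    (rd1 : W1 →+* k1) (rd2 : W2 →+* k2) (rd3 : W3 →+* k3)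
    (hker1 : ∀ x : W1, rd1 x = 0 ↔ W1.valuation (x : F) < 1)
    (hker2 : ∀ x : W2, rd2 x = 0 ↔ W2.valuation (x : F) < 1)
    (hker3 : ∀ x : W3, rd3 x = 0 ↔ W3.valuation (x : F) < 1)
    (rd1' : A1 →+* k1') (rd2' : A2 →+* k2')
    (hker1' : ∀ x : A1, rd1' x = 0 ↔ A1.valuation (x : E) < 1)
    (hker2' : ∀ x : A2, rd2' x = 0 ↔ A2.valuation (x : E) < 1)
    (hLval1 : ∀ c : L, c ≠ 0 → ∃ n : ℤ,
      A1.valuation (algebraMap L E c) = A1.valuation (algebraMap L E q0) ^ n)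
    (hLval2 : ∀ c : L, c ≠ 0 → ∃ n : ℤ,
      A2.valuation (algebraMap L E c) = A2.valuation (algebraMap L E q0) ^ n)
    (hLred1 : ∀ (c : L) (hc : algebraMap L E c ∈ A1), ∃ a : k,
      rd1' ⟨algebraMap L E c, hc⟩ = algebraMap k k1' a)
    (hLred2 : ∀ (c : L) (hc : algebraMap L E c ∈ A2), ∃ a : k,
      rd2' ⟨algebraMap L E c, hc⟩ = algebraMap k k2' a)
    (j11 : k1' →ₐ[k] k1) (hj11 : Function.Surjective j11)
    (j13 : k1' →ₐ[k] k3)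
    (j22 : k2' →ₐ[k] k2) (j11' : k1' →ₐ[k] k1)
    (Nm Nm' : F → E)
    (hπ13 : ∀ (u : F) (h1 : u ∈ W1) (h3 : u ∈ W3), ∃ hN : Nm u ∈ A1, ∃ y1 y3 : k1',
      j11 y1 = rd1 ⟨u, h1⟩ ∧ j13 y3 = rd3 ⟨u, h3⟩ ∧ rd1' ⟨Nm u, hN⟩ = y1 * y3 ^ (q - 1))
    (hπ2 : ∀ (u : F) (h2 : u ∈ W2), ∃ hN : Nm u ∈ A2,
      j22 (rd2' ⟨Nm u, hN⟩) = rd2 ⟨u, h2⟩ ^ q)
    (hπ'1 : ∀ (u : F) (h1 : u ∈ W1), ∃ hN : Nm' u ∈ A1,
      j11' (rd1' ⟨Nm' u, hN⟩) = rd1 ⟨u, h1⟩ ^ q)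
    {m : ℕ} (hqm : Nat.Coprime q m) {u : F} (h1 : u ∈ W1) (h2 : u ∈ W2) (h3 : u ∈ W3)
    (hu1 : W1.valuation u = 1) (hu2 : W2.valuation u = 1) (hu3 : W3.valuation u = 1)
    {c₁ c₂ : L} {h₁ h₂ : E} (hc₁ : c₁ ≠ 0) (hc₂ : c₂ ≠ 0) (h₁0 : h₁ ≠ 0) (h₂0 : h₂ ≠ 0)
    (e₁ : Nm u = algebraMap L E c₁ * h₁ ^ m) (e₂ : Nm' u = algebraMap L E c₂ * h₂ ^ m) :
    IsCstPow k m (rd1 ⟨u, h1⟩) ∧ IsCstPow k m (rd2 ⟨u, h2⟩) ∧
      IsCstPow k m (rd3 ⟨u, h3⟩ ^ (q - 1)) := by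
  have hq : q ≠ 0 := (Fact.out : q.Prime).ne_zero
  have r1 : rd1 ⟨u, h1⟩ ≠ 0 := fun h => by
    rw [hker1] at h; simp only [hu1, lt_self_iff_false] at h
  have r2 : rd2 ⟨u, h2⟩ ≠ 0 := fun h => by
    rw [hker2] at h; simp only [hu2, lt_self_iff_false] at h
  have r3 : rd3 ⟨u, h3⟩ ≠ 0 := fun h => by
    rw [hker3] at h; simp only [hu3, lt_self_iff_false] at h
  -- `rd2`
  have s2 : IsCstPow k m (rd2 ⟨u, h2⟩) := by
    obtain ⟨hN, e⟩ := hπ2 u h2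
    have hne : rd2' ⟨Nm u, hN⟩ ≠ 0 := fun h0 => by
      rw [h0, map_zero] at e
      exact pow_ne_zero q r2 e.symm
    have hval := valuation_eq_one_of_red_ne_zero rd2' hker2' ⟨Nm u, hN⟩ hne
    obtain ⟨c, v, hc, hv, ecv⟩ := isCstPow_red_of_unit (k := k) hdA2 rd2' hker2' hLval2 hLred2
      hN hval hc₁ h₁0 e₁
    refine IsCstPow.of_pow_coprime hqm hc r2 ((map_ne_zero j22).mpr hv) ?_
    rw [← e, ecv, map_mul, map_pow, AlgHom.commutes]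
  -- `rd1`
  have s1 : IsCstPow k m (rd1 ⟨u, h1⟩) := by
    obtain ⟨hN, e⟩ := hπ'1 u h1
    have hne : rd1' ⟨Nm' u, hN⟩ ≠ 0 := fun h0 => by
      rw [h0, map_zero] at e
      exact pow_ne_zero q r1 e.symm
    have hval := valuation_eq_one_of_red_ne_zero rd1' hker1' ⟨Nm' u, hN⟩ hne
    obtain ⟨c, v, hc, hv, ecv⟩ := isCstPow_red_of_unit (k := k) hdA1 rd1' hker1' hLval1 hLred1
      hN hval hc₂ h₂0 e₂
    refine IsCstPow.of_pow_coprime hqm hc r1 ((map_ne_zero j11').mpr hv) ?_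
    rw [← e, ecv, map_mul, map_pow, AlgHom.commutes]
  refine ⟨s1, s2, ?_⟩
  -- `rd3 ^ (q-1)`
  obtain ⟨hN, y1, y3, e1, e3, e⟩ := hπ13 u h1 h3
  have hy1 : y1 ≠ 0 := fun h0 => r1 (by rw [← e1, h0, map_zero])
  have hy3 : y3 ≠ 0 := fun h0 => r3 (by rw [← e3, h0, map_zero])
  have hne : rd1' ⟨Nm u, hN⟩ ≠ 0 := by
    rw [e]; exact mul_ne_zero hy1 (pow_ne_zero _ hy3)
  have hval := valuation_eq_one_of_red_ne_zero rd1' hker1' ⟨Nm u, hN⟩ hne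
  have t1 : IsCstPow k m (rd1' ⟨Nm u, hN⟩) :=
    isCstPow_red_of_unit (k := k) hdA1 rd1' hker1' hLval1 hLred1 hN hval hc₁ h₁0 e₁
  have t2 : IsCstPow k m y1 := IsCstPow.of_map j11 hj11 (by rw [e1]; exact s1)
  have t3 : IsCstPow k m (y3 ^ (q - 1)) := by
    have : y3 ^ (q - 1) = rd1' ⟨Nm u, hN⟩ / y1 := by
      rw [e, mul_div_cancel_left₀ _ hy1]
    rw [this]
    exact t1.div t2
  have := t3.map j13
  rwa [map_pow, e3] at this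

end RedStepCop

section NormaliseCop

variable {L F E : Type*} [Field L] [Field F] [Field E] [Algebra L F] [Algebra L E]
  {k : Type*} [Field k] [IsAlgClosed k]
  {k1 k2 k3 k1' k2' : Type*} [Field k1] [Field k2] [Field k3] [Field k1'] [Field k2']
  [Algebra k k1] [Algebra k k2] [Algebra k k3] [Algebra k k1'] [Algebra k k2']

/-- **L3/L4: the normalised representative, coprime form** (`p ≠ q`; NO `q`-th power
hypotheses `hj22`, `hj11'` on the inseparable residue maps). -/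
theorem exists_normalised' (q : ℕ) [Fact q.Prime]
    {p c r : ℕ} (hp : p.Prime) (hpq : p ≠ q) (hq1 : q + 1 = p ^ c * r) (hr : ¬ p ∣ r)
    {W1 W2 W3 : ValuationSubring F} {ϖ3 : F} {A1 A2 : ValuationSubring E} {q0 : L}
    (hd1 : IsDiscAt W1 (algebraMap L F q0)) (hd2 : IsDiscAt W2 (algebraMap L F q0))
    (hd3 : IsDiscAt W3 ϖ3)
    (hqF3 : W3.valuation (algebraMap L F q0) = W3.valuation ϖ3 ^ (q - 1))
    (hdA1 : IsDiscAt A1 (algebraMap L E q0)) (hdA2 : IsDiscAt A2 (algebraMap L E q0))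
    (hW : Incomparable ![W1, W2, W3])
    (ht : ∀ a b d : ℤ, ∃ f : F, f ≠ 0 ∧
      W1.valuation f = W1.valuation (algebraMap L F q0) ^ a ∧
      W2.valuation f = W2.valuation (algebraMap L F q0) ^ b ∧
      W3.valuation f = W3.valuation ϖ3 ^ d)
    (rd1 : W1 →+* k1) (rd2 : W2 →+* k2) (rd3 : W3 →+* k3)
    (hs1 : Function.Surjective rd1) (hs2 : Function.Surjective rd2)
    (hs3 : Function.Surjective rd3)
    (hker1 : ∀ x : W1, rd1 x = 0 ↔ W1.valuation (x : F) < 1)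
    (hker2 : ∀ x : W2, rd2 x = 0 ↔ W2.valuation (x : F) < 1)
    (hker3 : ∀ x : W3, rd3 x = 0 ↔ W3.valuation (x : F) < 1)
    (rd1' : A1 →+* k1') (rd2' : A2 →+* k2')
    (hker1' : ∀ x : A1, rd1' x = 0 ↔ A1.valuation (x : E) < 1)
    (hker2' : ∀ x : A2, rd2' x = 0 ↔ A2.valuation (x : E) < 1)
    (hLval : ∀ c : L, c ≠ 0 → ∃ n : ℤ,
      A1.valuation (algebraMap L E c) = A1.valuation (algebraMap L E q0) ^ n ∧
      A2.valuation (algebraMap L E c) = A2.valuation (algebraMap L E q0) ^ n)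
    (hLred1 : ∀ (c : L) (hc : algebraMap L E c ∈ A1), ∃ a : k,
      rd1' ⟨algebraMap L E c, hc⟩ = algebraMap k k1' a)
    (hLred2 : ∀ (c : L) (hc : algebraMap L E c ∈ A2), ∃ a : k,
      rd2' ⟨algebraMap L E c, hc⟩ = algebraMap k k2' a)
    (j11 : k1' →ₐ[k] k1) (hj11 : Function.Surjective j11)
    (j13 : k1' →ₐ[k] k3)
    (j22 : k2' →ₐ[k] k2) (j11' : k1' →ₐ[k] k1)
    (Nm Nm' : F →*₀ E)
    (hNmL : ∀ c : L, ∃ c' : L, Nm (algebraMap L F c) = algebraMap L E c')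
    (hNm'L : ∀ c : L, ∃ c' : L, Nm' (algebraMap L F c) = algebraMap L E c')
    (hN1 : ∀ (u : F) (a b : ℤ), W1.valuation u = W1.valuation (algebraMap L F q0) ^ a →
      W3.valuation u = W3.valuation ϖ3 ^ b →
      A1.valuation (Nm u) = A1.valuation (algebraMap L E q0) ^ (a + b))
    (hN2 : ∀ (u : F) (a : ℤ), W2.valuation u = W2.valuation (algebraMap L F q0) ^ a →
      A2.valuation (Nm u) = A2.valuation (algebraMap L E q0) ^ ((q : ℤ) * a))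
    (hN'1 : ∀ (u : F) (a : ℤ), W1.valuation u = W1.valuation (algebraMap L F q0) ^ a →
      A1.valuation (Nm' u) = A1.valuation (algebraMap L E q0) ^ ((q : ℤ) * a))
    (hN'2 : ∀ (u : F) (a b : ℤ), W2.valuation u = W2.valuation (algebraMap L F q0) ^ a →
      W3.valuation u = W3.valuation ϖ3 ^ b →
      A2.valuation (Nm' u) = A2.valuation (algebraMap L E q0) ^ (a + b))
    (hπ13 : ∀ (u : F) (h1 : u ∈ W1) (h3 : u ∈ W3), ∃ hN : Nm u ∈ A1, ∃ y1 y3 : k1',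
      j11 y1 = rd1 ⟨u, h1⟩ ∧ j13 y3 = rd3 ⟨u, h3⟩ ∧ rd1' ⟨Nm u, hN⟩ = y1 * y3 ^ (q - 1))
    (hπ2 : ∀ (u : F) (h2 : u ∈ W2), ∃ hN : Nm u ∈ A2,
      j22 (rd2' ⟨Nm u, hN⟩) = rd2 ⟨u, h2⟩ ^ q)
    (hπ'1 : ∀ (u : F) (h1 : u ∈ W1), ∃ hN : Nm' u ∈ A1,
      j11' (rd1' ⟨Nm' u, hN⟩) = rd1 ⟨u, h1⟩ ^ q)
    {u : F} (hu : u ≠ 0) (n : ℕ)
    (e₁ : IsCstPow L (p ^ n) (Nm u)) (e₂ : IsCstPow L (p ^ n) (Nm' u)) :
    ∃ (cst : L) (g u2 : F), cst ≠ 0 ∧ g ≠ 0 ∧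
      u ^ (q - 1) = algebraMap L F cst * g ^ (p ^ (n - c)) * u2 ∧
      W1.valuation u2 = 1 ∧ W2.valuation u2 = 1 ∧ W3.valuation u2 = 1 ∧
      (∃ (g1 : u2 ∈ W1) (g2 : u2 ∈ W2) (g3 : u2 ∈ W3),
        rd1 ⟨u2, g1⟩ = 1 ∧ rd2 ⟨u2, g2⟩ = 1 ∧ rd3 ⟨u2, g3⟩ = 1) ∧
      IsCstPow L (p ^ (n - c)) (Nm u2) ∧ IsCstPow L (p ^ (n - c)) (Nm' u2) := by
  have hqp : 1 ≤ q := (Fact.out : q.Prime).one_le
  set m1 : ℕ := p ^ (n - c) with hm1
  have hm10 : m1 ≠ 0 := pow_ne_zero _ hp.ne_zero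
  set qF : F := algebraMap L F q0 with hqF
  have hqF0 : qF ≠ 0 := hd1.ne_zero
  have hq00 : q0 ≠ 0 := fun h0 => hqF0 (by rw [hqF, h0, map_zero])
  -- (d')
  obtain ⟨c₁, h₁, hc₁, hh₁, ee₁⟩ := e₁
  obtain ⟨c₂, h₂, hc₂, hh₂, ee₂⟩ := e₂
  obtain ⟨a, f, hf0, hv1, hv2, hv3⟩ := exists_unit_rep hd1 hd2 hd3 hdA1 hdA2 hp q hqp hq1 hr qF
    rfl rfl hqF3 Nm Nm' hN1 hN2 hN'1 hN'2 {x | ∃ d : L, d ≠ 0 ∧ x = algebraMap L E d}
    (by rintro x ⟨d, hd, rfl⟩; exact hLval d hd) ht hu n ⟨c₁, hc₁, rfl⟩ ⟨c₂, hc₂, rfl⟩ hh₁ hh₂ ee₁ ee₂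
  set u0 : F := u * qF ^ (-a) * f ^ m1 with hu0
  have hu00 : u0 ≠ 0 := mul_ne_zero (mul_ne_zero hu (zpow_ne_zero _ hqF0)) (pow_ne_zero _ hf0)
  have m01 : u0 ∈ W1 := (W1.valuation_le_one_iff _).mp hv1.le
  have m02 : u0 ∈ W2 := (W2.valuation_le_one_iff _).mp hv2.le
  have m03 : u0 ∈ W3 := (W3.valuation_le_one_iff _).mp hv3.le
  -- the norms of `u0`
  have hNq : ∀ (M : F →*₀ E), (∀ c : L, ∃ c' : L, M (algebraMap L F c) = algebraMap L E c') →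
      IsCstPow L (p ^ n) (M u) → IsCstPow L m1 (M u0) := by
    intro M hM hMu
    obtain ⟨cq, hcq⟩ := hM q0
    have hcq0 : cq ≠ 0 := by
      rintro rfl
      rw [map_zero] at hcq
      exact hqF0 ((map_eq_zero M).mp hcq)
    rw [hu0, map_mul, map_mul, map_zpow₀, map_pow, hcq]
    exact ((hMu.of_pow_le c).mul ((IsCstPow.const hcq0).zpow _)).mul
      (IsCstPow.pow_self ((map_ne_zero M).mpr hf0))
  have hN0 : IsCstPow L m1 (Nm u0) := hNq Nm hNmL ⟨c₁, h₁, hc₁, hh₁, ee₁⟩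
  have hN0' : IsCstPow L m1 (Nm' u0) := hNq Nm' hNm'L ⟨c₂, h₂, hc₂, hh₂, ee₂⟩
  -- (b)
  obtain ⟨d₁, H₁, hd₁, hH₁, E₁⟩ := hN0
  obtain ⟨d₂, H₂, hd₂, hH₂, E₂⟩ := hN0'
  obtain ⟨s1, s2, s3⟩ := red_isCstPow' (k := k) q hdA1 hdA2 rd1 rd2 rd3 hker1 hker2 hker3 rd1' rd2'
    hker1' hker2' (fun d hd => (hLval d hd).imp fun _ h => h.1)
    (fun d hd => (hLval d hd).imp fun _ h => h.2) hLred1 hLred2 j11 hj11 j13 j22 j11'
    Nm Nm' hπ13 hπ2 hπ'1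
    (Nat.Coprime.pow_right _ ((Nat.coprime_primes (Fact.out : q.Prime) hp).mpr (Ne.symm hpq))) m01 m02 m03 hv1 hv2 hv3 hd₁ hd₂ hH₁ hH₂ E₁ E₂
  -- `u1 := u0 ^ (q-1)`
  set u1 : F := u0 ^ (q - 1) with hu1
  have m11 : u1 ∈ W1 := pow_mem m01 _
  have m12 : u1 ∈ W2 := pow_mem m02 _
  have m13 : u1 ∈ W3 := pow_mem m03 _
  have t1 : rd1 ⟨u1, m11⟩ = rd1 ⟨u0, m01⟩ ^ (q - 1) := by
    rw [← map_pow]; congr 1
  have t2 : rd2 ⟨u1, m12⟩ = rd2 ⟨u0, m02⟩ ^ (q - 1) := by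
    rw [← map_pow]; congr 1
  have t3 : rd3 ⟨u1, m13⟩ = rd3 ⟨u0, m03⟩ ^ (q - 1) := by
    rw [← map_pow]; congr 1
  obtain ⟨V1, hV1, eV1⟩ := (s1.pow (q - 1)).exists_pow_eq hm10
  obtain ⟨V2, hV2, eV2⟩ := (s2.pow (q - 1)).exists_pow_eq hm10
  obtain ⟨V3, hV3, eV3⟩ := s3.exists_pow_eq hm10
  -- APPROX
  obtain ⟨β, hβ0, b1, b2, b3, g1, g2, g3, r1, r2, r3⟩ := exists_one_mod_rad hW rd1 rd2 rd3
    hs1 hs2 hs3 hker1 hker2 hker3 m1 m11 m12 m13 hV1 hV2 hV3 (t1.trans eV1) (t2.trans eV2)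
    (t3.trans eV3)
  refine ⟨(q0 ^ a) ^ (q - 1), β * f⁻¹ ^ (q - 1), u1 * β⁻¹ ^ m1,
    pow_ne_zero _ (zpow_ne_zero _ hq00),
    mul_ne_zero hβ0 (pow_ne_zero _ (inv_ne_zero hf0)), ?_, ?_, ?_, ?_, ⟨g1, g2, g3, r1, r2, r3⟩,
    ?_, ?_⟩
  · have hX : qF ^ a ≠ 0 := zpow_ne_zero _ hqF0
    have e1 : ∀ (x : F) (s : ℕ), x ≠ 0 → x ^ s * (x⁻¹) ^ s = 1 := fun x s hx => by
      rw [← mul_pow, mul_inv_cancel₀ hx, one_pow]
    have e2 : algebraMap L F ((q0 ^ a) ^ (q - 1)) = (qF ^ a) ^ (q - 1) := by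
      rw [map_pow, map_zpow₀]
    rw [e2, hu1, hu0, zpow_neg]
    calc u ^ (q - 1) = u ^ (q - 1) * ((qF ^ a) ^ (q - 1) * ((qF ^ a)⁻¹) ^ (q - 1)) *
          ((f ^ (q - 1)) ^ m1 * ((f ^ (q - 1))⁻¹) ^ m1) * (β ^ m1 * β⁻¹ ^ m1) := by
            rw [e1 _ _ hX, e1 _ _ (pow_ne_zero _ hf0), e1 _ _ hβ0, mul_one, mul_one, mul_one]
      _ = _ := by ring
  · simp only [hu1, map_mul, map_pow, map_inv₀, hv1, b1, inv_one, one_pow, mul_one]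
  · simp only [hu1, map_mul, map_pow, map_inv₀, hv2, b2, inv_one, one_pow, mul_one]
  · simp only [hu1, map_mul, map_pow, map_inv₀, hv3, b3, inv_one, one_pow, mul_one]
  · have h := (IsCstPow.pow ⟨d₁, H₁, hd₁, hH₁, E₁⟩ (q - 1)).mul
      (IsCstPow.pow_self (k := L) (m := m1) ((map_ne_zero Nm).mpr (inv_ne_zero hβ0)))
    simpa only [hu1, map_mul, map_pow] using h
  · have h := (IsCstPow.pow ⟨d₂, H₂, hd₂, hH₂, E₂⟩ (q - 1)).mul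
      (IsCstPow.pow_self (k := L) (m := m1) ((map_ne_zero Nm').mpr (inv_ne_zero hβ0)))
    simpa only [hu1, map_mul, map_pow] using h

end NormaliseCop

end Fermat.Agent.GL.Chain
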