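/-
GATE-L / L3+L4 CONCRETE (helper66): `exists_normalised'` from ABSOLUTE data.

`L` a field with a discrete valuation ring `A₀` (uniformiser `q₀`), `E`, `F` fields over `L`,
`φ ψ : E →ₐ[L] F` TWO finite `L`-embeddings of degree `≤ q` (`π^*`, `π'^*`), absolute reduction
data `R1' R2'` on `E` and `R1 R2 R3` on `F` over `(L, A₀)`.  From

* the SIX membership rows of the L3c table (`hm11 hm13 hm22` for `φ`, `hn11 hn22 hn23` for `ψ`),
* the absolute ramification data (`e = 1` except `e₃ = q - 1`), incomparability upstairs,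
* ONE residue class outside the image for each of the two inseparable rows (`x2`, `x1`),

`exists_normalised_abs` produces the normalised representative of `Chain.exists_normalised'`
for the norms `normAlong₀ φ`, `normAlong₀ ψ`.  Everything relative (residue maps, degrees of the
residue extensions, `κ^q ⊆ k'`) is DERIVED (`GL/Chain/RelRed.lean`).
-/
import Mathlib
import Fermat.Agent.GL.Chain.RelRed
import Fermat.Agent.GL.Chain.NormaliseCop
import Fermat.Prelude.Def_AlgebraicCurve_Correspondence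

set_option autoImplicit false

noncomputable section

open Module IsLocalRing AlgebraicCurve

namespace Fermat.Agent.GL.Chain

open Fermat.Agent.GJ.J1 Fermat.Agent.GK.MultiVal Fermat.Agent.GL.MultiVal

universe u

/-! ### `κ^p ⊆ k` from ONE witness -/

section PowRange

variable {k Ft : Type*} [Field k] [Field Ft] [Algebra k Ft] [FiniteDimensional k Ft]

/-- a field extension of prime degree `p` in characteristic `p` generated by a `p`-th root: all
`p`-th powers lie in the base -/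
theorem pow_mem_range_of_witness (p : ℕ) [hp : Fact p.Prime] [CharP k p]
    (hf : finrank k Ft = p) (x0 : Ft) (hx0 : x0 ∉ (algebraMap k Ft).range)
    (hx0p : x0 ^ p ∈ (algebraMap k Ft).range) (x : Ft) : x ^ p ∈ (algebraMap k Ft).range := by
  have : CharP Ft p := charP_of_injective_algebraMap (algebraMap k Ft).injective p
  obtain ⟨a0, ha0⟩ := hx0p
  have hirr : Irreducible (Polynomial.X ^ p - Polynomial.C a0 : Polynomial k) := by
    apply X_pow_sub_C_irreducible_of_prime hp.out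
    intro b hb
    apply hx0
    refine ⟨b, ?_⟩
    apply frobenius_inj Ft p
    rw [frobenius_def, frobenius_def, ← map_pow, hb, ha0]
  have hroot : Polynomial.aeval x0 (Polynomial.X ^ p - Polynomial.C a0 : Polynomial k) = 0 := by
    rw [map_sub, map_pow, Polynomial.aeval_X, Polynomial.aeval_C, ha0, sub_self]
  have hmin := minpoly.eq_of_irreducible_of_monic hirr hroot
    (Polynomial.monic_X_pow_sub_C a0 hp.out.ne_zero)
  have hdeg : (minpoly k x0).natDegree = finrank k Ft := by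
    rw [← hmin, Polynomial.natDegree_X_pow_sub_C, hf]
  have htop : IntermediateField.adjoin k {x0} = ⊤ :=
    (Field.primitive_element_iff_minpoly_natDegree_eq k x0).mpr hdeg
  have hadj : Algebra.adjoin k {x0} = ⊤ := by
    rw [← IntermediateField.adjoin_simple_toSubalgebra_of_isAlgebraic
      (IsAlgebraic.of_finite k x0), htop, IntermediateField.top_toSubalgebra]
  let S : Subalgebra k Ft :=
    { carrier := {y | y ^ p ∈ (algebraMap k Ft).range}
      mul_mem' := fun {a b} ha hb => by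
        show (a * b) ^ p ∈ (algebraMap k Ft).range
        rw [mul_pow]; exact mul_mem ha hb
      add_mem' := fun {a b} ha hb => by
        show (a + b) ^ p ∈ (algebraMap k Ft).range
        rw [add_pow_char]; exact add_mem ha hb
      algebraMap_mem' := fun c => ⟨c ^ p, by rw [map_pow]⟩ }
  have hS : Algebra.adjoin k {x0} ≤ S := by
    apply Algebra.adjoin_le
    rintro y rfl
    exact ⟨a0, ha0⟩
  have : x ∈ S := hS (hadj ▸ Algebra.mem_top)
  exact this

end PowRange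

/-! ### residue maps and norms along an `L`-embedding -/

section Along

variable {L E F : Type*} [Field L] [Field E] [Field F] [Algebra L E] [Algebra L F]
  {k : Type*} [Field k]

section defs

variable {k' κ : Type*} [Field k'] [Field κ] [Algebra k k'] [Algebra k κ]

/-- the map of residue fields along an `L`-embedding `φ : E → F` -/
def resHomAlong (φ : E →ₐ[L] F) (R' : RedData L E k k') (R : RedData L F k κ)
    (hmem : ∀ a : E, a ∈ R'.Rw ↔ φ a ∈ R.Rw) (hb : SameBase R' R) : k' →ₐ[k] κ :=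
  @relResHom L E F k k' κ _ _ _ _ _ (algebraAlong φ) (isScalarTower_along φ) _ _ _ _ _ R' R hmem hb

theorem resHomAlong_red (φ : E →ₐ[L] F) (R' : RedData L E k k') (R : RedData L F k κ)
    (hmem : ∀ a : E, a ∈ R'.Rw ↔ φ a ∈ R.Rw) (hb : SameBase R' R) (a : E) (ha : a ∈ R'.Rw) :
    resHomAlong φ R' R hmem hb (R'.red ⟨a, ha⟩) = R.red ⟨φ a, (hmem a).1 ha⟩ :=
  @relResHom_red L E F k k' κ _ _ _ _ _ (algebraAlong φ) (isScalarTower_along φ) _ _ _ _ _ R' R
    hmem hb a ha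

end defs

/-- the norm along an `L`-embedding, as a `MonoidWithZeroHom` -/
def normAlong₀ (φ : E →ₐ[L] F) (hfin : FiniteAlong L φ) : F →*₀ E :=
  @normHom₀ E _ F _ (algebraAlong φ) hfin

theorem normAlong₀_apply (φ : E →ₐ[L] F) (hfin : FiniteAlong L φ) (x : F) :
    normAlong₀ φ hfin x = @Algebra.norm E F _ _ (algebraAlong φ) x := rfl

theorem normAlong₀_algebraMap (φ : E →ₐ[L] F) (hfin : FiniteAlong L φ) (c : L) :
    ∃ c' : L, normAlong₀ φ hfin (algebraMap L F c) = algebraMap L E c' := by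
  let := algebraAlong φ
  have := isScalarTower_along φ
  exact norm_algebraMap_tower c

/-! ### the two kinds of rows along an embedding -/

section SplitAlong

variable {k' : Type*} {κx κz : Type u} [Field k'] [Field κx] [Field κz] [Algebra k k']
  [Algebra k κx] [Algebra k κz]

theorem split_rows_along (φ : E →ₐ[L] F) (hφ : FiniteAlong L φ)
    (R' : RedData L E k k') (Rx : RedData L F k κx) (Rz : RedData L F k κz)
    (hmx : ∀ a : E, a ∈ R'.Rw ↔ φ a ∈ Rx.Rw) (hmz : ∀ a : E, a ∈ R'.Rw ↔ φ a ∈ Rz.Rw)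
    {q0 : L} {ϖx ϖz : F} {e : ℕ}
    (hbx : SameBase R' Rx) (hbz : SameBase R' Rz) (hne : Rx.Rw ≠ Rz.Rw)
    (hq : IsUnif R'.A q0) (hR' : IsRamified R'.A q0 R'.Rw (algebraMap L E q0) 1)
    (hRx : IsRamified Rx.A q0 Rx.Rw ϖx 1) (hRz : IsRamified Rz.A q0 Rz.Rw ϖz e)
    (hdeg : letI := algebraAlong φ; finrank E F ≤ 1 + e) :
    Function.Bijective (resHomAlong φ R' Rx hmx hbx) ∧
    Function.Bijective (resHomAlong φ R' Rz hmz hbz) ∧
    (∀ (u : F) (a b : ℤ), Rx.Rw.valuation u = Rx.Rw.valuation ϖx ^ a →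
      Rz.Rw.valuation u = Rz.Rw.valuation ϖz ^ b →
      R'.Rw.valuation (normAlong₀ φ hφ u) = R'.Rw.valuation (algebraMap L E q0) ^ (a + b)) ∧
    (∀ (u : F) (h1 : u ∈ Rx.Rw) (h3 : u ∈ Rz.Rw), ∃ hN : normAlong₀ φ hφ u ∈ R'.Rw,
      ∃ y1 y3 : k', resHomAlong φ R' Rx hmx hbx y1 = Rx.red ⟨u, h1⟩ ∧
        resHomAlong φ R' Rz hmz hbz y3 = Rz.red ⟨u, h3⟩ ∧
        R'.red ⟨normAlong₀ φ hφ u, hN⟩ = y1 * y3 ^ e) := by
  let := algebraAlong φ
  have := isScalarTower_along φ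
  have : FiniteDimensional E F := hφ
  exact split_rows_abs R' Rx Rz hmx hmz hbx hbz hne hq hR' hRx hRz hdeg

end SplitAlong

section InsepAlong

variable {k' κy : Type*} [Field k'] [Field κy] [Algebra k k'] [Algebra k κy]

theorem insep_rows_along (φ : E →ₐ[L] F) (hφ : FiniteAlong L φ)
    (R' : RedData L E k k') (Ry : RedData L F k κy)
    (hmy : ∀ a : E, a ∈ R'.Rw ↔ φ a ∈ Ry.Rw) {q0 : L} {ϖy : F}
    (p : ℕ) [hp : Fact p.Prime] [CharP k p] (hby : SameBase R' Ry)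
    (hq : IsUnif R'.A q0) (hR' : IsRamified R'.A q0 R'.Rw (algebraMap L E q0) 1)
    (hRy : IsRamified Ry.A q0 Ry.Rw ϖy 1)
    (hdeg : letI := algebraAlong φ; finrank E F ≤ p)
    (x0 : κy) (hx0 : ∀ y : k', resHomAlong φ R' Ry hmy hby y ≠ x0)
    (hx0p : ∃ y : k', resHomAlong φ R' Ry hmy hby y = x0 ^ p) :
    (∀ (u : F) (a : ℤ), Ry.Rw.valuation u = Ry.Rw.valuation ϖy ^ a →
      R'.Rw.valuation (normAlong₀ φ hφ u)
        = R'.Rw.valuation (algebraMap L E q0) ^ ((p : ℤ) * a)) ∧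
    (∀ (u : F) (h2 : u ∈ Ry.Rw), ∃ hN : normAlong₀ φ hφ u ∈ R'.Rw,
      resHomAlong φ R' Ry hmy hby (R'.red ⟨normAlong₀ φ hφ u, hN⟩) = Ry.red ⟨u, h2⟩ ^ p) := by
  let := algebraAlong φ
  have := isScalarTower_along φ
  have : FiniteDimensional E F := hφ
  have : CharP k' p := charP_of_injective_algebraMap (algebraMap k k').injective p
  -- `κ_y^p ⊆ k'` from the witness
  have hpow : ∀ x : κy, ∃ y : k', relResHom R' Ry hmy hby y = x ^ p := by
    let algy : Algebra k' κy := (relResMap R' Ry hmy).toAlgebra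
    set Rely : RedData E F k' κy := relRedData R' Ry hmy (fun _ => rfl) with hRely
    have hqE : IsUnif Rely.A (algebraMap L E q0) := isUnif_of_isRamified_one R' hq hR'
    have hy : IsRamified Rely.A (algebraMap L E q0) Rely.Rw ϖy 1 := isRamified_rel hRy hmy
    have h1 : x0 ∉ (algebraMap k' κy).range := fun ⟨y, hy⟩ => hx0 y hy
    have h2 : x0 ^ p ∈ (algebraMap k' κy).range := hx0p
    have hf : finrank k' κy = p := finrank_eq_of_insep p hqE hy hdeg x0 h1 h2
    have : FiniteDimensional k' κy := finiteDimensional_of_ram hqE hy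
    intro x
    exact pow_mem_range_of_witness p hf x0 h1 h2 x
  exact insep_rows_abs R' Ry hmy p hby hq hR' hRy hdeg x0 hx0 hpow

end InsepAlong

end Along

/-! ### prescribed values at three places -/

section Prescribed

variable {K F : Type*} [Field K] [Field F] [Algebra K F]

/-- **weak approximation for prescribed values** at three incomparable discrete places -/
theorem exists_prescribed_three {A : ValuationSubring K} {q : K} {W1 W2 W3 : ValuationSubring F}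
    {ϖ1 ϖ2 ϖ3 : F} {e1 e2 e3 : ℕ} (hW : Incomparable ![W1, W2, W3]) (hq : IsUnif A q)
    (h1 : IsRamified A q W1 ϖ1 e1) (h2 : IsRamified A q W2 ϖ2 e2)
    (h3 : IsRamified A q W3 ϖ3 e3) (a b d : ℤ) :
    ∃ f : F, f ≠ 0 ∧ W1.valuation f = W1.valuation ϖ1 ^ a ∧
      W2.valuation f = W2.valuation ϖ2 ^ b ∧ W3.valuation f = W3.valuation ϖ3 ^ d := by
  have hR : ∀ i : Fin 3, IsRamified A q (![W1, W2, W3] i) (![ϖ1, ϖ2, ϖ3] i) (![e1, e2, e3] i) := by
    intro i
    fin_cases i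
    · exact h1
    · exact h2
    · exact h3
  obtain ⟨t1, ht1, ht1'⟩ := exists_unif_at hW hq hR 0
  obtain ⟨t2, ht2, ht2'⟩ := exists_unif_at hW hq hR 1
  obtain ⟨t3, ht3, ht3'⟩ := exists_unif_at hW hq hR 2
  have a11 : W1.valuation t1 = W1.valuation ϖ1 := ht1
  have a12 : W2.valuation t1 = 1 := ht1' 1 (by decide)
  have a13 : W3.valuation t1 = 1 := ht1' 2 (by decide)
  have a21 : W1.valuation t2 = 1 := ht2' 0 (by decide)
  have a22 : W2.valuation t2 = W2.valuation ϖ2 := ht2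
  have a23 : W3.valuation t2 = 1 := ht2' 2 (by decide)
  have a31 : W1.valuation t3 = 1 := ht3' 0 (by decide)
  have a32 : W2.valuation t3 = 1 := ht3' 1 (by decide)
  have a33 : W3.valuation t3 = W3.valuation ϖ3 := ht3
  have n1 : t1 ≠ 0 := fun h => by
    rw [h, map_zero] at a12; exact zero_ne_one a12
  have n2 : t2 ≠ 0 := fun h => by
    rw [h, map_zero] at a21; exact zero_ne_one a21
  have n3 : t3 ≠ 0 := fun h => by
    rw [h, map_zero] at a31; exact zero_ne_one a31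
  refine ⟨t1 ^ a * t2 ^ b * t3 ^ d,
    mul_ne_zero (mul_ne_zero (zpow_ne_zero _ n1) (zpow_ne_zero _ n2)) (zpow_ne_zero _ n3), ?_, ?_, ?_⟩
  · rw [map_mul, map_mul, map_zpow₀, map_zpow₀, map_zpow₀, a11, a21, a31, one_zpow, one_zpow,
      mul_one, mul_one]
  · rw [map_mul, map_mul, map_zpow₀, map_zpow₀, map_zpow₀, a12, a22, a32, one_zpow, one_zpow,
      one_mul, mul_one]
  · rw [map_mul, map_mul, map_zpow₀, map_zpow₀, map_zpow₀, a13, a23, a33, one_zpow, one_zpow,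
      one_mul, one_mul]

end Prescribed

/-! ### the normalised representative from absolute data -/

section Main

variable {L E F : Type*} [Field L] [Field E] [Field F] [Algebra L E] [Algebra L F]
  {k : Type*} [Field k] [IsAlgClosed k]
  {k1 k2 k3 : Type u} {k1' k2' : Type*} [Field k1] [Field k2] [Field k3] [Field k1'] [Field k2']
  [Algebra k k1] [Algebra k k2] [Algebra k k3] [Algebra k k1'] [Algebra k k2']

theorem redData_red_eq_zero_iff_val {K F k Ft : Type*} [Field K] [Field F] [Algebra K F]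
    [Field k] [Field Ft] [Algebra k Ft] (R : RedData K F k Ft) (x : R.Rw) :
    R.red x = 0 ↔ R.Rw.valuation (x : F) < 1 := by
  rw [R.red_eq_zero_iff, ValuationSubring.valuation_lt_one_iff]

/-- **L3/L4 from ABSOLUTE data**: the normalised representative. -/
theorem exists_normalised_abs (q : ℕ) [Fact q.Prime] [CharP k q]
    {p c r : ℕ} (hp : p.Prime) (hpq : p ≠ q) (hq1 : q + 1 = p ^ c * r) (hr : ¬ p ∣ r)
    (φ ψ : E →ₐ[L] F) (hφ : FiniteAlong L φ) (hψ : FiniteAlong L ψ)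
    (hdegφ : letI := algebraAlong φ; finrank E F ≤ q)
    (hdegψ : letI := algebraAlong ψ; finrank E F ≤ q)
    (R1' : RedData L E k k1') (R2' : RedData L E k k2')
    (R1 : RedData L F k k1) (R2 : RedData L F k k2) (R3 : RedData L F k k3)
    {q0 : L} {ϖ3 : F} (hq0 : IsUnif R1'.A q0) (hd0 : IsDiscAt R1'.A q0)
    (hb11 : SameBase R1' R1) (hb13 : SameBase R1' R3) (hb22 : SameBase R2' R2)
    (hb23 : SameBase R2' R3)
    (hR1' : IsRamified R1'.A q0 R1'.Rw (algebraMap L E q0) 1)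
    (hR2' : IsRamified R2'.A q0 R2'.Rw (algebraMap L E q0) 1)
    (hR1 : IsRamified R1.A q0 R1.Rw (algebraMap L F q0) 1)
    (hR2 : IsRamified R2.A q0 R2.Rw (algebraMap L F q0) 1)
    (hR3 : IsRamified R3.A q0 R3.Rw ϖ3 (q - 1))
    (hd1 : IsDiscAt R1.Rw (algebraMap L F q0)) (hd2 : IsDiscAt R2.Rw (algebraMap L F q0))
    (hd3 : IsDiscAt R3.Rw ϖ3)
    (hdA1 : IsDiscAt R1'.Rw (algebraMap L E q0)) (hdA2 : IsDiscAt R2'.Rw (algebraMap L E q0))
    (hW : Incomparable ![R1.Rw, R2.Rw, R3.Rw])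
    (hm11 : ∀ a : E, a ∈ R1'.Rw ↔ φ a ∈ R1.Rw) (hm13 : ∀ a : E, a ∈ R1'.Rw ↔ φ a ∈ R3.Rw)
    (hm22 : ∀ a : E, a ∈ R2'.Rw ↔ φ a ∈ R2.Rw)
    (hn11 : ∀ a : E, a ∈ R1'.Rw ↔ ψ a ∈ R1.Rw) (hn22 : ∀ a : E, a ∈ R2'.Rw ↔ ψ a ∈ R2.Rw)
    (hn23 : ∀ a : E, a ∈ R2'.Rw ↔ ψ a ∈ R3.Rw)
    (x2 : k2) (hx2 : ∀ y : k2', resHomAlong φ R2' R2 hm22 hb22 y ≠ x2)
    (hx2p : ∃ y : k2', resHomAlong φ R2' R2 hm22 hb22 y = x2 ^ q)
    (x1 : k1) (hx1 : ∀ y : k1', resHomAlong ψ R1' R1 hn11 hb11 y ≠ x1)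
    (hx1p : ∃ y : k1', resHomAlong ψ R1' R1 hn11 hb11 y = x1 ^ q)
    {u : F} (hu : u ≠ 0) (n : ℕ)
    (e₁ : IsCstPow L (p ^ n) (normAlong₀ φ hφ u)) (e₂ : IsCstPow L (p ^ n) (normAlong₀ ψ hψ u)) :
    ∃ (cst : L) (g u2 : F), cst ≠ 0 ∧ g ≠ 0 ∧
      u ^ (q - 1) = algebraMap L F cst * g ^ (p ^ (n - c)) * u2 ∧
      R1.Rw.valuation (u2 - 1) < 1 ∧ R2.Rw.valuation (u2 - 1) < 1 ∧
      R3.Rw.valuation (u2 - 1) < 1 ∧
      IsCstPow L (p ^ (n - c)) (normAlong₀ φ hφ u2) ∧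
      IsCstPow L (p ^ (n - c)) (normAlong₀ ψ hψ u2) := by
  have hq1' : 1 + (q - 1) = q := Nat.add_sub_cancel' (Fact.out : q.Prime).one_le
  -- the base rings
  have hA2 : R2'.A = R1'.A := hb23.A_eq.trans hb13.A_eq.symm
  have hq0' : IsUnif R2'.A q0 := hA2 ▸ hq0
  have hne13 : R1.Rw ≠ R3.Rw := fun h => hW 0 2 (by decide) (le_of_eq h)
  have hne23 : R2.Rw ≠ R3.Rw := fun h => hW 1 2 (by decide) (le_of_eq h)
  -- the rows of `φ`
  obtain ⟨hj11, -, hN1, hπ13⟩ := split_rows_along φ hφ R1' R1 R3 hm11 hm13 hb11 hb13 hne13 hq0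
    hR1' hR1 hR3 (by rw [hq1']; exact hdegφ)
  obtain ⟨hN2, hπ2⟩ := insep_rows_along φ hφ R2' R2 hm22 q hb22 hq0' hR2' hR2 hdegφ x2 hx2 hx2p
  -- the rows of `ψ`
  obtain ⟨hN'1, hπ'1⟩ := insep_rows_along ψ hψ R1' R1 hn11 q hb11 hq0 hR1' hR1 hdegψ x1 hx1 hx1p
  obtain ⟨-, -, hN'2, -⟩ := split_rows_along ψ hψ R2' R2 R3 hn22 hn23 hb22 hb23 hne23 hq0'
    hR2' hR2 hR3 (by rw [hq1']; exact hdegψ)
  -- weak approximation
  have hR1a : IsRamified R1'.A q0 R1.Rw (algebraMap L F q0) 1 := hb11.A_eq ▸ hR1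
  have hR2a : IsRamified R1'.A q0 R2.Rw (algebraMap L F q0) 1 :=
    (hb22.A_eq.symm.trans hA2) ▸ hR2
  have hR3a : IsRamified R1'.A q0 R3.Rw ϖ3 (q - 1) := hb13.A_eq ▸ hR3
  have ht := exists_prescribed_three hW hq0 hR1a hR2a hR3a
  -- constants
  have hLval : ∀ d : L, d ≠ 0 → ∃ n : ℤ,
      R1'.Rw.valuation (algebraMap L E d) = R1'.Rw.valuation (algebraMap L E q0) ^ n ∧
      R2'.Rw.valuation (algebraMap L E d) = R2'.Rw.valuation (algebraMap L E q0) ^ n := by
    intro d hd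
    obtain ⟨n, hn⟩ := exists_zpow_algebraMap (E := E) hd0 d hd
    exact ⟨n, hn R1'.Rw R1'.mem_A_iff, hn R2'.Rw (fun a => by rw [← hA2]; exact R2'.mem_A_iff a)⟩
  have hLred1 : ∀ (d : L) (hd : algebraMap L E d ∈ R1'.Rw), ∃ a : k,
      R1'.red ⟨algebraMap L E d, hd⟩ = algebraMap k k1' a := fun d hd =>
    ⟨R1'.res ⟨d, (R1'.mem_A_iff d).2 hd⟩, R1'.red_algebraMap ⟨d, (R1'.mem_A_iff d).2 hd⟩⟩
  have hLred2 : ∀ (d : L) (hd : algebraMap L E d ∈ R2'.Rw), ∃ a : k,
      R2'.red ⟨algebraMap L E d, hd⟩ = algebraMap k k2' a := fun d hd =>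
    ⟨R2'.res ⟨d, (R2'.mem_A_iff d).2 hd⟩, R2'.red_algebraMap ⟨d, (R2'.mem_A_iff d).2 hd⟩⟩
  obtain ⟨cst, g, u2, hcst, hg, hu2, -, -, -, ⟨g1, g2, g3, r1, r2, r3⟩, e1', e2'⟩ :=
    exists_normalised' (k := k) q hp hpq hq1 hr hd1 hd2 hd3 hR3.pow_eq.symm hdA1 hdA2 hW ht
      R1.red R2.red R3.red R1.red_surjective R2.red_surjective R3.red_surjective
      (redData_red_eq_zero_iff_val R1) (redData_red_eq_zero_iff_val R2) (redData_red_eq_zero_iff_val R3)
      R1'.red R2'.red (redData_red_eq_zero_iff_val R1') (redData_red_eq_zero_iff_val R2')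
      hLval hLred1 hLred2
      (resHomAlong φ R1' R1 hm11 hb11) hj11.2 (resHomAlong φ R1' R3 hm13 hb13)
      (resHomAlong φ R2' R2 hm22 hb22) (resHomAlong ψ R1' R1 hn11 hb11)
      (normAlong₀ φ hφ) (normAlong₀ ψ hψ) (normAlong₀_algebraMap φ hφ) (normAlong₀_algebraMap ψ hψ)
      hN1 hN2 hN'1 hN'2 hπ13 hπ2 hπ'1 hu n e₁ e₂
  have key : ∀ {κ : Type u} [Field κ] [Algebra k κ] (R : RedData L F k κ) (h : u2 ∈ R.Rw),
      R.red ⟨u2, h⟩ = 1 → R.Rw.valuation (u2 - 1) < 1 := by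
    intro κ _ _ R h hr1
    have h1 : u2 - 1 ∈ R.Rw := sub_mem h (one_mem _)
    have h2 : R.red ⟨u2 - 1, h1⟩ = 0 := by
      have : (⟨u2 - 1, h1⟩ : R.Rw) = ⟨u2, h⟩ - 1 := Subtype.ext rfl
      rw [this, map_sub, hr1, map_one, sub_self]
    exact (redData_red_eq_zero_iff_val R _).mp h2
  exact ⟨cst, g, u2, hcst, hg, hu2, key R1 g1 r1, key R2 g2 r2, key R3 g3 r3, e1', e2'⟩

end Main

end Fermat.Agent.GL.Chain
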