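/-
GATE-L / L3+L4 CONCRETE = (G3)/(H3) (helper66): **the normalised representative at
`F = K₀(X₀(M' q²))`, `E = K₀(X₀(M' q))`**, `K₀ = ℚ̄^{I_A}`, `A` over `q`, `q ∤ M'`.

`Chain.exists_normalised_abs` instantiated at the concrete objects:
* `φ = alphaK0`, `ψ = betaK0` (helper67 `DegenK0`), `[F : E] = q` for both (helper67 `DegK0`);
* `R1' R2'` = helper45 `redDataK0`, `redData2K0` at level `M' q`; `R1 R2` = `redDataK0`,
  `redData2QK0` at level `M' q²`; `R3` = helper26 `redData3K0`;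
* rows = helper67 `DegenK0` / `RowsK0W3`; ramification = helper45 `RamK0`, `SecondK0Hall`,
  helper26 `ThirdK0`; incomparability = helper93 `ThirdK0Ne`;
* the residue witness of both inseparable rows is `j~ = jqModC k₀`.
-/
import Fermat.Agent.GL.Chain.NormaliseAbs
import Fermat.Agent.GL.Table.RowsK0W3
import Fermat.Agent.GL.Table.DegK0
import Fermat.Agent.GL.Val.RamK0
import Fermat.Agent.GL.Val.OrthK0
import Fermat.Agent.GL.Val.ThirdK0Ne
import Fermat.Agent.GL.Val.ThirdK0Red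
import Fermat.Agent.GJ.J3.QSeries
import Fermat.Prelude.Thm_ModularCurve_coeff_jqModC_neg_one

set_option autoImplicit false

noncomputable section

namespace Fermat.Agent.GL.Chain.K0

open HahnSeries ModularCurve IsLocalRing AlgebraicCurve Module
open Fermat.Agent.GJ.J1 Fermat.Agent.GJ.J1.Val Fermat.Agent.GJ.HN
open Fermat.Agent.GK.AL Fermat.Agent.GK.MultiVal Fermat.Agent.GK.Val.GaussBase
open Fermat.Agent.GL.AL Fermat.Agent.GL.MultiVal
open Fermat.Agent.GL.Val.GaussK0 Fermat.Agent.GL.Val.SecondK0 Fermat.Agent.GL.Val.SecondK0Hall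
open Fermat.Agent.GL.Val.RamK0 Fermat.Agent.GL.Val.OrthK0
open Fermat.Agent.GL.Val.CuspK0 Fermat.Agent.GL.Val.ThirdK0 Fermat.Agent.GL.Table.K0
open Fermat.Agent.GL.W3 Fermat.Agent.GL.W3Table
open Fermat.Agent.Common_helper32 Fermat.Agent.GL.Chain

/-! ### generalities -/

section Generic

variable {L E F k k1' k2' k1 k2 : Type*} [Field L] [Field E] [Field F] [Algebra L E] [Algebra L F]
  [Field k] [Field k1'] [Field k2'] [Field k1] [Field k2]
  [Algebra k k1'] [Algebra k k2'] [Algebra k k1] [Algebra k k2]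
  {R1' : RedData L E k k1'} {R2' : RedData L E k k2'}
  {R1 : RedData L F k k1} {R2 : RedData L F k k2}

/-- `SameBase` transported along compatibilities at both levels -/
theorem sameBase_of_compat (h' : RedCompat R1' R2') (h : SameBase R1' R1) (hc : RedCompat R1 R2) :
    SameBase R2' R2 where
  A_eq := h'.A_eq.symm.trans (h.A_eq.trans hc.A_eq)
  res_eq a h1 h2 := by
    have e1 : a ∈ R1'.A := h'.A_eq ▸ h1
    have e2 : a ∈ R1.A := hc.A_eq ▸ h2
    rw [← h'.res_eq a e1 h1, h.res_eq a e1 e2, hc.res_eq a e2 h2]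

/-- `SameBase` transported along a compatibility downstairs -/
theorem sameBase_of_compat_left (h' : RedCompat R1' R2') (h : SameBase R1' R1) :
    SameBase R2' R1 where
  A_eq := h'.A_eq.symm.trans h.A_eq
  res_eq a h1 h2 := by
    have e1 : a ∈ R1'.A := h'.A_eq ▸ h1
    rw [← h'.res_eq a e1 h1, h.res_eq a e1 h2]

theorem isDiscAt_of_isRamified {K F : Type*} [Field K] [Field F] [Algebra K F]
    {A : ValuationSubring K} {q : K} (V : ValuationSubring F) [IsDiscreteValuationRing V]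
    {ϖ : F} {e : ℕ} (h : IsRamified A q V ϖ e) (h0 : ϖ ≠ 0) : IsDiscAt V ϖ :=
  isDiscAt_of_gen V h.lt_one h0 h.gen

theorem isDiscAt_of_isUnif {K : Type*} [Field K] (A : ValuationSubring K)
    [IsDiscreteValuationRing A] {q : K} (h : IsUnif A q) : IsDiscAt A q :=
  isDiscAt_of_gen A ((ValuationSubring.mem_nonunits_iff _).mp h.mem) h.ne_zero
    (fun x hx => h.gen x ((ValuationSubring.mem_nonunits_iff _).mpr hx))

end Generic

variable (A : ValuationSubring Qb)

local notation "k₀" => ResidueField (R0 A)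

/-! ### the absolute data -/

section Data

variable {q : ℕ} (M' : ℕ) [NeZero M'] [NeZero q]
  (hQ : HallDvd (q ^ 2) (M' * q * q)) (hqE : ExactDvd q (M' * q))
  (hq : q.Prime) (hqM : ¬ q ∣ M') (hA : (q : Qb) ∈ A.nonunits)

theorem sameBase_11 : SameBase (redDataK0 A (M' * q)) (redDataK0 A (M' * q * q)) :=
  ⟨rfl, fun _ _ _ => rfl⟩

theorem sameBase_13 :
    SameBase (redDataK0 A (M' * q)) (redData3K0 A (M' * q * q) q hq hA) :=
  ⟨rfl, fun _ _ _ => rfl⟩

theorem sameBase_22 :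
    SameBase (redData2K0 A (M' * q) hqE) (redData2QK0 A (M' * q * q) hQ) :=
  sameBase_of_compat (redCompatK0 A (M' * q) hqE) (sameBase_11 A M')
    (redCompatQK0 A (M' * q * q) hQ)

theorem sameBase_23 :
    SameBase (redData2K0 A (M' * q) hqE) (redData3K0 A (M' * q * q) q hq hA) :=
  sameBase_of_compat_left (redCompatK0 A (M' * q) hqE) (sameBase_13 A M' hq hA)

end Data

/-! ### ramification and discreteness -/

section Ram

variable {q : ℕ} (M' : ℕ) [NeZero M'] [NeZero q]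
  (hQ : HallDvd (q ^ 2) (M' * q * q)) (hqE : ExactDvd q (M' * q))
  (hq : q.Prime) (hqM : ¬ q ∣ M') (hA : (q : Qb) ∈ A.nonunits)

/-- the uniformiser of the base -/
abbrev qK0 (q : ℕ) : K0 A := ((q0 A q : R0 A) : K0 A)

theorem qK0_eq_natCast : qK0 A q = ((q : ℕ) : K0 A) := by
  apply ι0_injective A
  rw [ι0_q0, map_natCast]

include hq hA in
theorem isDiscAt_R0 : IsDiscAt (R0 A) (qK0 A q) := by
  have := isDiscreteValuationRing_R0 A hq hA
  exact isDiscAt_of_isUnif (R0 A) (isUnif_R0 A hq hA)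

include hq hA in
theorem qK0_ne_zero : qK0 A q ≠ 0 := (isUnif_R0 A hq hA).ne_zero

include hq hA in
theorem isDiscAt_Rw1K0 (N : ℕ) [NeZero N] :
    IsDiscAt (RwK0 A N) (algebraMap (K0 A) (modularFunctionFieldFullC (K0 A) N) (qK0 A q)) := by
  have := isDiscreteValuationRing_RwK0 A N hq hA
  exact isDiscAt_of_isRamified _ (isRamified_Rw1K0 A N hq hA)
    ((map_ne_zero _).mpr (qK0_ne_zero A hq hA))

include hq hA in
theorem isDiscAt_Rw2K0 (N : ℕ) [NeZero N] (h : ExactDvd q N) :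
    IsDiscAt (redData2K0 A N h).Rw
      (algebraMap (K0 A) (modularFunctionFieldFullC (K0 A) N) (qK0 A q)) := by
  have := isDiscreteValuationRing_Rw2K0 A N h hq hA
  exact isDiscAt_of_isRamified _ (isRamified_Rw2K0 A N hq hA h)
    ((map_ne_zero _).mpr (qK0_ne_zero A hq hA))

include hq hA in
theorem isDiscAt_Rw2QK0 (N : ℕ) [NeZero N] {Q : ℕ} (h : HallDvd Q N) :
    IsDiscAt (redData2QK0 A N h).Rw
      (algebraMap (K0 A) (modularFunctionFieldFullC (K0 A) N) (qK0 A q)) := by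
  have := isDiscreteValuationRing_Rw2QK0 A N h hq hA
  exact isDiscAt_of_isRamified _ (isRamified_Rw2QK0 A N h hq hA)
    ((map_ne_zero _).mpr (qK0_ne_zero A hq hA))

include hq hqM hA in
/-- the third valuation: ramified of index `q - 1`, discrete, for SOME uniformiser -/
theorem exists_unif3 : ∃ ϖ3 : modularFunctionFieldFullC (K0 A) (M' * q * q),
    IsRamified (R0 A) (qK0 A q) (Rw3K0 A (M' * q * q) q) ϖ3 (q - 1) ∧
      IsDiscAt (Rw3K0 A (M' * q * q) q) ϖ3 := by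
  have : NeZero (q ^ 2 * 1) := ⟨by rw [mul_one]; exact pow_ne_zero 2 hq.ne_zero⟩
  have hdN : q ^ 2 * 1 ∣ M' * q * q := ⟨M', by ring⟩
  have hR := isRamified_Rw3K0 A hq (level_eq (M' := M') (q := q)) hqM hA (one_dvd M') hdN
    (one_dvd _)
  rw [← qK0_eq_natCast] at hR
  have := isDiscreteValuationRing_Rw3K0 A hq (level_eq (M' := M') (q := q)) hqM hA (one_dvd M') hdN
    (one_dvd _)
  refine ⟨_, hR, isDiscAt_of_isRamified _ hR ?_⟩
  intro h0
  have h1 := hR.pow_eq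
  rw [h0, map_zero, zero_pow (Nat.sub_ne_zero_of_lt hq.one_lt)] at h1
  exact (Valuation.ne_zero_iff _).mpr ((map_ne_zero _).mpr (qK0_ne_zero A hq hA)) h1.symm

end Ram

/-! ### the residue witnesses of the inseparable rows -/

section Wit

variable {q : ℕ} (M' : ℕ) [NeZero M'] [NeZero q]
  (hQ : HallDvd (q ^ 2) (M' * q * q)) (hqE : ExactDvd q (M' * q))
  (hq : q.Prime) (hqM : ¬ q ∣ M') (hA : (q : Qb) ∈ A.nonunits)

/-- the witness `j~` in the residue field at level `N` -/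
def jRes (N : ℕ) [NeZero N] : FresK0 A N :=
  (redDataK0 A N).red ⟨jK0 A N, jK0_mem_RwK0 A N⟩

theorem coe_jRes (N : ℕ) [NeZero N] : ((jRes A N : FresK0 A N) : LaurentSeries k₀) = jqModC k₀ :=
  coe_red1K0_jK0 A N _

/-- the residue map of the `α`-row at `w₂` is `y ↦ y(t^q)` -/
theorem coe_resHomAlong_alpha_22
    (hm : ∀ a, a ∈ (redData2K0 A (M' * q) hqE).Rw ↔
      alphaK0 A (M' * q) q a ∈ (redData2QK0 A (M' * q * q) hQ).Rw)
    (hb : SameBase (redData2K0 A (M' * q) hqE) (redData2QK0 A (M' * q * q) hQ))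
    (y : FresK0 A (M' * q)) :
    ((resHomAlong (alphaK0 A (M' * q) q) (redData2K0 A (M' * q) hqE)
      (redData2QK0 A (M' * q * q) hQ) hm hb y : FresK0 A (M' * q * q)) : LaurentSeries k₀) =
      qExpand k₀ q (y : LaurentSeries k₀) := by
  obtain ⟨x, rfl⟩ := (redData2K0 A (M' * q) hqE).red_surjective y
  rw [show x = ⟨x.1, x.2⟩ from rfl, resHomAlong_red]
  exact coe_red2QK0_alphaK0 A M' hQ hqE x.1 x.2 _

/-- the residue map of the `β`-row at `w₁` is `y ↦ y(t^q)` -/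
theorem coe_resHomAlong_beta_11
    (hm : ∀ a, a ∈ (redDataK0 A (M' * q)).Rw ↔
      betaK0 A (M' * q) q a ∈ (redDataK0 A (M' * q * q)).Rw)
    (hb : SameBase (redDataK0 A (M' * q)) (redDataK0 A (M' * q * q)))
    (y : FresK0 A (M' * q)) :
    ((resHomAlong (betaK0 A (M' * q) q) (redDataK0 A (M' * q))
      (redDataK0 A (M' * q * q)) hm hb y : FresK0 A (M' * q * q)) : LaurentSeries k₀) =
      qExpand k₀ q (y : LaurentSeries k₀) := by
  obtain ⟨x, rfl⟩ := (redDataK0 A (M' * q)).red_surjective y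
  rw [show x = ⟨x.1, x.2⟩ from rfl, resHomAlong_red]
  exact redL_betaC (R0 A) (M' * q) q x.2 _

include hq in
theorem qExpand_ne_jqModC (y : LaurentSeries k₀) : qExpand k₀ q y ≠ jqModC k₀ := by
  intro h
  have h1 : (qExpand k₀ q y).coeff (-1 : ℤ) = (jqModC k₀).coeff (-1 : ℤ) := by rw [h]
  rw [ModularCurve.coeff_jqModC_neg_one, qExpand_coeff_of_not_dvd] at h1
  · exact zero_ne_one h1
  · intro hd
    have := Int.natAbs_dvd_natAbs.mpr hd
    simp at this
    exact hq.one_lt.ne' this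

include hq hA in
theorem qExpand_jqModC_eq_pow : qExpand k₀ q (jqModC k₀) = jqModC k₀ ^ q := by
  have : Fact q.Prime := ⟨hq⟩
  have : CharP k₀ q := charP_k0 A hq hA
  exact Fermat.Agent.GJ.J3.QS.qExpand_jqModC_char q

end Wit

/-! ### the normalised representative -/

section Main

variable {q : ℕ} (M' : ℕ) [NeZero M'] [NeZero q]
  (hQ : HallDvd (q ^ 2) (M' * q * q)) (hqE : ExactDvd q (M' * q))
  (hq : q.Prime) (hqM : ¬ q ∣ M') (hA : (q : Qb) ∈ A.nonunits)

include hq in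
theorem finiteAlong_alphaK0 : FiniteAlong (K0 A) (alphaK0 A (M' * q) q) :=
  finiteDimensional_alphaK0 A hq (dvd_mul_left q M')

include hq in
theorem finiteAlong_betaK0 : FiniteAlong (K0 A) (betaK0 A (M' * q) q) :=
  finiteDimensional_betaK0 A hq (dvd_mul_left q M')

include hqE hqM hA in
/-- **(G3)/(H3) over `K₀`, valuation form**: the normalised representative at
`F = K₀(X₀(M' q²))`, `E = K₀(X₀(M' q))`. -/
theorem h3_K0 {p c r : ℕ} (hp : p.Prime) (hpq : p ≠ q) (hq1 : q + 1 = p ^ c * r) (hr : ¬ p ∣ r)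
    (n : ℕ) {u : modularFunctionFieldFullC (K0 A) (M' * q * q)} (hu : u ≠ 0)
    (e₁ : IsCstPow (K0 A) (p ^ n)
      (normAlong₀ (alphaK0 A (M' * q) q) (finiteAlong_alphaK0 A M' hq) u))
    (e₂ : IsCstPow (K0 A) (p ^ n)
      (normAlong₀ (betaK0 A (M' * q) q) (finiteAlong_betaK0 A M' hq) u)) :
    ∃ (cst : K0 A) (g u2 : modularFunctionFieldFullC (K0 A) (M' * q * q)), cst ≠ 0 ∧ g ≠ 0 ∧
      u ^ (q - 1) = algebraMap (K0 A) _ cst * g ^ (p ^ (n - c)) * u2 ∧
      (RwK0 A (M' * q * q)).valuation (u2 - 1) < 1 ∧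
      (redData2QK0 A (M' * q * q) hQ).Rw.valuation (u2 - 1) < 1 ∧
      (Rw3K0 A (M' * q * q) q).valuation (u2 - 1) < 1 ∧
      IsCstPow (K0 A) (p ^ (n - c))
        (normAlong₀ (alphaK0 A (M' * q) q) (finiteAlong_alphaK0 A M' hq) u2) ∧
      IsCstPow (K0 A) (p ^ (n - c))
        (normAlong₀ (betaK0 A (M' * q) q) (finiteAlong_betaK0 A M' hq) u2) := by
  have : Fact q.Prime := ⟨hq⟩
  have : CharP k₀ q := charP_k0 A hq hA
  have : IsAlgClosed k₀ := isAlgClosed_residueField_R0 A hq hA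
  obtain ⟨ϖ3, hR3, hd3⟩ := exists_unif3 A M' hq hqM hA
  have hqdvd : q ∣ M' * q := dvd_mul_left q M'
  -- the rows
  have hm11 : ∀ a, a ∈ (redDataK0 A (M' * q)).Rw ↔
      alphaK0 A (M' * q) q a ∈ (redDataK0 A (M' * q * q)).Rw :=
    fun a => (alphaK0_mem_RwK0_iff A (M' * q) q a).symm
  have hm13 : ∀ a, a ∈ (redDataK0 A (M' * q)).Rw ↔
      alphaK0 A (M' * q) q a ∈ (redData3K0 A (M' * q * q) q hq hA).Rw :=
    fun a => (alphaK0_mem_Rw3K0_iff A hq a).symm
  have hm22 : ∀ a, a ∈ (redData2K0 A (M' * q) hqE).Rw ↔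
      alphaK0 A (M' * q) q a ∈ (redData2QK0 A (M' * q * q) hQ).Rw :=
    fun a => (alphaK0_mem_Rw2QK0_iff A M' hQ hqE a).symm
  have hn11 : ∀ a, a ∈ (redDataK0 A (M' * q)).Rw ↔
      betaK0 A (M' * q) q a ∈ (redDataK0 A (M' * q * q)).Rw :=
    fun a => (betaK0_mem_RwK0_iff A (M' * q) q a).symm
  have hn22 : ∀ a, a ∈ (redData2K0 A (M' * q) hqE).Rw ↔
      betaK0 A (M' * q) q a ∈ (redData2QK0 A (M' * q * q) hQ).Rw :=
    fun a => (betaK0_mem_Rw2QK0_iff A M' hQ hqE a).symm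
  have hn23 : ∀ a, a ∈ (redData2K0 A (M' * q) hqE).Rw ↔
      betaK0 A (M' * q) q a ∈ (redData3K0 A (M' * q * q) q hq hA).Rw :=
    fun a => (betaK0_mem_Rw3K0_iff A hq hqM a).symm
  have hW : Incomparable ![(redDataK0 A (M' * q * q)).Rw, (redData2QK0 A (M' * q * q) hQ).Rw,
      (redData3K0 A (M' * q * q) q hq hA).Rw] :=
    incomparable_three_K0 A hq (level_eq (M' := M') (q := q)) hqM hA hQ
  exact exists_normalised_abs (k := k₀) q hp hpq hq1 hr
    (alphaK0 A (M' * q) q) (betaK0 A (M' * q) q)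
    (finiteAlong_alphaK0 A M' hq) (finiteAlong_betaK0 A M' hq)
    (finrank_alphaK0 A hq hqdvd).le (finrank_betaK0 A hq hqdvd).le
    (redDataK0 A (M' * q)) (redData2K0 A (M' * q) hqE)
    (redDataK0 A (M' * q * q)) (redData2QK0 A (M' * q * q) hQ)
    (redData3K0 A (M' * q * q) q hq hA)
    (isUnif_R0 A hq hA) (isDiscAt_R0 A hq hA)
    (sameBase_11 A M') (sameBase_13 A M' hq hA) (sameBase_22 A M' hQ hqE)
    (sameBase_23 A M' hqE hq hA)
    (isRamified_Rw1K0 A (M' * q) hq hA) (isRamified_Rw2K0 A (M' * q) hq hA hqE)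
    (isRamified_Rw1K0 A (M' * q * q) hq hA) (isRamified_Rw2QK0 A (M' * q * q) hQ hq hA)
    hR3
    (isDiscAt_Rw1K0 A hq hA (M' * q * q)) (isDiscAt_Rw2QK0 A hq hA (M' * q * q) hQ) hd3
    (isDiscAt_Rw1K0 A hq hA (M' * q)) (isDiscAt_Rw2K0 A hq hA (M' * q) hqE)
    hW hm11 hm13 hm22 hn11 hn22 hn23
    (jRes A (M' * q * q))
    (fun y hy => qExpand_ne_jqModC A hq (y : LaurentSeries k₀) (by
      rw [← coe_resHomAlong_alpha_22 A M' hQ hqE hm22 (sameBase_22 A M' hQ hqE) y, hy, coe_jRes]))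
    ⟨jRes A (M' * q), Subtype.ext (by
      rw [coe_resHomAlong_alpha_22, coe_jRes, qExpand_jqModC_eq_pow A hq hA]
      rw [IntermediateField.coe_pow, coe_jRes])⟩
    (jRes A (M' * q * q))
    (fun y hy => qExpand_ne_jqModC A hq (y : LaurentSeries k₀) (by
      rw [← coe_resHomAlong_beta_11 A M' hn11 (sameBase_11 A M') y, hy, coe_jRes]))
    ⟨jRes A (M' * q), Subtype.ext (by
      rw [coe_resHomAlong_beta_11, coe_jRes, qExpand_jqModC_eq_pow A hq hA]
      rw [IntermediateField.coe_pow, coe_jRes])⟩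
    hu n e₁ e₂


include hq hqE hqM hA in
/-- **(H3) in the binder shape of `Gate.k0UnitGateQ_of_chain'`, valuation form of `U2`**, for ANY
monoid-hom forms `NmA NmB` of the two norms (e.g. helper82's `TopInst.normK0A/B`, by `rfl`):
feed this to helper44's `H3.h3_of_valForm`. -/
theorem h3_K0_binder {p c r : ℕ} (hp : p.Prime) (hpq : p ≠ q) (hq1 : q + 1 = p ^ c * r)
    (hr : ¬ p ∣ r)
    (NmA NmB : modularFunctionFieldFullC (K0 A) (M' * q * q) →*
      modularFunctionFieldFullC (K0 A) (M' * q))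
    (hNmA : ∀ x, NmA x = @Algebra.norm (modularFunctionFieldFullC (K0 A) (M' * q))
      (modularFunctionFieldFullC (K0 A) (M' * q * q)) _ _ (algebraAlong (alphaK0 A (M' * q) q)) x)
    (hNmB : ∀ x, NmB x = @Algebra.norm (modularFunctionFieldFullC (K0 A) (M' * q))
      (modularFunctionFieldFullC (K0 A) (M' * q * q)) _ _ (algebraAlong (betaK0 A (M' * q) q)) x)
    (n : ℕ) :
    ∀ x : modularFunctionFieldFullC (K0 A) (M' * q * q), x ≠ 0 →
      IsCstPow (K0 A) (p ^ n) (NmA x) → IsCstPow (K0 A) (p ^ n) (NmB x) →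
      ∃ (cst : K0 A) (g u2 : modularFunctionFieldFullC (K0 A) (M' * q * q)), cst ≠ 0 ∧ g ≠ 0 ∧
        x ^ (q - 1) = algebraMap (K0 A) (modularFunctionFieldFullC (K0 A) (M' * q * q)) cst *
          g ^ (p ^ (n - c)) * u2 ∧
        ((RwK0 A (M' * q * q)).valuation (u2 - 1) < 1 ∧
          (redData2QK0 A (M' * q * q) hQ).Rw.valuation (u2 - 1) < 1 ∧
          (Rw3K0 A (M' * q * q) q).valuation (u2 - 1) < 1) ∧
        IsCstPow (K0 A) (p ^ (n - c)) (NmA u2) ∧ IsCstPow (K0 A) (p ^ (n - c)) (NmB u2) := by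
  intro x hx e1 e2
  rw [hNmA] at e1
  rw [hNmB] at e2
  obtain ⟨cst, g, u2, hc, hg, hxu, v1, v2, v3, n1, n2⟩ :=
    h3_K0 A M' hQ hqE hq hqM hA hp hpq hq1 hr n hx e1 e2
  refine ⟨cst, g, u2, hc, hg, hxu, ⟨v1, v2, v3⟩, ?_, ?_⟩
  · rw [hNmA]; exact n1
  · rw [hNmB]; exact n2

end Main

end Fermat.Agent.GL.Chain.K0
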