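/-
GATE-L / POINT-BRANCH (helper35): the abstract half of the construction of helper46's
`H4OfXi.TripleSetup` — branch points as `k`-points of Dedekind domains.

`C` a Dedekind domain with fraction field `K`, `ψ : C →+* k` a ring homomorphism onto a field with
`ker ψ ≠ ⊥` (a closed point of the affine curve `Spec C`).

* `ptVal ψ h0 : ValuationSubring K` : the local ring of the point (a DVR);
  `mem_ptVal_iff : y ∈ ptVal ψ h0 ↔ ∃ s, ψ s ≠ 0 ∧ s • y ∈ (algebraMap C K).range`;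
* `ptEv ψ h0 : ptVal ψ h0 →+* k` : evaluation at the point;
  `ptEv_algebraMap`, `ptEv_mul_eq` (`s • y = a ⟹ ptEv y * ψ s = ψ a`);
* `heu` : `ptEv ⟨y, hy⟩ ≠ 0 → y⁻¹ ∈ ptVal ψ h0`            (`= TripleSetup.heu_i`);
* FUNCTORIALITY (`J : C' →+* C`, `j : K' →+* K`, `ψ ∘ J = ψ'`):
  `mem_ptVal_map_iff : y ∈ ptVal ψ' h0' ↔ j y ∈ ptVal ψ h0`   (`= TripleSetup.c11 … c23'`),
  `ptEv_map : ptEv ψ h0 ⟨j y, _⟩ = ptEv ψ' h0' ⟨y, _⟩`        (`= TripleSetup.c11e … c23e'`);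
* CHART RING (`W`, `r : W →+* K`, `hr`): `mem_comp_of_red`, `branch_ev_of_red` : an element of `W`
  whose reduction is `algebraMap C K c` lies in `comp W r hr (ptVal ψ h0)` with branch value `ψ c`
  (`= TripleSetup.hB_i, hχ_i`).
-/
import Mathlib
import Fermat.Agent.GL.Alg.KrullHeightOne
import Fermat.Agent.GL.Chain.CompBranchKer

set_option autoImplicit false
set_option linter.unusedSectionVars false

namespace Fermat.Agent.GL.PointBranch

open Fermat.Agent.GL.KrullHeightOne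

variable {k : Type*} [Field k] {C K : Type*} [CommRing C] [IsDedekindDomain C]
  [Field K] [Algebra C K] [IsFractionRing C K]

section Point

variable (ψ : C →+* k)

instance ker_isPrime : (RingHom.ker ψ).IsPrime := RingHom.ker_isPrime ψ

theorem isDVR_locSub (h0 : RingHom.ker ψ ≠ ⊥) : IsDiscreteValuationRing (locSub K (RingHom.ker ψ)) :=
  IsLocalization.AtPrime.isDiscreteValuationRing_of_dedekind_domain C h0 _

variable (K) in
/-- the local ring of the point `ψ`, as a valuation subring of `K = Frac C`. -/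
noncomputable def ptVal (h0 : RingHom.ker ψ ≠ ⊥) : ValuationSubring K :=
  { (locSub K (RingHom.ker ψ)).toSubring with
    mem_or_inv_mem' := fun x => by
      have := isDVR_locSub (K := K) ψ h0
      rcases ValuationRing.isInteger_or_isInteger (locSub K (RingHom.ker ψ)) x with ⟨a, ha⟩ | ⟨a, ha⟩
      · left
        rw [← ha]
        exact a.2
      · right
        rw [← ha]
        exact a.2 }

theorem mem_ptVal_iff (h0 : RingHom.ker ψ ≠ ⊥) {y : K} :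
    y ∈ ptVal K ψ h0 ↔ ∃ s : C, ψ s ≠ 0 ∧ s • y ∈ (algebraMap C K).range := by
  have := mem_locSub_iff (F := K) (RingHom.ker ψ) (x := y)
  simp only [RingHom.mem_ker] at this
  exact this

theorem algebraMap_mem_ptVal (h0 : RingHom.ker ψ ≠ ⊥) (c : C) : algebraMap C K c ∈ ptVal K ψ h0 :=
  algebraMap_mem_locSub (RingHom.ker ψ) c

/-- evaluation on the localisation -/
noncomputable def locEv : locSub K (RingHom.ker ψ) →+* k :=
  IsLocalization.lift (M := (RingHom.ker ψ).primeCompl) (S := locSub K (RingHom.ker ψ)) (g := ψ)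
    (fun y => by
      have hy : ψ (y : C) ≠ 0 := fun h => y.2 ((RingHom.mem_ker).2 h)
      exact isUnit_iff_ne_zero.mpr hy)

theorem locEv_algebraMap (c : C) :
    locEv (K := K) ψ (algebraMap C (locSub K (RingHom.ker ψ)) c) = ψ c :=
  IsLocalization.lift_eq _ c

/-- **evaluation at the point.** -/
noncomputable def ptEv (h0 : RingHom.ker ψ ≠ ⊥) : ptVal K ψ h0 →+* k where
  toFun y := locEv (K := K) ψ ⟨y.1, y.2⟩
  map_one' := map_one (locEv (K := K) ψ)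
  map_mul' a b := map_mul (locEv (K := K) ψ) ⟨a.1, a.2⟩ ⟨b.1, b.2⟩
  map_zero' := map_zero (locEv (K := K) ψ)
  map_add' a b := map_add (locEv (K := K) ψ) ⟨a.1, a.2⟩ ⟨b.1, b.2⟩

theorem ptEv_algebraMap (h0 : RingHom.ker ψ ≠ ⊥) (c : C) :
    ptEv ψ h0 ⟨algebraMap C K c, algebraMap_mem_ptVal ψ h0 c⟩ = ψ c :=
  locEv_algebraMap (K := K) ψ c

/-- `s • y = a ⟹ ptEv y * ψ s = ψ a`. -/
theorem ptEv_mul_eq (h0 : RingHom.ker ψ ≠ ⊥) {y : K} (hy : y ∈ ptVal K ψ h0) {s a : C}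
    (h : s • y = algebraMap C K a) : ptEv ψ h0 ⟨y, hy⟩ * ψ s = ψ a := by
  have e1 : (⟨y, hy⟩ : ptVal K ψ h0) * ⟨algebraMap C K s, algebraMap_mem_ptVal ψ h0 s⟩ =
      ⟨algebraMap C K a, algebraMap_mem_ptVal ψ h0 a⟩ := by
    apply Subtype.ext
    show y * algebraMap C K s = algebraMap C K a
    rw [← h, Algebra.smul_def, mul_comm]
  have := congrArg (ptEv ψ h0) e1
  rw [map_mul, ptEv_algebraMap, ptEv_algebraMap] at this
  exact this

/-- the evaluation detects the units (`TripleSetup.heu_i`). -/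
theorem heu (h0 : RingHom.ker ψ ≠ ⊥) (y : K) (hy : y ∈ ptVal K ψ h0) (hne : ptEv ψ h0 ⟨y, hy⟩ ≠ 0) :
    y⁻¹ ∈ ptVal K ψ h0 := by
  obtain ⟨s, hs, a, ha⟩ := (mem_ptVal_iff ψ h0).1 hy
  have hev := ptEv_mul_eq ψ h0 hy ha.symm
  have hψa : ψ a ≠ 0 := by
    rw [← hev]
    exact mul_ne_zero hne hs
  have hy0 : y ≠ 0 := by
    rintro rfl
    apply hne
    have : (⟨(0 : K), hy⟩ : ptVal K ψ h0) = 0 := rfl
    rw [this, map_zero]
  refine (mem_ptVal_iff ψ h0).2 ⟨a, hψa, s, ?_⟩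
  rw [Algebra.smul_def, ha, Algebra.smul_def]
  field_simp

/-- a non-zero value is a unit value: `ptEv (y⁻¹) = (ptEv y)⁻¹`. -/
theorem ptEv_inv (h0 : RingHom.ker ψ ≠ ⊥) {y : K} (hy : y ∈ ptVal K ψ h0) (hyi : y⁻¹ ∈ ptVal K ψ h0) (hy0 : y ≠ 0) :
    ptEv ψ h0 ⟨y, hy⟩ * ptEv ψ h0 ⟨y⁻¹, hyi⟩ = 1 := by
  rw [← map_mul]
  have : (⟨y, hy⟩ : ptVal K ψ h0) * ⟨y⁻¹, hyi⟩ = 1 := Subtype.ext (mul_inv_cancel₀ hy0)
  rw [this, map_one]

end Point

/-! ### functoriality -/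

section Map

variable {C' K' : Type*} [CommRing C'] [IsDedekindDomain C'] [Field K']
  [Algebra C' K'] [IsFractionRing C' K']
  (ψ : C →+* k) (h0 : RingHom.ker ψ ≠ ⊥) (ψ' : C' →+* k) (h0' : RingHom.ker ψ' ≠ ⊥)
  (J : C' →+* C) (j : K' →+* K)
  (hjJ : ∀ c, j (algebraMap C' K' c) = algebraMap C K (J c)) (hψ : ∀ c, ψ (J c) = ψ' c)

include hjJ hψ in
theorem map_mem_ptVal {y : K'} (hy : y ∈ ptVal K' ψ' h0') : j y ∈ ptVal K ψ h0 := by
  obtain ⟨s, hs, a, ha⟩ := (mem_ptVal_iff ψ' h0').1 hy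
  refine (mem_ptVal_iff ψ h0).2 ⟨J s, by rw [hψ]; exact hs, J a, ?_⟩
  rw [Algebra.smul_def, ← hjJ, ← hjJ, ← map_mul, ha, Algebra.smul_def]

include hjJ hψ in
/-- compatibility of the evaluations (`TripleSetup.c11e …`). -/
theorem ptEv_map {y : K'} (hy : y ∈ ptVal K' ψ' h0') (hjy : j y ∈ ptVal K ψ h0) :
    ptEv ψ h0 ⟨j y, hjy⟩ = ptEv ψ' h0' ⟨y, hy⟩ := by
  obtain ⟨s, hs, a, ha⟩ := (mem_ptVal_iff ψ' h0').1 hy
  have e1 := ptEv_mul_eq ψ' h0' hy ha.symm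
  have hJ : (J s) • j y = algebraMap C K (J a) := by
    rw [Algebra.smul_def, ← hjJ, ← hjJ, ← map_mul, ha, Algebra.smul_def]
  have e2 := ptEv_mul_eq ψ h0 hjy hJ
  rw [hψ, hψ, ← e1] at e2
  exact mul_right_cancel₀ hs e2

include hjJ hψ in
/-- **the branch point upstairs lies over the branch point downstairs**
(`TripleSetup.c11 …`). -/
theorem mem_ptVal_map_iff (y : K') : y ∈ ptVal K' ψ' h0' ↔ j y ∈ ptVal K ψ h0 := by
  refine ⟨map_mem_ptVal ψ h0 ψ' h0' J j hjJ hψ, fun hjy => ?_⟩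
  by_contra hy
  have hyi : y⁻¹ ∈ ptVal K' ψ' h0' := ((ptVal K' ψ' h0').mem_or_inv_mem y).resolve_left hy
  have hy0 : y ≠ 0 := by
    rintro rfl
    exact hy (ptVal K' ψ' h0').zero_mem
  -- `y⁻¹` has value `0`
  have hev0 : ptEv ψ' h0' ⟨y⁻¹, hyi⟩ = 0 := by
    by_contra hne
    have := heu ψ' h0' y⁻¹ hyi hne
    rw [inv_inv] at this
    exact hy this
  have hjyi : j y⁻¹ ∈ ptVal K ψ h0 := map_mem_ptVal ψ h0 ψ' h0' J j hjJ hψ hyi
  have h1 := ptEv_map ψ h0 ψ' h0' J j hjJ hψ hyi hjyi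
  rw [hev0] at h1
  have hjy0 : j y ≠ 0 := (map_ne_zero j).2 hy0
  have hjyi' : (j y)⁻¹ ∈ ptVal K ψ h0 := by rw [← map_inv₀]; exact hjyi
  have h2 := ptEv_inv ψ h0 hjy hjyi' hjy0
  have h3 : ptEv ψ h0 ⟨(j y)⁻¹, hjyi'⟩ = 0 := by
    have : (⟨(j y)⁻¹, hjyi'⟩ : ptVal K ψ h0) = ⟨j y⁻¹, hjyi⟩ := Subtype.ext (map_inv₀ j y).symm
    rw [this, h1]
  rw [h3, mul_zero] at h2
  exact zero_ne_one h2

end Map

/-! ### the chart ring inside the composite rings -/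

section Chart

open Fermat.Agent.GL.CompBranch

variable {F : Type*} [Field F] (W : ValuationSubring F) (r : W →+* K)
  (hr : ∀ z : W, ¬ IsUnit z → r z = 0) (ψ : C →+* k) (h0 : RingHom.ker ψ ≠ ⊥)

/-- an element of `W` with regular reduction lies in the composite ring (`TripleSetup.hB_i`). -/
theorem mem_comp_of_red {z : F} (hz : z ∈ W) {c : C} (hc : r ⟨z, hz⟩ = algebraMap C K c) :
    z ∈ comp W r hr (ptVal K ψ h0) :=
  (mem_comp W r hr (ptVal K ψ h0)).2 ⟨hz, hc ▸ algebraMap_mem_ptVal ψ h0 c⟩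

/-- … with branch value `ψ c` (`TripleSetup.hχ_i`). -/
theorem branch_ev_of_red {z : F} (hz : z ∈ W) {c : C} (hc : r ⟨z, hz⟩ = algebraMap C K c) :
    (branch W r hr (ptVal K ψ h0) (ptEv ψ h0)).ev z = ψ c := by
  have hU : r ⟨z, hz⟩ ∈ ptVal K ψ h0 := hc ▸ algebraMap_mem_ptVal ψ h0 c
  rw [branch_ev W r hr (ptVal K ψ h0) (ptEv ψ h0) hz hU]
  have : (⟨r ⟨z, hz⟩, hU⟩ : ptVal K ψ h0) =
      ⟨algebraMap C K c, algebraMap_mem_ptVal ψ h0 c⟩ := Subtype.ext hc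
  rw [this, ptEv_algebraMap]

end Chart

end Fermat.Agent.GL.PointBranch
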