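/-
GATE-L / TRIPLE-OF-POINTS (helper35): helper46's `H4OfXi.TripleSetup` BUILT from point-level data.

`TripleData` = what a concrete owner has to supply:
* the valuation data `W_i, rd_i, hr_i` (`i = 1,2,3`), `A_i, rd_i', hr_i'` (`i = 1,2`) — as in `TripleSetup`;
* Dedekind domains `C_i` with `Frac C_i = k_i` (`C_i'` with `Frac C_i' = k_i'`): the coordinate rings
  of the components of the special fibre;
* the branch points as ring homomorphisms `ψ_i n : C_i →+* k`, `ψ_i' n' : C_i' →+* k` (onto, kernel `≠ ⊥`);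
* the two projections `p1 p2 : T → T'`, the norms with their four rows, the six residue embeddings
  `j.. : k_a' →+* k_b` each restricting to `J.. : C_a' →+* C_b` and compatible with the points;
* the chart ring `B` with the triple points `P n`, the residue characters `χ n`, and
  "the reduction of `b ∈ B` along `W_i` is regular: `rd_i b = c ∈ C_i`, with `ψ_i n c = χ n b`".

`TripleData.toSetup : TripleSetup …` fills `U_i n := ptVal (ψ_i n)`, `e_i n := ptEv (ψ_i n)`,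
`heu_i`, the twelve compatibilities `c11 … c23e'`, `hB_i`, `hχ_i` by `PointBranch`.
-/
import Fermat.Agent.GL.Chain.PointBranch
import Fermat.Agent.GL.Gate.H4OfXi

set_option autoImplicit false
set_option linter.unusedSectionVars false

namespace Fermat.Agent.GL.TripleOfPoints

open Fermat.Agent.GL.PointBranch Fermat.Agent.GL.H4OfXi Fermat.Agent.GL.CompBranch

/-- point-level data at the triple points. -/
structure TripleData (F E k k1 k2 k3 k1' k2' B T T' C1 C2 C3 C1' C2' : Type*) [Field F] [Field E]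
    [Field k] [Field k1] [Field k2] [Field k3] [Field k1'] [Field k2'] [CommRing B] [Algebra B F]
    [CommRing C1] [IsDedekindDomain C1] [Algebra C1 k1] [IsFractionRing C1 k1]
    [CommRing C2] [IsDedekindDomain C2] [Algebra C2 k2] [IsFractionRing C2 k2]
    [CommRing C3] [IsDedekindDomain C3] [Algebra C3 k3] [IsFractionRing C3 k3]
    [CommRing C1'] [IsDedekindDomain C1'] [Algebra C1' k1'] [IsFractionRing C1' k1']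
    [CommRing C2'] [IsDedekindDomain C2'] [Algebra C2' k2'] [IsFractionRing C2' k2'] where
  W1 : ValuationSubring F
  W2 : ValuationSubring F
  W3 : ValuationSubring F
  A1 : ValuationSubring E
  A2 : ValuationSubring E
  rd1 : W1 →+* k1
  rd2 : W2 →+* k2
  rd3 : W3 →+* k3
  rd1' : A1 →+* k1'
  rd2' : A2 →+* k2'
  hr1 : ∀ z : W1, ¬ IsUnit z → rd1 z = 0
  hr2 : ∀ z : W2, ¬ IsUnit z → rd2 z = 0
  hr3 : ∀ z : W3, ¬ IsUnit z → rd3 z = 0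
  hr1' : ∀ z : A1, ¬ IsUnit z → rd1' z = 0
  hr2' : ∀ z : A2, ¬ IsUnit z → rd2' z = 0
  /-- the branch points -/
  ψ1 : T → C1 →+* k
  ψ2 : T → C2 →+* k
  ψ3 : T → C3 →+* k
  ψ1' : T' → C1' →+* k
  ψ2' : T' → C2' →+* k
  hψ1 : ∀ n, RingHom.ker (ψ1 n) ≠ ⊥
  hψ2 : ∀ n, RingHom.ker (ψ2 n) ≠ ⊥
  hψ3 : ∀ n, RingHom.ker (ψ3 n) ≠ ⊥
  hψ1' : ∀ n', RingHom.ker (ψ1' n') ≠ ⊥
  hψ2' : ∀ n', RingHom.ker (ψ2' n') ≠ ⊥
  p1 : T → T'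
  p2 : T → T'
  Nm : F →* E
  Nm' : F →* E
  q : ℕ
  hq : 1 ≤ q
  j11 : k1' →+* k1
  j13 : k1' →+* k3
  j22 : k2' →+* k2
  j11' : k1' →+* k1
  j22' : k2' →+* k2
  j23' : k2' →+* k3
  hπ13 : ∀ (u : F) (h1 : u ∈ W1) (h3 : u ∈ W3), ∃ hN : Nm u ∈ A1, ∃ y1 y3 : k1',
    j11 y1 = rd1 ⟨u, h1⟩ ∧ j13 y3 = rd3 ⟨u, h3⟩ ∧ rd1' ⟨Nm u, hN⟩ = y1 * y3 ^ (q - 1)
  hπ2 : ∀ (u : F) (h2 : u ∈ W2), ∃ hN : Nm u ∈ A2, j22 (rd2' ⟨Nm u, hN⟩) = rd2 ⟨u, h2⟩ ^ q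
  hπ'1 : ∀ (u : F) (h1 : u ∈ W1), ∃ hN : Nm' u ∈ A1,
    j11' (rd1' ⟨Nm' u, hN⟩) = rd1 ⟨u, h1⟩ ^ q
  hπ'23 : ∀ (u : F) (h2 : u ∈ W2) (h3 : u ∈ W3), ∃ hN : Nm' u ∈ A2, ∃ y2 y3 : k2',
    j22' y2 = rd2 ⟨u, h2⟩ ∧ j23' y3 = rd3 ⟨u, h3⟩ ∧ rd2' ⟨Nm' u, hN⟩ = y2 * y3 ^ (q - 1)
  /-- the residue embeddings on the coordinate rings -/
  J11 : C1' →+* C1
  J13 : C1' →+* C3
  J22 : C2' →+* C2
  J11' : C1' →+* C1
  J22' : C2' →+* C2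
  J23' : C2' →+* C3
  hJ11 : ∀ c, j11 (algebraMap C1' k1' c) = algebraMap C1 k1 (J11 c)
  hJ13 : ∀ c, j13 (algebraMap C1' k1' c) = algebraMap C3 k3 (J13 c)
  hJ22 : ∀ c, j22 (algebraMap C2' k2' c) = algebraMap C2 k2 (J22 c)
  hJ11' : ∀ c, j11' (algebraMap C1' k1' c) = algebraMap C1 k1 (J11' c)
  hJ22' : ∀ c, j22' (algebraMap C2' k2' c) = algebraMap C2 k2 (J22' c)
  hJ23' : ∀ c, j23' (algebraMap C2' k2' c) = algebraMap C3 k3 (J23' c)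
  /-- the branch points upstairs lie over the branch points downstairs -/
  hp11 : ∀ n c, ψ1 n (J11 c) = ψ1' (p1 n) c
  hp13 : ∀ n c, ψ3 n (J13 c) = ψ1' (p1 n) c
  hp22 : ∀ n c, ψ2 n (J22 c) = ψ2' (p1 n) c
  hp11' : ∀ n c, ψ1 n (J11' c) = ψ1' (p2 n) c
  hp22' : ∀ n c, ψ2 n (J22' c) = ψ2' (p2 n) c
  hp23' : ∀ n c, ψ3 n (J23' c) = ψ2' (p2 n) c
  /-- the triple points -/
  P : T → Ideal B
  hmax : ∀ n, (P n).IsMaximal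
  hinj : Function.Injective P
  χ : T → (B →+* k)
  hχker : ∀ n b, χ n b = 0 ↔ b ∈ P n
  hχsurj : ∀ n, Function.Surjective (χ n)
  /-- the reductions of the chart ring are regular, with the right values at the branch points -/
  hred1 : ∀ b : B, ∃ (h : algebraMap B F b ∈ W1) (c : C1),
    rd1 ⟨algebraMap B F b, h⟩ = algebraMap C1 k1 c ∧ ∀ n, ψ1 n c = χ n b
  hred2 : ∀ b : B, ∃ (h : algebraMap B F b ∈ W2) (c : C2),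
    rd2 ⟨algebraMap B F b, h⟩ = algebraMap C2 k2 c ∧ ∀ n, ψ2 n c = χ n b
  hred3 : ∀ b : B, ∃ (h : algebraMap B F b ∈ W3) (c : C3),
    rd3 ⟨algebraMap B F b, h⟩ = algebraMap C3 k3 c ∧ ∀ n, ψ3 n c = χ n b

variable {F E k k1 k2 k3 k1' k2' B T T' C1 C2 C3 C1' C2' : Type*} [Field F] [Field E]
    [Field k] [Field k1] [Field k2] [Field k3] [Field k1'] [Field k2'] [CommRing B] [Algebra B F]
    [CommRing C1] [IsDedekindDomain C1] [Algebra C1 k1] [IsFractionRing C1 k1]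
    [CommRing C2] [IsDedekindDomain C2] [Algebra C2 k2] [IsFractionRing C2 k2]
    [CommRing C3] [IsDedekindDomain C3] [Algebra C3 k3] [IsFractionRing C3 k3]
    [CommRing C1'] [IsDedekindDomain C1'] [Algebra C1' k1'] [IsFractionRing C1' k1']
    [CommRing C2'] [IsDedekindDomain C2'] [Algebra C2' k2'] [IsFractionRing C2' k2']

/-- **the `TripleSetup` of point-level data.** -/
noncomputable def TripleData.toSetup
    (D : TripleData F E k k1 k2 k3 k1' k2' B T T' C1 C2 C3 C1' C2') :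
    TripleSetup F E k k1 k2 k3 k1' k2' B T T' where
  W1 := D.W1
  W2 := D.W2
  W3 := D.W3
  A1 := D.A1
  A2 := D.A2
  rd1 := D.rd1
  rd2 := D.rd2
  rd3 := D.rd3
  rd1' := D.rd1'
  rd2' := D.rd2'
  hr1 := D.hr1
  hr2 := D.hr2
  hr3 := D.hr3
  hr1' := D.hr1'
  hr2' := D.hr2'
  U1 n := ptVal k1 (D.ψ1 n) (D.hψ1 n)
  U2 n := ptVal k2 (D.ψ2 n) (D.hψ2 n)
  U3 n := ptVal k3 (D.ψ3 n) (D.hψ3 n)
  e1 n := ptEv (D.ψ1 n) (D.hψ1 n)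
  e2 n := ptEv (D.ψ2 n) (D.hψ2 n)
  e3 n := ptEv (D.ψ3 n) (D.hψ3 n)
  U1' n' := ptVal k1' (D.ψ1' n') (D.hψ1' n')
  U2' n' := ptVal k2' (D.ψ2' n') (D.hψ2' n')
  e1' n' := ptEv (D.ψ1' n') (D.hψ1' n')
  e2' n' := ptEv (D.ψ2' n') (D.hψ2' n')
  heu1 n := heu (D.ψ1 n) (D.hψ1 n)
  heu2 n := heu (D.ψ2 n) (D.hψ2 n)
  heu3 n := heu (D.ψ3 n) (D.hψ3 n)
  p1 := D.p1
  p2 := D.p2
  Nm := D.Nm
  Nm' := D.Nm'
  q := D.q
  hq := D.hq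
  j11 := D.j11
  j13 := D.j13
  j22 := D.j22
  j11' := D.j11'
  j22' := D.j22'
  j23' := D.j23'
  hπ13 := D.hπ13
  hπ2 := D.hπ2
  hπ'1 := D.hπ'1
  hπ'23 := D.hπ'23
  c11 n := mem_ptVal_map_iff (D.ψ1 n) (D.hψ1 n) (D.ψ1' (D.p1 n)) (D.hψ1' _) D.J11 D.j11 D.hJ11
    (D.hp11 n)
  c11e n y hy hy' := ptEv_map (D.ψ1 n) (D.hψ1 n) (D.ψ1' (D.p1 n)) (D.hψ1' _) D.J11 D.j11 D.hJ11
    (D.hp11 n) hy hy'
  c13 n := mem_ptVal_map_iff (D.ψ3 n) (D.hψ3 n) (D.ψ1' (D.p1 n)) (D.hψ1' _) D.J13 D.j13 D.hJ13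
    (D.hp13 n)
  c13e n y hy hy' := ptEv_map (D.ψ3 n) (D.hψ3 n) (D.ψ1' (D.p1 n)) (D.hψ1' _) D.J13 D.j13 D.hJ13
    (D.hp13 n) hy hy'
  c22 n := mem_ptVal_map_iff (D.ψ2 n) (D.hψ2 n) (D.ψ2' (D.p1 n)) (D.hψ2' _) D.J22 D.j22 D.hJ22
    (D.hp22 n)
  c22e n y hy hy' := ptEv_map (D.ψ2 n) (D.hψ2 n) (D.ψ2' (D.p1 n)) (D.hψ2' _) D.J22 D.j22 D.hJ22
    (D.hp22 n) hy hy'
  c11' n := mem_ptVal_map_iff (D.ψ1 n) (D.hψ1 n) (D.ψ1' (D.p2 n)) (D.hψ1' _) D.J11' D.j11' D.hJ11'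
    (D.hp11' n)
  c11e' n y hy hy' := ptEv_map (D.ψ1 n) (D.hψ1 n) (D.ψ1' (D.p2 n)) (D.hψ1' _) D.J11' D.j11'
    D.hJ11' (D.hp11' n) hy hy'
  c22' n := mem_ptVal_map_iff (D.ψ2 n) (D.hψ2 n) (D.ψ2' (D.p2 n)) (D.hψ2' _) D.J22' D.j22' D.hJ22'
    (D.hp22' n)
  c22e' n y hy hy' := ptEv_map (D.ψ2 n) (D.hψ2 n) (D.ψ2' (D.p2 n)) (D.hψ2' _) D.J22' D.j22'
    D.hJ22' (D.hp22' n) hy hy'
  c23' n := mem_ptVal_map_iff (D.ψ3 n) (D.hψ3 n) (D.ψ2' (D.p2 n)) (D.hψ2' _) D.J23' D.j23' D.hJ23'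
    (D.hp23' n)
  c23e' n y hy hy' := ptEv_map (D.ψ3 n) (D.hψ3 n) (D.ψ2' (D.p2 n)) (D.hψ2' _) D.J23' D.j23'
    D.hJ23' (D.hp23' n) hy hy'
  P := D.P
  hmax := D.hmax
  hinj := D.hinj
  χ := D.χ
  hχker := D.hχker
  hχsurj := D.hχsurj
  hB1 n b := by
    obtain ⟨h, c, hc, -⟩ := D.hred1 b
    exact mem_comp_of_red D.W1 D.rd1 D.hr1 (D.ψ1 n) (D.hψ1 n) h hc
  hB2 n b := by
    obtain ⟨h, c, hc, -⟩ := D.hred2 b
    exact mem_comp_of_red D.W2 D.rd2 D.hr2 (D.ψ2 n) (D.hψ2 n) h hc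
  hB3 n b := by
    obtain ⟨h, c, hc, -⟩ := D.hred3 b
    exact mem_comp_of_red D.W3 D.rd3 D.hr3 (D.ψ3 n) (D.hψ3 n) h hc
  hχ1 n b := by
    obtain ⟨h, c, hc, hv⟩ := D.hred1 b
    rw [branch_ev_of_red D.W1 D.rd1 D.hr1 (D.ψ1 n) (D.hψ1 n) h hc, hv n]
  hχ2 n b := by
    obtain ⟨h, c, hc, hv⟩ := D.hred2 b
    rw [branch_ev_of_red D.W2 D.rd2 D.hr2 (D.ψ2 n) (D.hψ2 n) h hc, hv n]
  hχ3 n b := by
    obtain ⟨h, c, hc, hv⟩ := D.hred3 b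
    rw [branch_ev_of_red D.W3 D.rd3 D.hr3 (D.ψ3 n) (D.hψ3 n) h hc, hv n]

end Fermat.Agent.GL.TripleOfPoints
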